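/-
GAMMA-RED (helper7), part 1: evaluation at places, for an arbitrary valuation ring `A` of the
constants (generic copy of `Lib/T3/Red/Eval.lean`, which is tied to `TbBase`).

* `s33rdComp hx A P` : the composite of the place `P` of `F/K` with the valuation ring `A ⊂ K`
  (functions regular at `P` with value in `A`), a valuation subring of `F`;
* `s33rdEv hx A resA P : s33rdComp → k`, `f ↦ \overline{f(P)}`;
* `s33rd_value_mem` : if `x(P) ∈ A` then every `g` integral over `A[x]` has its value at `P` in `A`.
-/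
import Fermat.Agent.Lib.T3.Red.Interp
import Fermat.Agent.Lib.T2.Core.Sing

set_option autoImplicit false
set_option linter.style.haveILetI false
set_option linter.unusedSectionVars false

namespace Fermat.Agent.S33

open AlgebraicCurve IntermediateField Fermat.Agent.Curve Fermat.Agent.Curve.PlaceAux
  Fermat.Agent.T1 Fermat.Agent.T3

variable {K F k : Type*} [Field K] [Field F] [Algebra K F] [Field k]

section Comp

variable [IsAlgClosed K] {x : F} (hx : IsFunctionFieldGen K F x) (A : ValuationSubring K)
  (resA : ↥A →+* k) (P : Place K F)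

/-- the composite of the place `P` with the valuation ring `A` of the constants -/
def s33rdComp : ValuationSubring F where
  carrier := {f | ∃ c : ↥A, OrdGE P (f - algebraMap K F (c : K)) 1}
  mul_mem' := by
    rintro f f' ⟨c, hc⟩ ⟨c', hc'⟩
    exact ⟨c * c', by
      have := t3a_ordGE_mul_of P hc hc'
      simpa using this⟩
  one_mem' := ⟨1, by
    have h : (1 : F) - algebraMap K F ((1 : ↥A) : K) = 0 := by simp
    rw [h]; exact ordGE_zero P 1⟩
  add_mem' := by
    rintro f f' ⟨c, hc⟩ ⟨c', hc'⟩
    refine ⟨c + c', ?_⟩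
    have h := hc.add P hc'
    have h2 : f - algebraMap K F (c : K) + (f' - algebraMap K F (c' : K)) =
        f + f' - algebraMap K F ((c + c' : ↥A) : K) := by
      rw [show ((c + c' : ↥A) : K) = (c : K) + (c' : K) from rfl, map_add]; ring
    rwa [h2] at h
  zero_mem' := ⟨0, by
    have h : (0 : F) - algebraMap K F ((0 : ↥A) : K) = 0 := by simp
    rw [h]; exact ordGE_zero P 1⟩
  neg_mem' := by
    rintro f ⟨c, hc⟩
    refine ⟨-c, ?_⟩
    have h := hc.neg P
    have h2 : -(f - algebraMap K F (c : K)) = -f - algebraMap K F ((-c : ↥A) : K) := by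
      rw [show ((-c : ↥A) : K) = -(c : K) from rfl, map_neg]; ring
    rwa [h2] at h
  mem_or_inv_mem' := by
    intro f
    rcases eq_or_ne f 0 with rfl | hf0
    · left
      exact ⟨0, by
        have h : (0 : F) - algebraMap K F ((0 : ↥A) : K) = 0 := by simp
        rw [h]; exact ordGE_zero P 1⟩
    rcases lt_trichotomy (P.ord f) 0 with hlt | heq | hgt
    · right
      refine ⟨0, ?_⟩
      have h : f⁻¹ - algebraMap K F ((0 : ↥A) : K) = f⁻¹ := by simp
      rw [h, ordGE_iff]
      right
      rw [P.ord_inv]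
      omega
    · have hfmem : f ∈ P.toValuationSubring := mem_of_ord_nonneg P (le_of_eq heq.symm)
      obtain ⟨c, hc⟩ := exists_const_ordGE_one hx P hfmem
      have hc0 : c ≠ 0 := by
        rintro rfl
        rw [map_zero, sub_zero] at hc
        rcases (ordGE_iff P).mp hc with h0 | h0
        · exact hf0 h0
        · omega
      rcases A.mem_or_inv_mem c with hcA | hcA
      · left
        exact ⟨⟨c, hcA⟩, hc⟩
      · right
        exact ⟨⟨c⁻¹, hcA⟩, t3a_ordGE_inv_of hx P hc0 hc⟩
    · left
      refine ⟨0, ?_⟩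
      have h : f - algebraMap K F ((0 : ↥A) : K) = f := by simp
      rw [h, ordGE_iff]
      right
      omega

theorem mem_s33rdComp {f : F} :
    f ∈ s33rdComp hx A P ↔ ∃ c : ↥A, OrdGE P (f - algebraMap K F (c : K)) 1 := Iff.rfl

/-- the value at `P`, reduced modulo `𝔪_A` -/
noncomputable def s33rdEvFun (f : ↥(s33rdComp hx A P)) : k := resA (Classical.choose f.2)

theorem s33rdEvFun_eq {f : F} {c : ↥A} (hc : OrdGE P (f - algebraMap K F (c : K)) 1) :
    s33rdEvFun hx A resA P ⟨f, ⟨c, hc⟩⟩ = resA c := by
  have h1 := Classical.choose_spec (⟨c, hc⟩ : ∃ c : ↥A, OrdGE P (f - algebraMap K F (c : K)) 1)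
  have h2 : ((Classical.choose (⟨c, hc⟩ :
      ∃ c : ↥A, OrdGE P (f - algebraMap K F (c : K)) 1) : ↥A) : K) = (c : K) :=
    const_unique_of_ordGE_one P h1 hc
  show resA _ = resA c
  exact congrArg resA (Subtype.ext h2)

/-- evaluation at `P` followed by reduction, as a ring homomorphism -/
noncomputable def s33rdEv : ↥(s33rdComp hx A P) →+* k where
  toFun := s33rdEvFun hx A resA P
  map_one' := by
    have h : OrdGE P ((1 : F) - algebraMap K F ((1 : ↥A) : K)) 1 := by
      have h : (1 : F) - algebraMap K F ((1 : ↥A) : K) = 0 := by simp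
      rw [h]; exact ordGE_zero P 1
    have := s33rdEvFun_eq hx A resA P h
    rw [map_one] at this
    exact this
  map_mul' := by
    rintro ⟨f, c, hc⟩ ⟨f', c', hc'⟩
    have h : OrdGE P (f * f' - algebraMap K F ((c * c' : ↥A) : K)) 1 := by
      have := t3a_ordGE_mul_of P hc hc'
      simpa using this
    have h1 := s33rdEvFun_eq hx A resA P h
    have h2 := s33rdEvFun_eq hx A resA P hc
    have h3 := s33rdEvFun_eq hx A resA P hc'
    rw [map_mul] at h1
    show s33rdEvFun hx A resA P ⟨f * f', _⟩ =
      s33rdEvFun hx A resA P ⟨f, _⟩ * s33rdEvFun hx A resA P ⟨f', _⟩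
    rw [h1, h2, h3]
  map_zero' := by
    have h : OrdGE P ((0 : F) - algebraMap K F ((0 : ↥A) : K)) 1 := by
      have h : (0 : F) - algebraMap K F ((0 : ↥A) : K) = 0 := by simp
      rw [h]; exact ordGE_zero P 1
    have := s33rdEvFun_eq hx A resA P h
    rw [map_zero] at this
    exact this
  map_add' := by
    rintro ⟨f, c, hc⟩ ⟨f', c', hc'⟩
    have h : OrdGE P (f + f' - algebraMap K F ((c + c' : ↥A) : K)) 1 := by
      have h := hc.add P hc'
      have h2 : f - algebraMap K F (c : K) + (f' - algebraMap K F (c' : K)) =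
          f + f' - algebraMap K F ((c + c' : ↥A) : K) := by
        rw [show ((c + c' : ↥A) : K) = (c : K) + (c' : K) from rfl, map_add]; ring
      rwa [h2] at h
    have h1 := s33rdEvFun_eq hx A resA P h
    have h2 := s33rdEvFun_eq hx A resA P hc
    have h3 := s33rdEvFun_eq hx A resA P hc'
    rw [map_add] at h1
    show s33rdEvFun hx A resA P ⟨f + f', _⟩ =
      s33rdEvFun hx A resA P ⟨f, _⟩ + s33rdEvFun hx A resA P ⟨f', _⟩
    rw [h1, h2, h3]

theorem s33rdEv_eq {f : F} {c : ↥A} (hc : OrdGE P (f - algebraMap K F (c : K)) 1) :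
    s33rdEv hx A resA P ⟨f, ⟨c, hc⟩⟩ = resA c :=
  s33rdEvFun_eq hx A resA P hc

/-- constants of `A` lie in the composite -/
theorem s33rd_const_mem_comp (a : ↥A) : algebraMap K F (a : K) ∈ s33rdComp hx A P :=
  ⟨a, by rw [sub_self]; exact ordGE_zero P 1⟩

include hx in
/-- **values of integral functions**: if `x(P) ∈ A` then every `g` integral over `A[x]` has its
value at `P` in `A` -/
theorem s33rd_value_mem (hP : ∃ a : ↥A, OrdGE P (x - algebraMap K F (a : K)) 1) {g : F}
    (hg : IsIntegral ↥(Algebra.adjoin ↥A {x}) g) :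
    ∃ c : ↥A, OrdGE P (g - algebraMap K F (c : K)) 1 := by
  have hxmem : x ∈ s33rdComp hx A P := hP
  refine t3a_mem_of_isIntegral (s33rdComp hx A P) (R := ↥(Algebra.adjoin ↥A {x})) ?_ hg
  intro r
  have hle : Algebra.adjoin ↥A {x} ≤
      ({ (s33rdComp hx A P).toSubring with
          algebraMap_mem' := fun a => s33rd_const_mem_comp hx A P a } : Subalgebra ↥A F) := by
    refine Algebra.adjoin_le ?_
    intro y hy
    rw [Set.mem_singleton_iff] at hy
    rw [hy]
    exact hxmem
  exact hle r.2

end Comp

end Fermat.Agent.S33
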