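/-
GAMMA-RED (helper7), part 2: the abstract setup.

`d : T2Base K F k Fb` (two-valuation base, `Fb` the residue ring), the residue ring is a product of
copies of ONE function field `κ / k`, given by projections `pr i : Fb →ₐ[k] κ` (in the application
`Fb = κ × κ`, `ι = Fin 2`); a chart `x` with `x, x⁻¹ ∈ 𝒪`; `C = 𝒪 ∩ IntCl(K[x])`; a finite set
`nodes` of points of the special fibre such that every function on the normalisation which is
regular on the chart and vanishes at the nodes comes from `C` (`hJ`, seminormality: T2's (NODE)).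

This file: the structure `S33rdSetup`, the ring `C`, the evaluation `φ_P : C → k` at a chart place
`P` (value at `P`, reduced mod `𝔪_A`), which only depends on the reduction (`s33rdPhi_eq_of_res_eq`),
and units of the residue ring.
-/
import Fermat.Agent.Lib.S33.Red.Eval

set_option autoImplicit false
set_option linter.style.haveILetI false
set_option linter.unusedSectionVars false

namespace Fermat.Agent.S33

open AlgebraicCurve IntermediateField Fermat.Agent.Curve Fermat.Agent.Curve.PlaceAux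
  Fermat.Agent.T1 Fermat.Agent.T2 Fermat.Agent.T3

variable {K F k Fb : Type*} [Field K] [Field F] [Algebra K F] [Field k] [CommRing Fb] [Algebra k Fb]

/-- the abstract setup of GAMMA-RED -/
structure S33rdSetup (d : T2Base K F k Fb) (ι : Type*) (κ : Type*) [Field κ] [Algebra k κ] where
  /-- the components of the residue ring -/
  pr : ι → Fb →ₐ[k] κ
  pr_inj : ∀ t : Fb, (∀ i, pr i t = 0) → t = 0
  pr_surj : ∀ f : ι → κ, ∃ t : Fb, ∀ i, pr i t = f i
  /-- the chart -/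
  x : F
  hx : x ∈ d.Ov
  hxi : x⁻¹ ∈ d.Ov
  gen : IsFunctionFieldGen K F x
  sep : Algebra.IsSeparable K⟮x⟯ F
  genb : ∀ i, IsFunctionFieldGen k κ (pr i (d.res ⟨x, hx⟩))
  sepb : ∀ i, Algebra.IsSeparable k⟮pr i (d.res ⟨x, hx⟩)⟯ κ
  /-- Gauss units are units -/
  hunit : ∀ (f : F) (hf : f ∈ d.Ov), IsUnit (d.res ⟨f, hf⟩) → f⁻¹ ∈ d.Ov
  /-- `C` is integral over `A[x]` -/
  intA : ∀ g : F, g ∈ d.Ov → IsIntegral ↥(Algebra.adjoin K {x}) g →
    IsIntegral ↥(Algebra.adjoin ↥d.A {x}) g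
  /-- reductions of elements of `C` are regular on the chart -/
  int1 : ∀ (g : F) (hg : g ∈ d.Ov), IsIntegral ↥(Algebra.adjoin K {x}) g → ∀ i,
    IsIntegral ↥(Algebra.adjoin k {pr i (d.res ⟨x, hx⟩)}) (pr i (d.res ⟨g, hg⟩))
  /-- the nodes -/
  nodes : Finset (ι × Place k κ)
  nodes_fin : ∀ s ∈ nodes, 0 ≤ s.2.ord (pr s.1 (d.res ⟨x, hx⟩))
  /-- seminormality -/
  hJ : ∀ t : Fb, (∀ i, IsIntegral ↥(Algebra.adjoin k {pr i (d.res ⟨x, hx⟩)}) (pr i t)) →
    (∀ s ∈ nodes, OrdGE s.2 (pr s.1 t) 1) → t ∈ d.resBall (t2Int x)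
  /-- degrees -/
  deg : Module.finrank K⟮x⟯ F = ∑ᶠ i, Module.finrank k⟮pr i (d.res ⟨x, hx⟩)⟯ κ

/-- `C = 𝒪 ∩ IntCl(K[x])` -/
def s33rdC (d : T2Base K F k Fb) (x : F) : Subring F :=
  d.Ov ⊓ (integralClosure ↥(Algebra.adjoin K {x}) F).toSubring

theorem mem_s33rdC {d : T2Base K F k Fb} {x g : F} :
    g ∈ s33rdC d x ↔ g ∈ d.Ov ∧ IsIntegral ↥(Algebra.adjoin K {x}) g := Iff.rfl

theorem s33rd_const_mem_C (d : T2Base K F k Fb) (x : F) (a : ↥d.A) :
    algebraMap K F (a : K) ∈ s33rdC d x :=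
  ⟨d.algebraMap_mem a, isIntegral_algebraMap (x := algebraMap K ↥(Algebra.adjoin K {x}) (a : K))⟩

theorem s33rd_mem_ball_of_mem_C {d : T2Base K F k Fb} {x g : F} (hg : g ∈ s33rdC d x) :
    g ∈ d.ball (t2Int x) := ⟨hg.2, hg.1⟩

theorem s33rd_mem_C_of_mem_ball {d : T2Base K F k Fb} {x g : F} (hg : g ∈ d.ball (t2Int x)) :
    g ∈ s33rdC d x := ⟨hg.2, hg.1⟩

namespace S33rdSetup

variable {d : T2Base K F k Fb} {ι : Type*} {κ : Type*} [Field κ] [Algebra k κ]
  (su : S33rdSetup d ι κ)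

/-- the `i`-th component of `x̄` -/
def xb (i : ι) : κ := su.pr i (d.res ⟨su.x, su.hx⟩)

theorem x_ne_zero : su.x ≠ 0 := fun h0 => su.gen.transcendental (h0 ▸ isAlgebraic_zero)

theorem x_mem_C : su.x ∈ s33rdC d su.x := ⟨su.hx, tb_isIntegral_self su.x⟩

/-- the components of the reduction of `g ∈ 𝒪` -/
def rb (i : ι) {g : F} (hg : g ∈ d.Ov) : κ := su.pr i (d.res ⟨g, hg⟩)

theorem rb_x (i : ι) : su.rb i su.hx = su.xb i := rfl

theorem rb_mul (i : ι) {g h : F} (hg : g ∈ d.Ov) (hh : h ∈ d.Ov) :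
    su.rb i (d.Ov.mul_mem hg hh) = su.rb i hg * su.rb i hh := by
  unfold rb
  rw [d.res_mul' hg hh, map_mul]

theorem rb_add (i : ι) {g h : F} (hg : g ∈ d.Ov) (hh : h ∈ d.Ov) :
    su.rb i (d.Ov.add_mem hg hh) = su.rb i hg + su.rb i hh := by
  unfold rb
  rw [d.res_add' hg hh, map_add]

theorem rb_sub (i : ι) {g h : F} (hg : g ∈ d.Ov) (hh : h ∈ d.Ov) :
    su.rb i (d.Ov.sub_mem hg hh) = su.rb i hg - su.rb i hh := by
  unfold rb
  rw [d.res_sub' hg hh, map_sub]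

theorem rb_pow (i : ι) {g : F} (hg : g ∈ d.Ov) (n : ℕ) :
    su.rb i (d.Ov.pow_mem hg n) = su.rb i hg ^ n := by
  unfold rb
  rw [d.res_pow' hg, map_pow]

theorem rb_const (i : ι) (a : ↥d.A) :
    su.rb i (d.algebraMap_mem a) = algebraMap k κ (d.resA a) := by
  unfold rb
  rw [d.res_algebraMap, AlgHom.commutes]

theorem rb_congr (i : ι) {g h : F} (hg : g ∈ d.Ov) (hgh : g = h) :
    su.rb i hg = su.rb i (hgh ▸ hg) := by
  subst hgh; rfl

theorem rb_prod (i : ι) {α : Type*} (s : Finset α) (g : α → F) (hg : ∀ j, g j ∈ d.Ov) :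
    su.rb i (d.Ov.prod_mem (fun j (_ : j ∈ s) => hg j)) = ∏ j ∈ s, su.rb i (hg j) := by
  classical
  unfold rb
  have h1 : (⟨∏ j ∈ s, g j, d.Ov.prod_mem (fun j (_ : j ∈ s) => hg j)⟩ : ↥d.Ov) =
      ∏ j ∈ s, (⟨g j, hg j⟩ : ↥d.Ov) := by
    apply Subtype.ext
    have h2 : ((∏ j ∈ s, (⟨g j, hg j⟩ : ↥d.Ov) : ↥d.Ov) : F) =
        d.Ov.subtype (∏ j ∈ s, (⟨g j, hg j⟩ : ↥d.Ov)) := rfl
    rw [h2, map_prod]
    rfl
  rw [h1, map_prod, map_prod]

/-- reductions of elements of `C` are regular on the chart -/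
theorem rb_isIntegral (i : ι) {g : F} (hg : g ∈ s33rdC d su.x) :
    IsIntegral ↥(Algebra.adjoin k {su.xb i}) (su.rb i hg.1) :=
  su.int1 g hg.1 hg.2 i

/-- a reduction is a unit as soon as all its components are nonzero -/
theorem isUnit_of_pr_ne_zero {t : Fb} (ht : ∀ i, su.pr i t ≠ 0) : IsUnit t := by
  obtain ⟨t', ht'⟩ := su.pr_surj (fun i => (su.pr i t)⁻¹)
  refine IsUnit.of_mul_eq_one t' ?_
  have h0 : t * t' - 1 = 0 := by
    apply su.pr_inj
    intro i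
    rw [map_sub, map_mul, ht' i, mul_inv_cancel₀ (ht i), map_one, sub_self]
  exact sub_eq_zero.mp h0

theorem eq_of_pr_eq {t t' : Fb} (h : ∀ i, su.pr i t = su.pr i t') : t = t' := by
  have h0 : t - t' = 0 := by
    apply su.pr_inj
    intro i
    rw [map_sub, h i, sub_self]
  exact sub_eq_zero.mp h0

/-- Gauss division -/
theorem inv_mem_Ov {g : F} (hg : g ∈ d.Ov) (h : ∀ i, su.rb i hg ≠ 0) : g⁻¹ ∈ d.Ov :=
  su.hunit g hg (su.isUnit_of_pr_ne_zero h)

theorem xb_sub_const_ne_zero (i : ι) (c : k) : su.xb i - algebraMap k κ c ≠ 0 := by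
  intro h0
  have h1 : su.xb i = algebraMap k κ c := sub_eq_zero.mp h0
  exact (su.genb i).transcendental (by
    show IsAlgebraic k (su.pr i (d.res ⟨su.x, su.hx⟩))
    rw [show su.pr i (d.res ⟨su.x, su.hx⟩) = su.xb i from rfl, h1]
    exact isAlgebraic_algebraMap c)

end S33rdSetup

end Fermat.Agent.S33
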