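/-
GAMMA-RED (helper7), part 9: product residue rings.

For a residue ring `κ₁ × κ₂`:
* `s33rd_isIntegral_prod_iff` : integrality over `k[(x₁, x₂)]` is componentwise;
* `s33rd_exists_place_of_hom` : a `k`-linear ring homomorphism `IntCl(k[z]) → k` is the evaluation at
  a place of `κ / k` at which `z` is finite;
* `s33rd_node_fst/snd`        : a `k`-algebra homomorphism `IntCl(k[x̄]) → k` is the evaluation of one
  of the two components at a place;
* `s33rd_intA_of_fin`         : (A1) from the finiteness `T2Fin` of the chart ring.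
-/
import Fermat.Agent.Lib.S33.Red.Setup
import Fermat.Agent.Lib.T2.Inst.NodeProd

set_option autoImplicit false
set_option linter.style.haveILetI false
set_option linter.unusedSectionVars false

namespace Fermat.Agent.S33

open AlgebraicCurve IntermediateField Fermat.Agent.Curve Fermat.Agent.Curve.PlaceAux
  Fermat.Agent.T1 Fermat.Agent.T2 Fermat.Agent.T3 Polynomial

section Prod

variable {k E₁ E₂ : Type*} [CommRing k] [CommRing E₁] [CommRing E₂] [Algebra k E₁] [Algebra k E₂]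

/-- `(b, 0)` is integral over `k[(x₁, x₂)]` if `b` is integral over `k[x₁]` -/
theorem s33rd_isIntegral_inl {x : E₁ × E₂} {b : E₁} (h : IsIntegral ↥(Algebra.adjoin k {x.1}) b) :
    IsIntegral ↥(Algebra.adjoin k {x}) ((b, 0) : E₁ × E₂) := by
  rw [t2d_isIntegral_adjoin_iff] at h ⊢
  obtain ⟨d, q, hq⟩ := h
  refine ⟨d + 1, Fin.cons 0 q, ?_⟩
  rw [Fin.sum_univ_succ]
  simp only [Fin.cons_zero, map_zero, zero_mul, zero_add, Fin.cons_succ, Fin.val_succ]
  ext
  · simp only [Prod.fst_add, Prod.pow_fst, Prod.fst_sum, Prod.fst_mul, aeval_prod_apply,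
      Prod.fst_zero]
    have : b ^ (d + 1) + ∑ i : Fin d, aeval x.1 (q i) * b ^ ((i : ℕ) + 1) =
        b * (b ^ d + ∑ i : Fin d, aeval x.1 (q i) * b ^ (i : ℕ)) := by
      rw [mul_add, Finset.mul_sum, pow_succ']
      congr 1
      refine Finset.sum_congr rfl fun i _ => ?_
      rw [pow_succ']; ring
    rw [this, hq, mul_zero]
  · simp only [Prod.snd_add, Prod.pow_snd, Prod.snd_sum, Prod.snd_mul, Prod.snd_zero]
    rw [zero_pow (Nat.succ_ne_zero d), zero_add]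
    refine Finset.sum_eq_zero fun i _ => ?_
    rw [zero_pow (Nat.succ_ne_zero _), mul_zero]

/-- `(0, b)` is integral over `k[(x₁, x₂)]` if `b` is integral over `k[x₂]` -/
theorem s33rd_isIntegral_inr {x : E₁ × E₂} {b : E₂} (h : IsIntegral ↥(Algebra.adjoin k {x.2}) b) :
    IsIntegral ↥(Algebra.adjoin k {x}) ((0, b) : E₁ × E₂) := by
  rw [t2d_isIntegral_adjoin_iff] at h ⊢
  obtain ⟨d, q, hq⟩ := h
  refine ⟨d + 1, Fin.cons 0 q, ?_⟩
  rw [Fin.sum_univ_succ]
  simp only [Fin.cons_zero, map_zero, zero_mul, zero_add, Fin.cons_succ, Fin.val_succ]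
  ext
  · simp only [Prod.fst_add, Prod.pow_fst, Prod.fst_sum, Prod.fst_mul, Prod.fst_zero]
    rw [zero_pow (Nat.succ_ne_zero d), zero_add]
    refine Finset.sum_eq_zero fun i _ => ?_
    rw [zero_pow (Nat.succ_ne_zero _), mul_zero]
  · simp only [Prod.snd_add, Prod.pow_snd, Prod.snd_sum, Prod.snd_mul, aeval_prod_apply,
      Prod.snd_zero]
    have : b ^ (d + 1) + ∑ i : Fin d, aeval x.2 (q i) * b ^ ((i : ℕ) + 1) =
        b * (b ^ d + ∑ i : Fin d, aeval x.2 (q i) * b ^ (i : ℕ)) := by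
      rw [mul_add, Finset.mul_sum, pow_succ']
      congr 1
      refine Finset.sum_congr rfl fun i _ => ?_
      rw [pow_succ']; ring
    rw [this, hq, mul_zero]

/-- integrality over `k[(x₁, x₂)]` is componentwise -/
theorem s33rd_isIntegral_prod_iff {x t : E₁ × E₂} :
    IsIntegral ↥(Algebra.adjoin k {x}) t ↔
      IsIntegral ↥(Algebra.adjoin k {x.1}) t.1 ∧ IsIntegral ↥(Algebra.adjoin k {x.2}) t.2 := by
  constructor
  · exact fun h => ⟨t2c_isIntegral_fst h, t2c_isIntegral_snd h⟩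
  · rintro ⟨h1, h2⟩
    have h3 : t = (t.1, 0) + (0, t.2) := by
      ext
      · simp
      · simp
    rw [h3]
    exact (s33rd_isIntegral_inl h1).add (s33rd_isIntegral_inr h2)

end Prod

section PlaceOfHom

variable {k κ : Type*} [Field k] [Field κ] [Algebra k κ] [IsAlgClosed k]

/-- a `k`-linear ring homomorphism `IntCl(k[z]) → k` is the evaluation at a place -/
theorem s33rd_exists_place_of_hom {z : κ} (hz : IsFunctionFieldGen k κ z)
    [Algebra.IsSeparable k⟮z⟯ κ]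
    (ψ : ↥(CurveP.Bx k z) →+* k)
    (hψ : ∀ c : k, ψ ⟨algebraMap k κ c, isIntegral_algebraMap
      (x := algebraMap k ↥(CurveP.Ax k z) c)⟩ = c) :
    ∃ Q : Place k κ, 0 ≤ Q.ord z ∧ ∀ b : ↥(CurveP.Bx k z),
      OrdGE Q ((b : κ) - algebraMap k κ (ψ b)) 1 := by
  haveI : Fact (IsFunctionFieldGen k κ z) := ⟨hz⟩
  haveI : IsDedekindDomain (CurveP.Bx k z) := CurveP.Bx.isDedekindDomain
  have hprime : (RingHom.ker ψ).IsPrime := RingHom.ker_isPrime ψ
  -- `z - ψ z ∈ ker ψ` is nonzero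
  have hzB : z ∈ CurveP.Bx k z := isIntegral_algebraMap
    (x := (⟨z, Algebra.self_mem_adjoin_singleton k z⟩ : ↥(CurveP.Ax k z)))
  have hne : RingHom.ker ψ ≠ ⊥ := by
    intro hbot
    set c := ψ ⟨z, hzB⟩ with hc
    have hmem : (⟨z, hzB⟩ : ↥(CurveP.Bx k z)) - ⟨algebraMap k κ c, isIntegral_algebraMap
      (x := algebraMap k ↥(CurveP.Ax k z) c)⟩ ∈ RingHom.ker ψ := by
      rw [RingHom.mem_ker, map_sub, hψ, ← hc, sub_self]
    rw [hbot, Ideal.mem_bot, sub_eq_zero] at hmem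
    have h1 : z = algebraMap k κ c := congrArg Subtype.val hmem
    exact hz.transcendental (h1 ▸ isAlgebraic_algebraMap c)
  have hmain : ∀ b : ↥(CurveP.Bx k z), OrdGE (t3aPlaceOf (RingHom.ker ψ) hprime hne)
      ((b : κ) - algebraMap k κ (ψ b)) 1 := by
    intro b
    have hmem : b - ⟨algebraMap k κ (ψ b), isIntegral_algebraMap
        (x := algebraMap k ↥(CurveP.Ax k z) (ψ b))⟩ ∈ RingHom.ker ψ := by
      rw [RingHom.mem_ker, map_sub, hψ, sub_self]
    have := (t3a_mem_iff_ordGE (RingHom.ker ψ) hprime hne _).mp hmem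
    exact this
  refine ⟨t3aPlaceOf (RingHom.ker ψ) hprime hne, ?_, hmain⟩
  have h1 : z ∈ (t3aPlaceOf (RingHom.ker ψ) hprime hne).toValuationSubring :=
    CurveP.RRAux.mem_of_ordGE_sub_const _ (hmain ⟨z, hzB⟩)
  exact ord_nonneg_of_mem _ h1

end PlaceOfHom

section Node

variable {k κ₁ κ₂ : Type*} [Field k] [Field κ₁] [Field κ₂] [Algebra k κ₁] [Algebra k κ₂]
  [IsAlgClosed k]

/-- a `k`-algebra homomorphism `IntCl(k[x̄]) → k` with `(1, 0) ↦ 1` is the evaluation of the first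
component at a place -/
theorem s33rd_node_fst {x : κ₁ × κ₂} (hgen : IsFunctionFieldGen k κ₁ x.1)
    [Algebra.IsSeparable k⟮x.1⟯ κ₁] (φ : ↥(t2R (k := k) x) →ₐ[k] k)
    (h1 : φ ⟨((1 : κ₁), (0 : κ₂)), s33rd_isIntegral_inl isIntegral_one⟩ = 1) :
    ∃ Q : Place k κ₁, 0 ≤ Q.ord x.1 ∧ ∀ r : ↥(t2R (k := k) x),
      OrdGE Q ((r : κ₁ × κ₂).1 - algebraMap k κ₁ (φ r)) 1 := by
  set e₁ : ↥(t2R (k := k) x) := ⟨((1 : κ₁), (0 : κ₂)), s33rd_isIntegral_inl isIntegral_one⟩ with he₁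
  let ψ : ↥(CurveP.Bx k x.1) →+* k :=
    { toFun := fun b => φ ⟨((b : κ₁), (0 : κ₂)), s33rd_isIntegral_inl b.2⟩
      map_one' := h1
      map_mul' := fun b b' => by
        rw [← map_mul]
        congr 1
        apply Subtype.ext
        show (((b * b' : ↥(CurveP.Bx k x.1)) : κ₁), (0 : κ₂)) = ((b : κ₁), (0 : κ₂)) * ((b' : κ₁), 0)
        rw [Prod.mk_mul_mk, mul_zero]
        rfl
      map_zero' := by
        have : (⟨(((0 : ↥(CurveP.Bx k x.1)) : κ₁), (0 : κ₂)), s33rd_isIntegral_inl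
          (0 : ↥(CurveP.Bx k x.1)).2⟩ : ↥(t2R (k := k) x)) = 0 := rfl
        rw [this, map_zero]
      map_add' := fun b b' => by
        rw [← map_add]
        congr 1
        apply Subtype.ext
        show (((b + b' : ↥(CurveP.Bx k x.1)) : κ₁), (0 : κ₂)) = ((b : κ₁), (0 : κ₂)) + ((b' : κ₁), 0)
        rw [Prod.mk_add_mk, add_zero]
        rfl }
  have hψ : ∀ c : k, ψ ⟨algebraMap k κ₁ c, isIntegral_algebraMap
      (x := algebraMap k ↥(CurveP.Ax k x.1) c)⟩ = c := by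
    intro c
    show φ ⟨(algebraMap k κ₁ c, (0 : κ₂)), _⟩ = c
    have h2 : (⟨(algebraMap k κ₁ c, (0 : κ₂)), s33rd_isIntegral_inl (isIntegral_algebraMap
      (x := algebraMap k ↥(CurveP.Ax k x.1) c))⟩ : ↥(t2R (k := k) x)) = c • e₁ := by
      apply Subtype.ext
      show (algebraMap k κ₁ c, (0 : κ₂)) = c • (((1 : κ₁), (0 : κ₂)))
      rw [Prod.smul_mk, smul_zero, Algebra.smul_def, mul_one]
    rw [h2, map_smul, h1, smul_eq_mul, mul_one]
  obtain ⟨Q, hQ, hval⟩ := s33rd_exists_place_of_hom hgen ψ hψ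
  refine ⟨Q, hQ, fun r => ?_⟩
  have hr1 : IsIntegral ↥(Algebra.adjoin k {x.1}) (r : κ₁ × κ₂).1 := t2c_isIntegral_fst r.2
  have h3 : φ r = ψ ⟨(r : κ₁ × κ₂).1, hr1⟩ := by
    show φ r = φ ⟨(((r : κ₁ × κ₂).1), (0 : κ₂)), _⟩
    have h4 : (⟨(((r : κ₁ × κ₂).1), (0 : κ₂)), s33rd_isIntegral_inl hr1⟩ : ↥(t2R (k := k) x)) =
        r * e₁ := by
      apply Subtype.ext
      show (((r : κ₁ × κ₂).1), (0 : κ₂)) = (r : κ₁ × κ₂) * ((1 : κ₁), (0 : κ₂))
      ext
      · simp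
      · simp
    rw [h4, map_mul, h1, mul_one]
  rw [h3]
  exact hval ⟨(r : κ₁ × κ₂).1, hr1⟩

/-- a `k`-algebra homomorphism `IntCl(k[x̄]) → k` with `(0, 1) ↦ 1` is the evaluation of the second
component at a place -/
theorem s33rd_node_snd {x : κ₁ × κ₂} (hgen : IsFunctionFieldGen k κ₂ x.2)
    [Algebra.IsSeparable k⟮x.2⟯ κ₂] (φ : ↥(t2R (k := k) x) →ₐ[k] k)
    (h1 : φ ⟨((0 : κ₁), (1 : κ₂)), s33rd_isIntegral_inr isIntegral_one⟩ = 1) :
    ∃ Q : Place k κ₂, 0 ≤ Q.ord x.2 ∧ ∀ r : ↥(t2R (k := k) x),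
      OrdGE Q ((r : κ₁ × κ₂).2 - algebraMap k κ₂ (φ r)) 1 := by
  set e₂ : ↥(t2R (k := k) x) := ⟨((0 : κ₁), (1 : κ₂)), s33rd_isIntegral_inr isIntegral_one⟩ with he₂
  let ψ : ↥(CurveP.Bx k x.2) →+* k :=
    { toFun := fun b => φ ⟨((0 : κ₁), (b : κ₂)), s33rd_isIntegral_inr b.2⟩
      map_one' := h1
      map_mul' := fun b b' => by
        rw [← map_mul]
        congr 1
        apply Subtype.ext
        show ((0 : κ₁), ((b * b' : ↥(CurveP.Bx k x.2)) : κ₂)) = ((0 : κ₁), (b : κ₂)) * ((0 : κ₁), (b' : κ₂))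
        rw [Prod.mk_mul_mk, mul_zero]
        rfl
      map_zero' := by
        have : (⟨((0 : κ₁), ((0 : ↥(CurveP.Bx k x.2)) : κ₂)), s33rd_isIntegral_inr
          (0 : ↥(CurveP.Bx k x.2)).2⟩ : ↥(t2R (k := k) x)) = 0 := rfl
        rw [this, map_zero]
      map_add' := fun b b' => by
        rw [← map_add]
        congr 1
        apply Subtype.ext
        show ((0 : κ₁), ((b + b' : ↥(CurveP.Bx k x.2)) : κ₂)) = ((0 : κ₁), (b : κ₂)) + ((0 : κ₁), (b' : κ₂))
        rw [Prod.mk_add_mk, add_zero]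
        rfl }
  have hψ : ∀ c : k, ψ ⟨algebraMap k κ₂ c, isIntegral_algebraMap
      (x := algebraMap k ↥(CurveP.Ax k x.2) c)⟩ = c := by
    intro c
    show φ ⟨((0 : κ₁), algebraMap k κ₂ c), _⟩ = c
    have h2 : (⟨((0 : κ₁), algebraMap k κ₂ c), s33rd_isIntegral_inr (isIntegral_algebraMap
      (x := algebraMap k ↥(CurveP.Ax k x.2) c))⟩ : ↥(t2R (k := k) x)) = c • e₂ := by
      apply Subtype.ext
      show ((0 : κ₁), algebraMap k κ₂ c) = c • (((0 : κ₁), (1 : κ₂)))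
      rw [Prod.smul_mk, smul_zero, Algebra.smul_def, mul_one]
    rw [h2, map_smul, h1, smul_eq_mul, mul_one]
  obtain ⟨Q, hQ, hval⟩ := s33rd_exists_place_of_hom hgen ψ hψ
  refine ⟨Q, hQ, fun r => ?_⟩
  have hr1 : IsIntegral ↥(Algebra.adjoin k {x.2}) (r : κ₁ × κ₂).2 := t2c_isIntegral_snd r.2
  have h3 : φ r = ψ ⟨(r : κ₁ × κ₂).2, hr1⟩ := by
    show φ r = φ ⟨((0 : κ₁), ((r : κ₁ × κ₂).2)), _⟩
    have h4 : (⟨((0 : κ₁), ((r : κ₁ × κ₂).2)), s33rd_isIntegral_inr hr1⟩ : ↥(t2R (k := k) x)) =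
        r * e₂ := by
      apply Subtype.ext
      show ((0 : κ₁), ((r : κ₁ × κ₂).2)) = (r : κ₁ × κ₂) * ((0 : κ₁), (1 : κ₂))
      ext
      · simp
      · simp
    rw [h4, map_mul, h1, mul_one]
  rw [h3]
  exact hval ⟨(r : κ₁ × κ₂).2, hr1⟩

end Node

section IntA

variable {K F k Fb : Type*} [Field K] [Field F] [Algebra K F] [Field k] [CommRing Fb] [Algebra k Fb]
  (d : T2Base K F k Fb)

/-- `A[x] ⊆ C` -/
theorem s33rd_adjoin_le_C {x : F} (hx : x ∈ d.Ov) (r : ↥(Algebra.adjoin ↥d.A {x})) :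
    (r : F) ∈ s33rdC d x := by
  let S : Subalgebra ↥d.A F :=
    { (s33rdC d x) with
      algebraMap_mem' := fun a => s33rd_const_mem_C d x a }
  have h : Algebra.adjoin ↥d.A {x} ≤ S := Algebra.adjoin_le (by
    intro y hy
    rw [Set.mem_singleton_iff] at hy
    rw [hy]
    exact ⟨hx, t2Int_self x⟩)
  exact h r.2

/-- `evalA x p ∈ A[x]` -/
theorem s33rd_evalA_mem (x : F) (p : Polynomial ↥d.A) : d.evalA x p ∈ Algebra.adjoin ↥d.A {x} := by
  have h : d.evalA x p = Polynomial.aeval x p := rfl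
  rw [h, Algebra.adjoin_singleton_eq_range_aeval]
  exact ⟨p, rfl⟩

/-- **(A1)**: if `B₁` is a finitely generated `A[x]`-module then it is integral over `A[x]` -/
theorem s33rd_intA_of_fin {x : F} {e : ℕ} (hx : x ∈ d.Ov) (hfin : T2Fin d x e) (g : F)
    (hg : g ∈ d.Ov) (hint : IsIntegral ↥(Algebra.adjoin K {x}) g) :
    IsIntegral ↥(Algebra.adjoin ↥d.A {x}) g := by
  classical
  obtain ⟨S, hS, hrep⟩ := hfin
  have hgC : g ∈ s33rdC d x := ⟨hg, hint⟩
  have hle : ∀ m ∈ Submodule.span ↥(Algebra.adjoin ↥d.A {x}) (S : Set F), m ∈ s33rdC d x := by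
    intro m hm
    induction hm using Submodule.span_induction with
    | mem u hu => exact s33rd_mem_C_of_mem_ball (hS u hu).1
    | zero => exact (s33rdC d x).zero_mem
    | add u v _ _ hu hv => exact (s33rdC d x).add_mem hu hv
    | smul r u _ hu => exact (s33rdC d x).mul_mem (s33rd_adjoin_le_C d hx r) hu
  have hge : ∀ f ∈ s33rdC d x, f ∈ Submodule.span ↥(Algebra.adjoin ↥d.A {x}) (S : Set F) := by
    intro f hf
    obtain ⟨c, hc⟩ := hrep f (s33rd_mem_ball_of_mem_C hf)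
    rw [hc]
    refine Submodule.sum_mem _ fun s hs => ?_
    have h1 : d.evalA x (c s) * s =
        (⟨d.evalA x (c s), s33rd_evalA_mem d x (c s)⟩ : ↥(Algebra.adjoin ↥d.A {x})) • s := rfl
    rw [h1]
    exact Submodule.smul_mem _ _ (Submodule.subset_span hs)
  refine isIntegral_of_smul_mem_submodule
    (Submodule.span ↥(Algebra.adjoin ↥d.A {x}) (S : Set F)) ?_ ⟨S, rfl⟩ g ?_
  · intro hbot
    have h1 := hge 1 (s33rdC d x).one_mem
    rw [hbot, Submodule.mem_bot] at h1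
    exact one_ne_zero h1
  · intro n hn
    exact hge _ ((s33rdC d x).mul_mem hgC (hle n hn))

end IntA

end Fermat.Agent.S33
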