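/-
GAMMA-RED (helper7), part 3: the evaluation `φ_P : C → k` at a chart place and the functions of `C`
obtained from seminormality.

* `S33rdChartPlace d x P` : `x(P) ∈ A`;
* `s33rdPhi su hP : C →+* k`, `g ↦ \overline{g(P)}`; `s33rdPhi_eq`, `s33rdPhi_eq_zero_of_res`,
  `s33rdPhi_congr` (it only depends on `res g`);
* `su.j0` : the function `∏_{s ∈ nodes} (x - a_s) ∈ A[x]` vanishing at all nodes;
* `s33rd_exists_mul_j0` : for every family `t i ∈ IntCl(k[x̄ᵢ])` there is `w ∈ C` with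
  `res w = t · res j₀`   ("`R · j̄₀ ⊆ S₁`");
* `s33rd_exists_interp` : interpolation on the normalisation;
* `s33rd_exists_sep` : a function of `C` whose reduction vanishes at `s` but not at `s'`.
-/
import Fermat.Agent.Lib.S33.Red.Setup

set_option autoImplicit false
set_option linter.style.haveILetI false
set_option linter.unusedSectionVars false

namespace Fermat.Agent.S33

open AlgebraicCurve IntermediateField Fermat.Agent.Curve Fermat.Agent.Curve.PlaceAux
  Fermat.Agent.T1 Fermat.Agent.T2 Fermat.Agent.T3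

variable {K F k Fb : Type*} [Field K] [Field F] [Algebra K F] [Field k] [CommRing Fb] [Algebra k Fb]

/-- the place `P` lies on the chart `x`: `x` is regular at `P` with value in `A` -/
def S33rdChartPlace (d : T2Base K F k Fb) (x : F) (P : Place K F) : Prop :=
  ∃ a : ↥d.A, OrdGE P (x - algebraMap K F (a : K)) 1

variable [IsAlgClosed K] [IsAlgClosed k]
variable {d : T2Base K F k Fb} {ι : Type*} {κ : Type*} [Field κ] [Algebra k κ]
  (su : S33rdSetup d ι κ)

section Phi

variable {P : Place K F} (hP : S33rdChartPlace d su.x P)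

include hP in
/-- values of elements of `C` at chart places lie in `A` -/
theorem s33rd_value {g : F} (hg : g ∈ s33rdC d su.x) :
    ∃ c : ↥d.A, OrdGE P (g - algebraMap K F (c : K)) 1 :=
  s33rd_value_mem su.gen d.A P hP (su.intA g hg.1 hg.2)

include hP in
theorem s33rd_C_le_comp : s33rdC d su.x ≤ (s33rdComp su.gen d.A P).toSubring :=
  fun _ hg => s33rd_value su hP hg

/-- evaluation at `P` followed by reduction mod `𝔪_A`, on `C` -/
noncomputable def s33rdPhi : ↥(s33rdC d su.x) →+* k :=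
  (s33rdEv su.gen d.A d.resA P).comp (Subring.inclusion (s33rd_C_le_comp su hP))

theorem s33rdPhi_eq {g : F} (hg : g ∈ s33rdC d su.x) {c : ↥d.A}
    (hc : OrdGE P (g - algebraMap K F (c : K)) 1) : s33rdPhi su hP ⟨g, hg⟩ = d.resA c :=
  s33rdEv_eq su.gen d.A d.resA P hc

theorem s33rdPhi_const (a : ↥d.A) :
    s33rdPhi su hP ⟨algebraMap K F (a : K), s33rd_const_mem_C d su.x a⟩ = d.resA a :=
  s33rdPhi_eq su hP _ (by rw [sub_self]; exact ordGE_zero P 1)

/-- `φ_P` kills the kernel of the reduction -/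
theorem s33rdPhi_eq_zero_of_res {g : F} (hg : g ∈ s33rdC d su.x)
    (h0 : d.res ⟨g, hg.1⟩ = 0) : s33rdPhi su hP ⟨g, hg⟩ = 0 := by
  obtain ⟨a, ha, g', hg', hgg'⟩ :=
    d.exists_smul_of_res_eq_zero (t2Int su.x) (s33rd_mem_ball_of_mem_C hg) h0
  have hg'C : g' ∈ s33rdC d su.x := s33rd_mem_C_of_mem_ball hg'
  have h1 : (⟨g, hg⟩ : ↥(s33rdC d su.x)) =
      ⟨algebraMap K F (a : K), s33rd_const_mem_C d su.x a⟩ * ⟨g', hg'C⟩ := by
    apply Subtype.ext
    show g = algebraMap K F (a : K) * g'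
    rw [hgg', Algebra.smul_def]
  rw [h1, map_mul, s33rdPhi_const, (d.resA_eq_zero_iff a).mpr ha, zero_mul]

/-- `φ_P` only depends on the reduction -/
theorem s33rdPhi_congr {g g' : F} (hg : g ∈ s33rdC d su.x) (hg' : g' ∈ s33rdC d su.x)
    (h : d.res ⟨g, hg.1⟩ = d.res ⟨g', hg'.1⟩) :
    s33rdPhi su hP ⟨g, hg⟩ = s33rdPhi su hP ⟨g', hg'⟩ := by
  have hsub : g - g' ∈ s33rdC d su.x := (s33rdC d su.x).sub_mem hg hg'
  have h0 : d.res ⟨g - g', hsub.1⟩ = 0 := by
    rw [d.res_sub' hg.1 hg'.1, h, sub_self]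
  have h1 := s33rdPhi_eq_zero_of_res su hP hsub h0
  have h2 : (⟨g - g', hsub⟩ : ↥(s33rdC d su.x)) = ⟨g, hg⟩ - ⟨g', hg'⟩ := rfl
  rw [h2, map_sub] at h1
  exact sub_eq_zero.mp h1

/-- `φ_P g = 0` iff `g` vanishes at `P` up to `𝔪_A`; in particular if `g(P) = 0` -/
theorem s33rdPhi_eq_zero_of_ordGE {g : F} (hg : g ∈ s33rdC d su.x) (h : OrdGE P g 1) :
    s33rdPhi su hP ⟨g, hg⟩ = 0 := by
  have h1 : OrdGE P (g - algebraMap K F ((0 : ↥d.A) : K)) 1 := by
    simpa using h
  rw [s33rdPhi_eq su hP hg h1, map_zero]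

end Phi

/-! ### points of the special fibre -/

/-- `t` has the value `c` at the point `s` of the normalisation of the special fibre -/
def S33rdVal (s : ι × Place k κ) (t : ι → κ) (c : k) : Prop :=
  OrdGE s.2 (t s.1 - algebraMap k κ c) 1

/-- the point `s` lies on the chart `x̄ ≠ ∞` -/
def S33rdFin (s : ι × Place k κ) : Prop := 0 ≤ s.2.ord (su.xb s.1)

/-- regular functions have values -/
theorem s33rd_exists_val {s : ι × Place k κ} (hs : S33rdFin su s) {t : κ}
    (ht : IsIntegral ↥(Algebra.adjoin k {su.xb s.1}) t) :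
    ∃ c : k, OrdGE s.2 (t - algebraMap k κ c) 1 := by
  have h0 : 0 ≤ s.2.ord t := ta_ord_nonneg_of_isIntegral ht s.2 hs
  exact exists_const_ordGE_one (su.genb s.1) s.2 (mem_of_ord_nonneg s.2 h0)

/-- a value `c ≠ 0` means order zero -/
theorem s33rd_ord_eq_zero_of_val {Q : Place k κ} {t : κ} {c : k} (hc0 : c ≠ 0)
    (h : OrdGE Q (t - algebraMap k κ c) 1) : t ≠ 0 ∧ Q.ord t = 0 := by
  have hcF : algebraMap k κ c ≠ 0 := by rwa [ne_eq, map_eq_zero]
  have ht0 : t ≠ 0 := by
    rintro rfl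
    rw [zero_sub] at h
    have h2 := h.neg Q
    rw [neg_neg] at h2
    rcases (ordGE_iff Q).mp h2 with h0 | h0
    · exact hcF h0
    · rw [ord_algebraMap] at h0
      omega
  refine ⟨ht0, ?_⟩
  by_contra hne
  have htmem : t ∈ Q.toValuationSubring := CurveP.RRAux.mem_of_ordGE_sub_const Q h
  have h0 : 0 ≤ Q.ord t := ord_nonneg_of_mem Q htmem
  have h1 : OrdGE Q t 1 := (ordGE_iff Q).mpr (Or.inr (by omega))
  have h2 := h1.sub Q h
  rw [sub_sub_cancel] at h2
  rcases (ordGE_iff Q).mp h2 with h3 | h3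
  · exact hcF h3
  · rw [ord_algebraMap] at h3
    omega

/-! ### the function `j₀` -/

/-- the values of `x̄` at the nodes and lifts to `A` -/
theorem s33rd_exists_node_values :
    ∃ av : ι × Place k κ → ↥d.A, ∀ s ∈ su.nodes,
      OrdGE s.2 (su.xb s.1 - algebraMap k κ (d.resA (av s))) 1 := by
  classical
  have hex : ∀ s : ι × Place k κ, ∃ a : ↥d.A, s ∈ su.nodes →
      OrdGE s.2 (su.xb s.1 - algebraMap k κ (d.resA a)) 1 := by
    intro s
    by_cases hs : s ∈ su.nodes
    · have hmem : su.xb s.1 ∈ s.2.toValuationSubring := mem_of_ord_nonneg s.2 (su.nodes_fin s hs)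
      obtain ⟨c, hc⟩ := exists_const_ordGE_one (su.genb s.1) s.2 hmem
      obtain ⟨a, rfl⟩ := d.resA_surj c
      exact ⟨a, fun _ => hc⟩
    · exact ⟨0, fun h => absurd h hs⟩
  choose av hav using hex
  exact ⟨av, hav⟩

/-- lifts to `A` of the values of `x̄` at the nodes -/
noncomputable def S33rdSetup.av : ι × Place k κ → ↥d.A :=
  Classical.choose (s33rd_exists_node_values su)

theorem S33rdSetup.av_spec {s : ι × Place k κ} (hs : s ∈ su.nodes) :
    OrdGE s.2 (su.xb s.1 - algebraMap k κ (d.resA (su.av s))) 1 :=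
  Classical.choose_spec (s33rd_exists_node_values su) s hs

/-- `j₀ = ∏_{s ∈ nodes} (x - a_s)` -/
noncomputable def S33rdSetup.j0 : F := ∏ s ∈ su.nodes, (su.x - algebraMap K F ((su.av s : ↥d.A) : K))

theorem S33rdSetup.factor_mem_C (a : ↥d.A) : su.x - algebraMap K F (a : K) ∈ s33rdC d su.x :=
  (s33rdC d su.x).sub_mem su.x_mem_C (s33rd_const_mem_C d su.x a)

theorem S33rdSetup.j0_mem_C : su.j0 ∈ s33rdC d su.x :=
  (s33rdC d su.x).prod_mem fun s _ => su.factor_mem_C (su.av s)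

theorem S33rdSetup.rb_factor (i : ι) (a : ↥d.A) :
    su.rb i (su.factor_mem_C a).1 = su.xb i - algebraMap k κ (d.resA a) := by
  rw [su.rb_sub i su.hx (d.algebraMap_mem a), su.rb_x, su.rb_const]

theorem S33rdSetup.rb_j0 (i : ι) :
    su.rb i su.j0_mem_C.1 = ∏ s ∈ su.nodes, (su.xb i - algebraMap k κ (d.resA (su.av s))) := by
  have h := su.rb_prod i su.nodes (fun s => su.x - algebraMap K F ((su.av s : ↥d.A) : K))
    (fun s => (su.factor_mem_C (su.av s)).1)
  have h2 : su.rb i su.j0_mem_C.1 = su.rb i (d.Ov.prod_mem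
      (fun s (_ : s ∈ su.nodes) => (su.factor_mem_C (su.av s)).1)) := rfl
  rw [h2, h]
  exact Finset.prod_congr rfl fun s _ => su.rb_factor i (su.av s)

theorem S33rdSetup.rb_j0_isIntegral (i : ι) :
    IsIntegral ↥(Algebra.adjoin k {su.xb i}) (su.rb i su.j0_mem_C.1) :=
  su.rb_isIntegral i su.j0_mem_C

/-- `j̄₀` vanishes at the nodes -/
theorem S33rdSetup.j0_node {s : ι × Place k κ} (hs : s ∈ su.nodes) :
    OrdGE s.2 (su.rb s.1 su.j0_mem_C.1) 1 := by
  classical
  rw [su.rb_j0, ← Finset.mul_prod_erase _ _ hs]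
  have h1 := su.av_spec hs
  have h2 : OrdGE s.2 (∏ s' ∈ su.nodes.erase s,
      (su.xb s.1 - algebraMap k κ (d.resA (su.av s')))) 0 := by
    rw [ordGE_zero_iff_mem]
    refine Subring.prod_mem _ fun s' _ => ?_
    exact Subring.sub_mem _ (mem_of_ord_nonneg s.2 (su.nodes_fin s hs))
      (algebraMap_mem s.2 _)
  exact (h1.mul s.2 h2).mono s.2 (by norm_num)

/-- `j̄₀` does not vanish at the points where `x̄` takes a value different from its values at the
nodes -/
theorem S33rdSetup.j0_val {s : ι × Place k κ} {c : k}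
    (hc : OrdGE s.2 (su.xb s.1 - algebraMap k κ c) 1)
    (hne : ∀ s' ∈ su.nodes, d.resA (su.av s') ≠ c) :
    su.rb s.1 su.j0_mem_C.1 ≠ 0 ∧ s.2.ord (su.rb s.1 su.j0_mem_C.1) = 0 := by
  classical
  rw [su.rb_j0]
  have hfac : ∀ s' ∈ su.nodes, su.xb s.1 - algebraMap k κ (d.resA (su.av s')) ≠ 0 ∧
      s.2.ord (su.xb s.1 - algebraMap k κ (d.resA (su.av s'))) = 0 := by
    intro s' hs'
    have h1 : OrdGE s.2 (su.xb s.1 - algebraMap k κ (d.resA (su.av s')) -
        algebraMap k κ (c - d.resA (su.av s'))) 1 := by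
      have : su.xb s.1 - algebraMap k κ (d.resA (su.av s')) -
          algebraMap k κ (c - d.resA (su.av s')) = su.xb s.1 - algebraMap k κ c := by
        rw [map_sub]; ring
      rw [this]
      exact hc
    exact s33rd_ord_eq_zero_of_val (sub_ne_zero.mpr (hne s' hs').symm) h1
  refine ⟨Finset.prod_ne_zero_iff.mpr fun s' hs' => (hfac s' hs').1, ?_⟩
  rw [t3a_ord_prod s.2 _ _ (fun s' hs' => (hfac s' hs').1)]
  exact Finset.sum_eq_zero fun s' hs' => (hfac s' hs').2

/-- **`R · j̄₀ ⊆ S₁`**: every family of regular functions on the normalisation, multiplied by `j̄₀`,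
is the reduction of an element of `C` -/
theorem s33rd_exists_mul_j0 (t : ι → κ)
    (ht : ∀ i, IsIntegral ↥(Algebra.adjoin k {su.xb i}) (t i)) :
    ∃ w : F, ∃ hw : w ∈ s33rdC d su.x, ∀ i, su.rb i hw.1 = t i * su.rb i su.j0_mem_C.1 := by
  obtain ⟨t', ht'⟩ := su.pr_surj (fun i => t i * su.rb i su.j0_mem_C.1)
  have hmem : t' ∈ d.resBall (t2Int su.x) := by
    refine su.hJ t' (fun i => ?_) (fun s hs => ?_)
    · rw [ht' i]
      exact (ht i).mul (su.rb_j0_isIntegral i)
    · rw [ht' s.1]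
      have h1 : OrdGE s.2 (t s.1) 0 := by
        rw [ordGE_iff]
        right
        exact ta_ord_nonneg_of_isIntegral (ht s.1) s.2 (su.nodes_fin s hs)
      have := h1.mul s.2 (su.j0_node hs)
      exact this.mono s.2 (by norm_num)
  obtain ⟨w, hw, hres⟩ := hmem
  refine ⟨w, s33rd_mem_C_of_mem_ball hw, fun i => ?_⟩
  show su.pr i (d.res ⟨w, _⟩) = _
  rw [hres, ht' i]

/-- **interpolation on the normalisation** -/
theorem s33rd_exists_interp [Finite ι] (T : Finset (ι × Place k κ)) (hT : ∀ s ∈ T, S33rdFin su s)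
    (v : ι × Place k κ → k) :
    ∃ t : ι → κ, (∀ i, IsIntegral ↥(Algebra.adjoin k {su.xb i}) (t i)) ∧
      ∀ s ∈ T, OrdGE s.2 (t s.1 - algebraMap k κ (v s)) 1 := by
  classical
  have hex : ∀ i : ι, ∃ t : κ, IsIntegral ↥(Algebra.adjoin k {su.xb i}) t ∧
      ∀ Q : Place k κ, (i, Q) ∈ T → OrdGE Q (t - algebraMap k κ (v (i, Q))) 1 := by
    intro i
    haveI := su.sepb i
    set S : Finset (Place k κ) := (T.filter (fun s => s.1 = i)).image Prod.snd with hS
    have hSfin : ∀ Q ∈ S, 0 ≤ Q.ord (su.xb i) := by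
      intro Q hQ
      rw [hS, Finset.mem_image] at hQ
      obtain ⟨s, hs, rfl⟩ := hQ
      rw [Finset.mem_filter] at hs
      have := hT s hs.1
      rw [S33rdFin, hs.2] at this
      exact this
    obtain ⟨t, ht1, ht2⟩ := t3a_exists_interpolation_ded (su.genb i) S hSfin (fun Q => v (i, Q))
    refine ⟨t, ht1, fun Q hQ => ht2 Q ?_⟩
    rw [hS, Finset.mem_image]
    exact ⟨(i, Q), Finset.mem_filter.mpr ⟨hQ, rfl⟩, rfl⟩
  choose t ht1 ht2 using hex
  exact ⟨t, ht1, fun s hs => ht2 s.1 s.2 hs⟩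

/-- **separation**: a function of `C` whose reduction vanishes at `s` and not at `s'`, for
`s ≠ s'` on the chart and `x̄(s')` different from the values of `x̄` at the nodes -/
theorem s33rd_exists_sep [Finite ι] {s s' : ι × Place k κ} (hs : S33rdFin su s) (hs' : S33rdFin su s')
    (hne : s ≠ s') {c' : k} (hc' : OrdGE s'.2 (su.xb s'.1 - algebraMap k κ c') 1)
    (hnode : ∀ s'' ∈ su.nodes, d.resA (su.av s'') ≠ c') :
    ∃ g : F, ∃ hg : g ∈ s33rdC d su.x, OrdGE s.2 (su.rb s.1 hg.1) 1 ∧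
      su.rb s'.1 hg.1 ≠ 0 ∧ s'.2.ord (su.rb s'.1 hg.1) = 0 := by
  classical
  obtain ⟨t, ht1, ht2⟩ := s33rd_exists_interp su {s, s'}
    (fun s'' h => by
      rw [Finset.mem_insert, Finset.mem_singleton] at h
      rcases h with rfl | rfl
      · exact hs
      · exact hs')
    (fun s'' => if s'' = s then 0 else 1)
  obtain ⟨g, hg, hres⟩ := s33rd_exists_mul_j0 su t ht1
  refine ⟨g, hg, ?_, ?_⟩
  · rw [hres]
    have h1 := ht2 s (Finset.mem_insert_self s _)
    rw [if_pos rfl, map_zero, sub_zero] at h1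
    have h2 : OrdGE s.2 (su.rb s.1 su.j0_mem_C.1) 0 := by
      rw [ordGE_iff]
      right
      exact ta_ord_nonneg_of_isIntegral (su.rb_j0_isIntegral s.1) s.2 hs
    exact (h1.mul s.2 h2).mono s.2 (by norm_num)
  · rw [hres]
    have h1 := ht2 s' (Finset.mem_insert_of_mem (Finset.mem_singleton_self s'))
    rw [if_neg (Ne.symm hne)] at h1
    obtain ⟨h3, h4⟩ := s33rd_ord_eq_zero_of_val one_ne_zero h1
    obtain ⟨h5, h6⟩ := su.j0_val hc' hnode
    refine ⟨mul_ne_zero h3 h5, ?_⟩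
    rw [s'.2.ord_mul h3 h5, h4, h6, add_zero]

end Fermat.Agent.S33
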