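/-
GAMMA-RED (helper7), part 4: the places of a GOOD FIBRE of the chart `x` reduce to points of the
special fibre.

`ā ∈ k` is a good value (`S33rdGood su ā`) if it is not a value of `x̄` at a node and all zeros of
`x̄ᵢ - ā` are simple.  For `a ∈ A` lifting a good value and a zero `P` of `x - a`:
* `s33rd_exists_red` : there is a point `s` of the special fibre over `ā` such that the evaluation
  `φ_P` kills every `g ∈ C` whose reduction vanishes at `s`;
* `S33rdRed su P s` (the evaluation property: `g(P) = c ⟹ ḡ(s) = c̄`), `s33rd_red_of_kills`,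
  `s33rd_red_unique`;
* `s33rd_red_surj` : every point over `ā` is the reduction of a zero of `x - a`
  (T3's local-function trick for the single function `x - a`).
-/
import Fermat.Agent.Lib.S33.Red.Phi

set_option autoImplicit false
set_option linter.style.haveILetI false
set_option linter.unusedSectionVars false

namespace Fermat.Agent.S33

open AlgebraicCurve IntermediateField Fermat.Agent.Curve Fermat.Agent.Curve.PlaceAux
  Fermat.Agent.T1 Fermat.Agent.T2 Fermat.Agent.T3

variable {K F k Fb : Type*} [Field K] [Field F] [Algebra K F] [Field k] [CommRing Fb] [Algebra k Fb]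
variable [IsAlgClosed K] [IsAlgClosed k]
variable {d : T2Base K F k Fb} {ι : Type*} {κ : Type*} [Field κ] [Algebra k κ]
  (su : S33rdSetup d ι κ)

/-- `ab` is a good value of `x̄` -/
structure S33rdGood (ab : k) : Prop where
  node : ∀ s ∈ su.nodes, d.resA (su.av s) ≠ ab
  simple : ∀ (i : ι) (Q : Place k κ), 0 < Q.ord (su.xb i - algebraMap k κ ab) →
    Q.ord (su.xb i - algebraMap k κ ab) = 1

/-- the points of the special fibre over `ab` -/
def S33rdSetup.ptsOver (ab : k) : Set (ι × Place k κ) :=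
  {s | 0 < s.2.ord (su.xb s.1 - algebraMap k κ ab)}

theorem S33rdSetup.mem_ptsOver {ab : k} {s : ι × Place k κ} :
    s ∈ su.ptsOver ab ↔ 0 < s.2.ord (su.xb s.1 - algebraMap k κ ab) := Iff.rfl

theorem S33rdSetup.ptsOver_finite [Finite ι] (ab : k) : (su.ptsOver ab).Finite := by
  have h : su.ptsOver ab ⊆ ⋃ i : ι, (fun Q => (i, Q)) ''
      {Q : Place k κ | 0 < Q.ord (su.xb i - algebraMap k κ ab)} := by
    intro s hs
    rw [Set.mem_iUnion]
    exact ⟨s.1, s.2, hs, rfl⟩
  refine Set.Finite.subset (Set.finite_iUnion fun i => Set.Finite.image _ ?_) h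
  haveI := su.sepb i
  exact CurveP.finite_zeros (su.genb i) ab

theorem S33rdSetup.ordGE_of_mem_ptsOver {ab : k} {s : ι × Place k κ} (hs : s ∈ su.ptsOver ab) :
    OrdGE s.2 (su.xb s.1 - algebraMap k κ ab) 1 := by
  rw [ordGE_iff]
  right
  have := su.mem_ptsOver.mp hs
  omega

theorem S33rdSetup.fin_of_mem_ptsOver {ab : k} {s : ι × Place k κ} (hs : s ∈ su.ptsOver ab) :
    S33rdFin su s := by
  have h1 : su.xb s.1 ∈ s.2.toValuationSubring :=
    CurveP.RRAux.mem_of_ordGE_sub_const s.2 (su.ordGE_of_mem_ptsOver hs)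
  exact ord_nonneg_of_mem s.2 h1

/-- on the chart, a point which is not over `ab` has `ord (x̄ - ab) = 0` -/
theorem S33rdSetup.ord_eq_zero_of_not_mem_ptsOver {ab : k} {s : ι × Place k κ} (hs : S33rdFin su s)
    (hns : s ∉ su.ptsOver ab) : s.2.ord (su.xb s.1 - algebraMap k κ ab) = 0 := by
  have h1 : su.xb s.1 - algebraMap k κ ab ∈ s.2.toValuationSubring :=
    Subring.sub_mem _ (mem_of_ord_nonneg s.2 hs) (algebraMap_mem s.2 _)
  have h2 := ord_nonneg_of_mem s.2 h1
  have h3 : ¬ 0 < s.2.ord (su.xb s.1 - algebraMap k κ ab) := hns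
  omega

/-- the zeros of `x - a` are chart places -/
theorem s33rd_chartPlace_of_zero {a : ↥d.A} {P : Place K F}
    (hP : 0 < P.ord (su.x - algebraMap K F (a : K))) : S33rdChartPlace d su.x P :=
  ⟨a, (ordGE_iff P).mpr (Or.inr (by omega))⟩

/-- the quotient of a regular function vanishing on the fibre over a good value by `x̄ - ā` is
regular -/
theorem s33rd_div_isIntegral {ab : k} (hgood : S33rdGood su ab) (i : ι) {u : κ}
    (hu : IsIntegral ↥(Algebra.adjoin k {su.xb i}) u)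
    (hvan : ∀ Q : Place k κ, 0 < Q.ord (su.xb i - algebraMap k κ ab) → OrdGE Q u 1) :
    IsIntegral ↥(Algebra.adjoin k {su.xb i}) (u / (su.xb i - algebraMap k κ ab)) := by
  haveI := su.sepb i
  have hne := su.xb_sub_const_ne_zero i ab
  rcases eq_or_ne u 0 with rfl | hu0
  · rw [zero_div]; exact isIntegral_zero
  refine ta_isIntegral_of_regular (su.genb i) _ fun v hv => ?_
  rw [div_eq_mul_inv, v.ord_mul hu0 (inv_ne_zero hne), v.ord_inv]
  by_cases hz : 0 < v.ord (su.xb i - algebraMap k κ ab)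
  · rw [hgood.simple i v hz]
    rcases (ordGE_iff v).mp (hvan v hz) with h0 | h0
    · exact absurd h0 hu0
    · omega
  · have h1 : su.xb i - algebraMap k κ ab ∈ v.toValuationSubring :=
      Subring.sub_mem _ (mem_of_ord_nonneg v hv) (algebraMap_mem v _)
    have h2 := ord_nonneg_of_mem v h1
    have h3 := ta_ord_nonneg_of_isIntegral hu v hv
    omega

section Red

variable [Finite ι] {a : ↥d.A} (hgood : S33rdGood su (d.resA a)) {P : Place K F}
  (hP : 0 < P.ord (su.x - algebraMap K F (a : K)))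

include hgood in
/-- `φ_P (j₀) ≠ 0` -/
theorem s33rdPhi_j0_ne_zero :
    s33rdPhi su (s33rd_chartPlace_of_zero su hP) ⟨su.j0, su.j0_mem_C⟩ ≠ 0 := by
  classical
  have hOrd : OrdGE P (su.x - algebraMap K F (a : K)) 1 := (ordGE_iff P).mpr (Or.inr (by omega))
  have h1 : (⟨su.j0, su.j0_mem_C⟩ : ↥(s33rdC d su.x)) =
      ∏ s ∈ su.nodes, (⟨su.x - algebraMap K F ((su.av s : ↥d.A) : K),
        su.factor_mem_C (su.av s)⟩ : ↥(s33rdC d su.x)) := by
    apply Subtype.ext
    have h2 : ((∏ s ∈ su.nodes, (⟨su.x - algebraMap K F ((su.av s : ↥d.A) : K),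
        su.factor_mem_C (su.av s)⟩ : ↥(s33rdC d su.x)) : ↥(s33rdC d su.x)) : F) =
        (s33rdC d su.x).subtype (∏ s ∈ su.nodes, (⟨su.x - algebraMap K F ((su.av s : ↥d.A) : K),
          su.factor_mem_C (su.av s)⟩ : ↥(s33rdC d su.x))) := rfl
    rw [h2, map_prod]
    rfl
  rw [h1, map_prod]
  refine Finset.prod_ne_zero_iff.mpr fun s hs => ?_
  have h3 : OrdGE P (su.x - algebraMap K F ((su.av s : ↥d.A) : K) -
      algebraMap K F ((a - su.av s : ↥d.A) : K)) 1 := by
    have : su.x - algebraMap K F ((su.av s : ↥d.A) : K) -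
        algebraMap K F ((a - su.av s : ↥d.A) : K) = su.x - algebraMap K F (a : K) := by
      rw [show ((a - su.av s : ↥d.A) : K) = (a : K) - (su.av s : K) from rfl, map_sub]; ring
    rw [this]
    exact hOrd
  rw [s33rdPhi_eq su _ _ h3, map_sub]
  exact sub_ne_zero.mpr (hgood.node s hs).symm

include hgood in
/-- **existence of the reduction**: `φ_P` kills the functions vanishing at some point over `ā` -/
theorem s33rd_exists_red :
    ∃ s ∈ su.ptsOver (d.resA a), ∀ (g : F) (hg : g ∈ s33rdC d su.x),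
      OrdGE s.2 (su.rb s.1 hg.1) 1 → s33rdPhi su (s33rd_chartPlace_of_zero su hP) ⟨g, hg⟩ = 0 := by
  classical
  set φ := s33rdPhi su (s33rd_chartPlace_of_zero su hP) with hφ
  by_contra hcon
  push Not at hcon
  have hex : ∀ s : ι × Place k κ, ∃ g : F, ∃ hg : g ∈ s33rdC d su.x, s ∈ su.ptsOver (d.resA a) →
      OrdGE s.2 (su.rb s.1 hg.1) 1 ∧ φ ⟨g, hg⟩ ≠ 0 := by
    intro s
    by_cases hs : s ∈ su.ptsOver (d.resA a)
    · obtain ⟨g, hg, h1, h2⟩ := hcon s hs
      exact ⟨g, hg, fun _ => ⟨h1, h2⟩⟩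
    · exact ⟨1, (s33rdC d su.x).one_mem, fun h => absurd h hs⟩
  choose g hgC hg using hex
  set T : Finset (ι × Place k κ) := (su.ptsOver_finite (d.resA a)).toFinset with hT
  have hTmem : ∀ s, s ∈ T ↔ s ∈ su.ptsOver (d.resA a) := fun s => by
    rw [hT, Set.Finite.mem_toFinset]
  -- the product
  set G : ↥(s33rdC d su.x) := ∏ s ∈ T, (⟨g s, hgC s⟩ : ↥(s33rdC d su.x)) with hG
  have hGcoe : (G : F) = ∏ s ∈ T, g s := by
    have h2 : (G : F) = (s33rdC d su.x).subtype G := rfl
    rw [h2, hG, map_prod]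
    rfl
  have hφG : φ G ≠ 0 := by
    rw [hG, map_prod]
    exact Finset.prod_ne_zero_iff.mpr fun s hs => (hg s ((hTmem s).mp hs)).2
  have hrbG : ∀ i, su.rb i G.2.1 = ∏ s ∈ T, su.rb i (hgC s).1 := by
    intro i
    have h := su.rb_prod i T g (fun s => (hgC s).1)
    rw [← h]
    exact su.rb_congr i G.2.1 hGcoe
  -- the quotient by `x̄ - ā`
  have hquot : ∀ i, IsIntegral ↥(Algebra.adjoin k {su.xb i})
      (su.rb i G.2.1 / (su.xb i - algebraMap k κ (d.resA a))) := by
    intro i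
    refine s33rd_div_isIntegral su hgood i (su.rb_isIntegral i G.2) fun Q hQ => ?_
    have hsT : (i, Q) ∈ T := (hTmem _).mpr hQ
    rw [hrbG i, ← Finset.mul_prod_erase _ _ hsT]
    have h1 : OrdGE Q (su.rb i (hgC (i, Q)).1) 1 := (hg (i, Q) hQ).1
    have hfin : 0 ≤ Q.ord (su.xb i) := su.fin_of_mem_ptsOver (s := (i, Q)) hQ
    have h2 : OrdGE Q (∏ s ∈ T.erase (i, Q), su.rb i (hgC s).1) 0 := by
      rw [ordGE_zero_iff_mem]
      refine Subring.prod_mem _ fun s _ => ?_
      exact mem_of_ord_nonneg Q (ta_ord_nonneg_of_isIntegral (su.rb_isIntegral i (hgC s)) Q hfin)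
    exact (h1.mul Q h2).mono Q (by norm_num)
  obtain ⟨w, hw, hres⟩ := s33rd_exists_mul_j0 su _ hquot
  -- `G j₀ ≡ w (x - a)`
  have hxa : su.x - algebraMap K F (a : K) ∈ s33rdC d su.x := su.factor_mem_C a
  have hcong : d.res ⟨(G : F) * su.j0, ((s33rdC d su.x).mul_mem G.2 su.j0_mem_C).1⟩ =
      d.res ⟨w * (su.x - algebraMap K F (a : K)), ((s33rdC d su.x).mul_mem hw hxa).1⟩ := by
    apply su.eq_of_pr_eq
    intro i
    show su.rb i (d.Ov.mul_mem G.2.1 su.j0_mem_C.1) = su.rb i (d.Ov.mul_mem hw.1 hxa.1)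
    rw [su.rb_mul i G.2.1 su.j0_mem_C.1, su.rb_mul i hw.1 hxa.1, hres i, su.rb_factor]
    have hne := su.xb_sub_const_ne_zero i (d.resA a)
    field_simp
  have h1 := s33rdPhi_congr su (s33rd_chartPlace_of_zero su hP)
    ((s33rdC d su.x).mul_mem G.2 su.j0_mem_C) ((s33rdC d su.x).mul_mem hw hxa) hcong
  have h2 : (⟨(G : F) * su.j0, (s33rdC d su.x).mul_mem G.2 su.j0_mem_C⟩ : ↥(s33rdC d su.x)) =
      G * ⟨su.j0, su.j0_mem_C⟩ := rfl
  have h3 : (⟨w * (su.x - algebraMap K F (a : K)), (s33rdC d su.x).mul_mem hw hxa⟩ :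
      ↥(s33rdC d su.x)) = ⟨w, hw⟩ * ⟨su.x - algebraMap K F (a : K), hxa⟩ := rfl
  rw [h2, h3, map_mul, map_mul] at h1
  have h4 : s33rdPhi su (s33rd_chartPlace_of_zero su hP)
      ⟨su.x - algebraMap K F (a : K), hxa⟩ = 0 :=
    s33rdPhi_eq_zero_of_ordGE su _ hxa ((ordGE_iff P).mpr (Or.inr (by omega)))
  rw [h4, mul_zero] at h1
  rcases mul_eq_zero.mp h1 with h5 | h5
  · exact hφG h5
  · exact s33rdPhi_j0_ne_zero su hgood hP h5

end Red

/-- **`P` reduces to `s`**: the evaluation property -/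
def S33rdRed (P : Place K F) (s : ι × Place k κ) : Prop :=
  S33rdFin su s ∧ ∀ (g : F) (hg : g ∈ s33rdC d su.x) (c : ↥d.A),
    OrdGE P (g - algebraMap K F (c : K)) 1 →
      OrdGE s.2 (su.rb s.1 hg.1 - algebraMap k κ (d.resA c)) 1

/-- the evaluation property from "`φ_P` kills the functions vanishing at `s`" -/
theorem s33rd_red_of_kills {P : Place K F} (hP : S33rdChartPlace d su.x P) {s : ι × Place k κ}
    (hs : S33rdFin su s)
    (hk : ∀ (g : F) (hg : g ∈ s33rdC d su.x), OrdGE s.2 (su.rb s.1 hg.1) 1 →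
      s33rdPhi su hP ⟨g, hg⟩ = 0) : S33rdRed su P s := by
  refine ⟨hs, fun g hg c hc => ?_⟩
  obtain ⟨c', hc'⟩ := s33rd_exists_val su hs (su.rb_isIntegral s.1 hg)
  obtain ⟨a', rfl⟩ := d.resA_surj c'
  have hsub : g - algebraMap K F (a' : K) ∈ s33rdC d su.x :=
    (s33rdC d su.x).sub_mem hg (s33rd_const_mem_C d su.x a')
  have hrb : su.rb s.1 hsub.1 = su.rb s.1 hg.1 - algebraMap k κ (d.resA a') := by
    rw [su.rb_sub s.1 hg.1 (d.algebraMap_mem a'), su.rb_const]
  have h1 := hk _ hsub (by rw [hrb]; exact hc')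
  have h2 : (⟨g - algebraMap K F (a' : K), hsub⟩ : ↥(s33rdC d su.x)) =
      ⟨g, hg⟩ - ⟨algebraMap K F (a' : K), s33rd_const_mem_C d su.x a'⟩ := rfl
  rw [h2, map_sub, s33rdPhi_const, s33rdPhi_eq su hP hg hc, sub_eq_zero] at h1
  rw [h1]
  exact hc'

/-- the value of `x̄` at the reduction of a zero of `x - a` -/
theorem S33rdRed.mem_ptsOver {P : Place K F} {s : ι × Place k κ} (h : S33rdRed su P s) {a : ↥d.A}
    (hP : 0 < P.ord (su.x - algebraMap K F (a : K))) : s ∈ su.ptsOver (d.resA a) := by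
  have h1 := h.2 su.x su.x_mem_C a ((ordGE_iff P).mpr (Or.inr (by omega)))
  rw [su.rb_x] at h1
  rcases (ordGE_iff s.2).mp h1 with h0 | h0
  · exact absurd h0 (su.xb_sub_const_ne_zero s.1 (d.resA a))
  · rw [su.mem_ptsOver]
    omega

/-- a function of `C` vanishing at `P` has reduction vanishing at the reduction of `P` -/
theorem S33rdRed.ordGE {P : Place K F} {s : ι × Place k κ} (h : S33rdRed su P s) {g : F}
    (hg : g ∈ s33rdC d su.x) (hgP : OrdGE P g 1) : OrdGE s.2 (su.rb s.1 hg.1) 1 := by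
  have h1 := h.2 g hg 0 (by simpa using hgP)
  simpa using h1

section Unique

variable [Finite ι]

/-- **uniqueness of the reduction** (for points over a good value) -/
theorem s33rd_red_unique {ab : k} (hgood : S33rdGood su ab) {P : Place K F}
    (hP : S33rdChartPlace d su.x P) {s s' : ι × Place k κ}
    (h : S33rdRed su P s) (h' : S33rdRed su P s') (hs' : s' ∈ su.ptsOver ab) : s = s' := by
  by_contra hne
  obtain ⟨g, hg, h1, h2, h3⟩ := s33rd_exists_sep su h.1 h'.1 hne
    (su.ordGE_of_mem_ptsOver hs') hgood.node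
  obtain ⟨c, hc⟩ := s33rd_value su hP hg
  have h4 := h.2 g hg c hc
  have h5 := h1.sub s.2 h4
  rw [sub_sub_cancel] at h5
  have hc0 : d.resA c = 0 := t3a_const_eq_zero_of_ordGE s.2 h5
  have h6 := h'.2 g hg c hc
  rw [hc0, map_zero, sub_zero] at h6
  rcases (ordGE_iff s'.2).mp h6 with h0 | h0
  · exact h2 h0
  · omega

end Unique

end Fermat.Agent.S33
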