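/-
GAMMA-RED (helper7), part 5: the good fibres of the chart reduce BIJECTIVELY.

For `a ∈ A` lifting a good value `ā` of `x̄`:
* `s33rd_exists_red'` : every zero `P` of `x - a` reduces to a point over `ā`;
* `s33rd_red_surj`    : every point over `ā` is the reduction of a zero of `x - a`;
* `s33rd_card_ptsOver`: there are exactly `[F : K(x)]` points over `ā`;
* `s33rd_fibre_simple`: the zeros of `x - a` are simple;
* `s33rd_red_inj`     : two zeros of `x - a` with the same reduction are equal.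
-/
import Fermat.Agent.Lib.S33.Red.Fibre

set_option autoImplicit false
set_option linter.style.haveILetI false
set_option linter.unusedSectionVars false

namespace Fermat.Agent.S33

open AlgebraicCurve IntermediateField Fermat.Agent.Curve Fermat.Agent.Curve.PlaceAux
  Fermat.Agent.T1 Fermat.Agent.T2 Fermat.Agent.T3

variable {K F k Fb : Type*} [Field K] [Field F] [Algebra K F] [Field k] [CommRing Fb] [Algebra k Fb]
variable [IsAlgClosed K] [IsAlgClosed k]
variable {d : T2Base K F k Fb} {ι : Type*} {κ : Type*} [Field κ] [Algebra k κ]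
  (su : S33rdSetup d ι κ)

section

variable [Finite ι] {a : ↥d.A} (hgood : S33rdGood su (d.resA a))

include hgood in
/-- every zero of `x - a` reduces to a point over `ā` -/
theorem s33rd_exists_red' {P : Place K F} (hP : 0 < P.ord (su.x - algebraMap K F (a : K))) :
    ∃ s ∈ su.ptsOver (d.resA a), S33rdRed su P s := by
  obtain ⟨s, hs, hk⟩ := s33rd_exists_red su hgood hP
  exact ⟨s, hs, s33rd_red_of_kills su (s33rd_chartPlace_of_zero su hP) (su.fin_of_mem_ptsOver hs) hk⟩

/-- the reduction of `x - a` -/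
theorem S33rdSetup.rb_factor_ne_zero (i : ι) (a : ↥d.A) : su.rb i (su.factor_mem_C a).1 ≠ 0 := by
  rw [su.rb_factor]
  exact su.xb_sub_const_ne_zero i _

/-- `(x - a)⁻¹ ∈ 𝒪` -/
theorem S33rdSetup.factor_inv_mem_Ov (a : ↥d.A) : (su.x - algebraMap K F (a : K))⁻¹ ∈ d.Ov :=
  su.inv_mem_Ov (su.factor_mem_C a).1 (fun i => su.rb_factor_ne_zero i a)

theorem S33rdSetup.factor_ne_zero (a : ↥d.A) : su.x - algebraMap K F (a : K) ≠ 0 := by
  intro h0
  have h1 : su.x = algebraMap K F (a : K) := sub_eq_zero.mp h0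
  exact su.gen.transcendental (h1 ▸ isAlgebraic_algebraMap (a : K))

/-- an element of `𝒪` with a nonzero component of the reduction is nonzero -/
theorem S33rdSetup.ne_zero_of_rb_ne_zero {g : F} (hg : g ∈ d.Ov) {i : ι} (h : su.rb i hg ≠ 0) :
    g ≠ 0 := by
  rintro rfl
  apply h
  unfold S33rdSetup.rb
  rw [d.res_zero', map_zero]

include hgood in
/-- a local function: `u ∈ C` vanishing at the zero `P` of `x - a`, whose reduction does not vanish
at the point `s₀` over `ā` different from the reduction of `P` -/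
theorem s33rd_exists_local {P : Place K F} (hP : 0 < P.ord (su.x - algebraMap K F (a : K)))
    {s s₀ : ι × Place k κ} (hs : S33rdRed su P s) (hs₀ : s₀ ∈ su.ptsOver (d.resA a))
    (hne : s ≠ s₀) :
    ∃ u : F, ∃ hu : u ∈ s33rdC d su.x, OrdGE P u 1 ∧ su.rb s₀.1 hu.1 ≠ 0 ∧
      s₀.2.ord (su.rb s₀.1 hu.1) = 0 := by
  obtain ⟨g, hg, h1, h2, h3⟩ := s33rd_exists_sep su hs.1 (su.fin_of_mem_ptsOver hs₀) hne
    (su.ordGE_of_mem_ptsOver hs₀) hgood.node
  obtain ⟨c, hc⟩ := s33rd_value su (s33rd_chartPlace_of_zero su hP) hg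
  have h4 := hs.2 g hg c hc
  have h5 := h1.sub s.2 h4
  rw [sub_sub_cancel] at h5
  have hc0 : d.resA c = 0 := t3a_const_eq_zero_of_ordGE s.2 h5
  have hsub : g - algebraMap K F (c : K) ∈ s33rdC d su.x :=
    (s33rdC d su.x).sub_mem hg (s33rd_const_mem_C d su.x c)
  have hrb : su.rb s₀.1 hsub.1 = su.rb s₀.1 hg.1 := by
    rw [su.rb_sub s₀.1 hg.1 (d.algebraMap_mem c), su.rb_const, hc0, map_zero, sub_zero]
  refine ⟨g - algebraMap K F (c : K), hsub, hc, ?_, ?_⟩
  · rw [hrb]; exact h2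
  · rw [hrb]; exact h3

include hgood in
/-- **surjectivity**: every point over `ā` is the reduction of a zero of `x - a` -/
theorem s33rd_red_surj {s₀ : ι × Place k κ} (hs₀ : s₀ ∈ su.ptsOver (d.resA a)) :
    ∃ P : Place K F, 0 < P.ord (su.x - algebraMap K F (a : K)) ∧ S33rdRed su P s₀ := by
  classical
  haveI := su.sep
  by_contra hcon
  push Not at hcon
  -- local functions
  have hex : ∀ P : Place K F, ∃ u : F, ∃ hu : u ∈ s33rdC d su.x,
      (0 < P.ord (su.x - algebraMap K F (a : K)) → OrdGE P u 1) ∧ su.rb s₀.1 hu.1 ≠ 0 ∧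
        s₀.2.ord (su.rb s₀.1 hu.1) = 0 := by
    intro P
    by_cases hP : 0 < P.ord (su.x - algebraMap K F (a : K))
    · obtain ⟨s, hs, hred⟩ := s33rd_exists_red' su hgood hP
      have hne : s ≠ s₀ := by
        rintro rfl
        exact hcon P hP hred
      obtain ⟨u, hu, h1, h2, h3⟩ := s33rd_exists_local su hgood hP hred hs₀ hne
      exact ⟨u, hu, fun _ => h1, h2, h3⟩
    · refine ⟨1, (s33rdC d su.x).one_mem, fun h => absurd h hP, ?_, ?_⟩
      · unfold S33rdSetup.rb
        rw [d.res_one', map_one]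
        exact one_ne_zero
      · unfold S33rdSetup.rb
        rw [d.res_one', map_one, s₀.2.ord_one]
  choose u huC hu1 hu2 hu3 using hex
  have hu0 : ∀ P, u P ≠ 0 := fun P => su.ne_zero_of_rb_ne_zero (huC P).1 (hu2 P)
  set Z : Finset (Place K F) := (CurveP.finite_zeros su.gen (a : K)).toFinset with hZ
  have hZmem : ∀ P, P ∈ Z ↔ 0 < P.ord (su.x - algebraMap K F (a : K)) := fun P => by
    rw [hZ, Set.Finite.mem_toFinset]
    rfl
  set m : Place K F → ℕ := fun P => (P.ord (su.x - algebraMap K F (a : K))).toNat with hm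
  -- the product
  have hpowC : ∀ P, u P ^ m P ∈ s33rdC d su.x := fun P => (s33rdC d su.x).pow_mem (huC P) _
  set Gs : F := ∏ P ∈ Z, u P ^ m P with hGs
  have hGsC : Gs ∈ s33rdC d su.x := (s33rdC d su.x).prod_mem fun P _ => hpowC P
  have hGs0 : Gs ≠ 0 := Finset.prod_ne_zero_iff.mpr fun P _ => pow_ne_zero _ (hu0 P)
  have hxa := su.factor_mem_C a
  have hxa0 := su.factor_ne_zero a
  have hinv := su.factor_inv_mem_Ov a
  -- `w = Gs / (x - a) ∈ C`
  have hwO : Gs * (su.x - algebraMap K F (a : K))⁻¹ ∈ d.Ov := d.Ov.mul_mem hGsC.1 hinv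
  have hwint : IsIntegral ↥(Algebra.adjoin K {su.x}) (Gs * (su.x - algebraMap K F (a : K))⁻¹) := by
    refine ta_isIntegral_of_regular su.gen _ fun v hv => ?_
    rw [v.ord_mul hGs0 (inv_ne_zero hxa0), v.ord_inv, hGs,
      t3a_ord_prod v Z _ (fun P _ => pow_ne_zero _ (hu0 P))]
    have hterm : ∀ P ∈ Z, 0 ≤ v.ord (u P ^ m P) := fun P _ => by
      rw [t3a_ord_pow]
      exact mul_nonneg (Int.natCast_nonneg _) (ta_ord_nonneg_of_isIntegral (huC P).2 v hv)
    by_cases hvZ : v ∈ Z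
    · have h1 := Finset.single_le_sum hterm hvZ
      have hpos := (hZmem v).mp hvZ
      have h2 : v.ord (su.x - algebraMap K F (a : K)) ≤ v.ord (u v ^ m v) := by
        rw [t3a_ord_pow, hm]
        simp only
        rw [Int.toNat_of_nonneg hpos.le]
        have h3 : 1 ≤ v.ord (u v) := by
          rcases (ordGE_iff v).mp (hu1 v hpos) with h0 | h0
          · exact absurd h0 (hu0 v)
          · exact h0
        nlinarith
      linarith
    · have h1 : ¬ 0 < v.ord (su.x - algebraMap K F (a : K)) := fun h => hvZ ((hZmem v).mpr h)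
      have := Finset.sum_nonneg hterm
      omega
  have hwC : Gs * (su.x - algebraMap K F (a : K))⁻¹ ∈ s33rdC d su.x := ⟨hwO, hwint⟩
  -- reduce
  have hmul : Gs = Gs * (su.x - algebraMap K F (a : K))⁻¹ * (su.x - algebraMap K F (a : K)) := by
    rw [mul_assoc, inv_mul_cancel₀ hxa0, mul_one]
  have hrb : su.rb s₀.1 hGsC.1 = su.rb s₀.1 hwC.1 * su.rb s₀.1 hxa.1 := by
    rw [← su.rb_mul s₀.1 hwC.1 hxa.1]
    exact su.rb_congr s₀.1 hGsC.1 hmul
  have hfin := su.fin_of_mem_ptsOver hs₀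
  have h1 : OrdGE s₀.2 (su.rb s₀.1 hGsC.1) 1 := by
    rw [hrb, su.rb_factor]
    have h2 : OrdGE s₀.2 (su.rb s₀.1 hwC.1) 0 := by
      rw [ordGE_iff]
      right
      exact ta_ord_nonneg_of_isIntegral (su.rb_isIntegral s₀.1 hwC) s₀.2 hfin
    exact (h2.mul s₀.2 (su.ordGE_of_mem_ptsOver hs₀)).mono s₀.2 (by norm_num)
  -- but the reduction of `Gs` does not vanish at `s₀`
  have hrbG : su.rb s₀.1 hGsC.1 = ∏ P ∈ Z, su.rb s₀.1 (huC P).1 ^ m P := by
    have h := su.rb_prod s₀.1 Z (fun P => u P ^ m P) (fun P => (hpowC P).1)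
    have h2 : su.rb s₀.1 hGsC.1 = su.rb s₀.1 (d.Ov.prod_mem
      (fun P (_ : P ∈ Z) => (hpowC P).1)) := rfl
    rw [h2, h]
    exact Finset.prod_congr rfl fun P _ => su.rb_pow s₀.1 (huC P).1 (m P)
  rw [hrbG] at h1
  have hne0 : ∏ P ∈ Z, su.rb s₀.1 (huC P).1 ^ m P ≠ 0 :=
    Finset.prod_ne_zero_iff.mpr fun P _ => pow_ne_zero _ (hu2 P)
  rcases (ordGE_iff s₀.2).mp h1 with h0 | h0
  · exact hne0 h0
  · rw [t3a_ord_prod s₀.2 Z _ (fun P _ => pow_ne_zero _ (hu2 P))] at h0
    have hz : ∑ P ∈ Z, s₀.2.ord (su.rb s₀.1 (huC P).1 ^ m P) = 0 :=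
      Finset.sum_eq_zero fun P _ => by rw [t3a_ord_pow, hu3 P, mul_zero]
    omega

end

end Fermat.Agent.S33
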