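/-
GAMMA-RED (helper7), part 6: counting the points of a good fibre.

For `a ∈ A` lifting a good value `ā` of `x̄`:
* `s33rd_card_ptsOver` : there are exactly `[F : K(x)]` points of the special fibre over `ā`;
* `s33rd_fibre_simple` : the zeros of `x - a` are simple;
* `s33rd_red_inj`      : two zeros of `x - a` with the same reduction are equal.
-/
import Fermat.Agent.Lib.S33.Red.Surj

set_option autoImplicit false
set_option linter.style.haveILetI false
set_option linter.unusedSectionVars false

namespace Fermat.Agent.S33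

open AlgebraicCurve IntermediateField Fermat.Agent.Curve Fermat.Agent.Curve.PlaceAux
  Fermat.Agent.T1 Fermat.Agent.T2 Fermat.Agent.T3

variable {K F k Fb : Type*} [Field K] [Field F] [Algebra K F] [Field k] [CommRing Fb] [Algebra k Fb]
variable [IsAlgClosed K] [IsAlgClosed k]
variable {d : T2Base K F k Fb} {ι : Type*} {κ : Type*} [Field κ] [Algebra k κ]
  (su : S33rdSetup d ι κ)

/-- the number of zeros of `x̄ᵢ - ā`, if they are all simple -/
theorem s33rd_card_zeros {ab : k} (hgood : S33rdGood su ab) (i : ι)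
    (hfin : {Q : Place k κ | 0 < Q.ord (su.xb i - algebraMap k κ ab)}.Finite) :
    ((hfin.toFinset.card : ℕ) : ℤ) = Module.finrank k⟮su.xb i⟯ κ := by
  haveI := su.sepb i
  have h1 : ∑ᶠ Q ∈ {Q : Place k κ | 0 < Q.ord (su.xb i - algebraMap k κ ab)},
      Q.ord (su.xb i - algebraMap k κ ab) = Module.finrank k⟮su.xb i⟯ κ :=
    CurveP.sum_ord_zeros (su.genb i) ab
  rw [finsum_mem_eq_finite_toFinset_sum _ hfin] at h1
  rw [← h1, Finset.card_eq_sum_ones, Nat.cast_sum]
  refine Finset.sum_congr rfl fun Q hQ => ?_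
  rw [Set.Finite.mem_toFinset] at hQ
  have := hgood.simple i Q hQ
  rw [this]
  norm_num

variable [Fintype ι]

/-- **there are `[F : K(x)]` points over a good value** -/
theorem s33rd_card_ptsOver {ab : k} (hgood : S33rdGood su ab) :
    (((su.ptsOver_finite ab).toFinset.card : ℕ) : ℤ) = Module.finrank K⟮su.x⟯ F := by
  classical
  rw [su.deg, finsum_eq_sum_of_fintype, Nat.cast_sum]
  have hfib : ∀ i : ι, (((su.ptsOver_finite ab).toFinset.filter (fun s => s.1 = i)).card : ℤ) =
      Module.finrank k⟮su.xb i⟯ κ := by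
    intro i
    haveI := su.sepb i
    have hfin : {Q : Place k κ | 0 < Q.ord (su.xb i - algebraMap k κ ab)}.Finite :=
      CurveP.finite_zeros (su.genb i) ab
    rw [← s33rd_card_zeros su hgood i hfin]
    congr 1
    refine Finset.card_bij (fun (s : ι × Place k κ) _ => s.2) ?_ ?_ ?_
    · intro s hs
      rw [Finset.mem_filter, Set.Finite.mem_toFinset] at hs
      rw [Set.Finite.mem_toFinset]
      have h1 := hs.1
      rw [su.mem_ptsOver, hs.2] at h1
      exact h1
    · intro s hs s' hs' h
      rw [Finset.mem_filter] at hs hs'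
      exact Prod.ext (hs.2.trans hs'.2.symm) h
    · intro Q hQ
      rw [Set.Finite.mem_toFinset] at hQ
      refine ⟨(i, Q), ?_, rfl⟩
      rw [Finset.mem_filter, Set.Finite.mem_toFinset]
      exact ⟨hQ, rfl⟩
  rw [Finset.card_eq_sum_card_fiberwise (f := fun s : ι × Place k κ => s.1)
    (t := Finset.univ) (fun s _ => Finset.mem_univ _), Nat.cast_sum]
  exact Finset.sum_congr rfl fun i _ => hfib i

variable {a : ↥d.A} (hgood : S33rdGood su (d.resA a))

include hgood in
/-- the counting statement: as many zeros of `x - a` as points over `ā`, all simple, and the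
reduction is injective on them -/
theorem s33rd_fibre_count :
    (∀ P : Place K F, 0 < P.ord (su.x - algebraMap K F (a : K)) →
      P.ord (su.x - algebraMap K F (a : K)) = 1) ∧
    ∀ (P P' : Place K F) (s : ι × Place k κ), 0 < P.ord (su.x - algebraMap K F (a : K)) →
      0 < P'.ord (su.x - algebraMap K F (a : K)) → S33rdRed su P s → S33rdRed su P' s → P = P' := by
  classical
  haveI := su.sep
  set Z : Finset (Place K F) := (CurveP.finite_zeros su.gen (a : K)).toFinset with hZ
  have hZmem : ∀ P, P ∈ Z ↔ 0 < P.ord (su.x - algebraMap K F (a : K)) := fun P => by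
    rw [hZ, Set.Finite.mem_toFinset]
    rfl
  set T : Finset (ι × Place k κ) := (su.ptsOver_finite (d.resA a)).toFinset with hT
  have hTmem : ∀ s, s ∈ T ↔ s ∈ su.ptsOver (d.resA a) := fun s => by
    rw [hT, Set.Finite.mem_toFinset]
  -- the reduction function
  by_cases hnonempty : ∃ P₀ : Place K F, 0 < P₀.ord (su.x - algebraMap K F (a : K))
  swap
  · exact ⟨fun P hP => absurd ⟨P, hP⟩ hnonempty, fun P _ _ hP _ _ _ => absurd ⟨P, hP⟩ hnonempty⟩
  obtain ⟨P₀, hP₀⟩ := hnonempty
  obtain ⟨sdef, -, -⟩ := s33rd_exists_red' su hgood hP₀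
  have hex : ∀ P : Place K F, ∃ s : ι × Place k κ,
      0 < P.ord (su.x - algebraMap K F (a : K)) → s ∈ su.ptsOver (d.resA a) ∧ S33rdRed su P s := by
    intro P
    by_cases hP : 0 < P.ord (su.x - algebraMap K F (a : K))
    · obtain ⟨s, hs, hred⟩ := s33rd_exists_red' su hgood hP
      exact ⟨s, fun _ => ⟨hs, hred⟩⟩
    · exact ⟨sdef, fun h => absurd h hP⟩
  choose r hr using hex
  have hmaps : Set.MapsTo r (Z : Set (Place K F)) (T : Set (ι × Place k κ)) := by
    intro P hP
    exact (hTmem _).mpr (hr P ((hZmem P).mp hP)).1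
  have hsurj : Set.SurjOn r (Z : Set (Place K F)) (T : Set (ι × Place k κ)) := by
    intro s₀ hs₀
    obtain ⟨P, hP, hred⟩ := s33rd_red_surj su hgood ((hTmem s₀).mp hs₀)
    refine ⟨P, (hZmem P).mpr hP, ?_⟩
    exact (s33rd_red_unique su hgood (s33rd_chartPlace_of_zero su hP) hred (hr P hP).2
      (hr P hP).1).symm
  -- the count
  have hsum : ∑ P ∈ Z, P.ord (su.x - algebraMap K F (a : K)) = Module.finrank K⟮su.x⟯ F := by
    have h1 := CurveP.sum_ord_zeros su.gen (a : K)
    rwa [finsum_mem_eq_finite_toFinset_sum _ (CurveP.finite_zeros su.gen (a : K))] at h1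
  have hcardT : ((T.card : ℕ) : ℤ) = Module.finrank K⟮su.x⟯ F := s33rd_card_ptsOver su hgood
  have hle1 : T.card ≤ Z.card := Finset.card_le_card_of_surjOn r hsurj
  have hle2 : ((Z.card : ℕ) : ℤ) ≤ ∑ P ∈ Z, P.ord (su.x - algebraMap K F (a : K)) := by
    rw [Finset.card_eq_sum_ones, Nat.cast_sum]
    refine Finset.sum_le_sum fun P hP => ?_
    have := (hZmem P).mp hP
    show ((1 : ℕ) : ℤ) ≤ _
    omega
  have hcardZ : ((Z.card : ℕ) : ℤ) = ∑ P ∈ Z, P.ord (su.x - algebraMap K F (a : K)) := by
    have : ((T.card : ℕ) : ℤ) ≤ Z.card := by exact_mod_cast hle1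
    omega
  have hZT : Z.card ≤ T.card := by
    have : ((Z.card : ℕ) : ℤ) ≤ T.card := by omega
    exact_mod_cast this
  have hinj := Finset.injOn_of_surjOn_of_card_le r hmaps hsurj hZT
  refine ⟨fun P hP => ?_, fun P P' s hP hP' hs hs' => ?_⟩
  · -- all orders are one
    have hall : ∀ P ∈ Z, P.ord (su.x - algebraMap K F (a : K)) - 1 = 0 := by
      have hnn : ∀ P ∈ Z, 0 ≤ P.ord (su.x - algebraMap K F (a : K)) - 1 := fun P hP => by
        have := (hZmem P).mp hP
        omega
      have hs0 : ∑ P ∈ Z, (P.ord (su.x - algebraMap K F (a : K)) - 1) = 0 := by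
        rw [Finset.sum_sub_distrib, ← hcardZ, Finset.card_eq_sum_ones, Nat.cast_sum]
        simp
      exact (Finset.sum_eq_zero_iff_of_nonneg hnn).mp hs0
    have := hall P ((hZmem P).mpr hP)
    omega
  · have h1 : r P = s := (s33rd_red_unique su hgood (s33rd_chartPlace_of_zero su hP) hs
      (hr P hP).2 (hr P hP).1).symm
    have h2 : r P' = s := (s33rd_red_unique su hgood (s33rd_chartPlace_of_zero su hP') hs'
      (hr P' hP').2 (hr P' hP').1).symm
    exact hinj ((hZmem P).mpr hP) ((hZmem P').mpr hP') (h1.trans h2.symm)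

include hgood in
/-- **the zeros of `x - a` are simple** -/
theorem s33rd_fibre_simple {P : Place K F} (hP : 0 < P.ord (su.x - algebraMap K F (a : K))) :
    P.ord (su.x - algebraMap K F (a : K)) = 1 :=
  (s33rd_fibre_count su hgood).1 P hP

include hgood in
/-- **the reduction is injective on the zeros of `x - a`** -/
theorem s33rd_red_inj {P P' : Place K F} {s : ι × Place k κ}
    (hP : 0 < P.ord (su.x - algebraMap K F (a : K)))
    (hP' : 0 < P'.ord (su.x - algebraMap K F (a : K)))
    (hs : S33rdRed su P s) (hs' : S33rdRed su P' s) : P = P' :=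
  (s33rd_fibre_count su hgood).2 P P' s hP hP' hs hs'

end Fermat.Agent.S33
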