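/-
GAMMA-RED (helper7), part 7: **orders at the places of a good fibre are read off on the special
fibre**.

For `a ∈ A` lifting a good value of `x̄`, a zero `P` of `x - a` with reduction `s`, `f ∈ C` and
`j : ℕ`:   `ord_P f ≥ j  ⟹  ord_s (res f) ≥ j`   (`s33rd_ord_le`).
-/
import Fermat.Agent.Lib.S33.Red.Count

set_option autoImplicit false
set_option linter.style.haveILetI false
set_option linter.unusedSectionVars false

namespace Fermat.Agent.S33

open AlgebraicCurve IntermediateField Fermat.Agent.Curve Fermat.Agent.Curve.PlaceAux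
  Fermat.Agent.T1 Fermat.Agent.T2 Fermat.Agent.T3

variable {K F k Fb : Type*} [Field K] [Field F] [Algebra K F] [Field k] [CommRing Fb] [Algebra k Fb]
variable [IsAlgClosed K] [IsAlgClosed k]
variable {d : T2Base K F k Fb} {ι : Type*} {κ : Type*} [Field κ] [Algebra k κ]
  (su : S33rdSetup d ι κ) [Fintype ι] {a : ↥d.A} (hgood : S33rdGood su (d.resA a))

include hgood in
/-- **(ORD)** -/
theorem s33rd_ord_le {P : Place K F} (hP : 0 < P.ord (su.x - algebraMap K F (a : K)))
    {s : ι × Place k κ} (hs : S33rdRed su P s) {f : F} (hf : f ∈ s33rdC d su.x) (j : ℕ)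
    (hfj : OrdGE P f j) : OrdGE s.2 (su.rb s.1 hf.1) j := by
  classical
  haveI := su.sep
  rcases eq_or_ne f 0 with rfl | hf0
  · have : su.rb s.1 hf.1 = 0 := by
      unfold S33rdSetup.rb
      rw [d.res_zero', map_zero]
    rw [this]
    exact ordGE_zero s.2 _
  have hsT : s ∈ su.ptsOver (d.resA a) := hs.mem_ptsOver su hP
  set Z : Finset (Place K F) := (CurveP.finite_zeros su.gen (a : K)).toFinset with hZ
  have hZmem : ∀ P', P' ∈ Z ↔ 0 < P'.ord (su.x - algebraMap K F (a : K)) := fun P' => by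
    rw [hZ, Set.Finite.mem_toFinset]
    rfl
  -- local functions at the other points of the fibre
  have hex : ∀ P' : Place K F, ∃ u : F, ∃ hu : u ∈ s33rdC d su.x,
      (P' ∈ Z.erase P → OrdGE P' u 1) ∧ su.rb s.1 hu.1 ≠ 0 ∧ s.2.ord (su.rb s.1 hu.1) = 0 := by
    intro P'
    by_cases hP' : P' ∈ Z.erase P
    · rw [Finset.mem_erase] at hP'
      have hP'z := (hZmem P').mp hP'.2
      obtain ⟨s', hs', hred'⟩ := s33rd_exists_red' su hgood hP'z
      have hne : s' ≠ s := by
        rintro rfl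
        exact hP'.1 (s33rd_red_inj su hgood hP'z hP hred' hs)
      obtain ⟨u, hu, h1, h2, h3⟩ := s33rd_exists_local su hgood hP'z hred' hsT hne
      exact ⟨u, hu, fun _ => h1, h2, h3⟩
    · refine ⟨1, (s33rdC d su.x).one_mem, fun h => absurd h hP', ?_, ?_⟩
      · unfold S33rdSetup.rb
        rw [d.res_one', map_one]
        exact one_ne_zero
      · unfold S33rdSetup.rb
        rw [d.res_one', map_one, s.2.ord_one]
  choose u huC hu1 hu2 hu3 using hex
  have hu0 : ∀ P', u P' ≠ 0 := fun P' => su.ne_zero_of_rb_ne_zero (huC P').1 (hu2 P')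
  have hpowC : ∀ P', u P' ^ j ∈ s33rdC d su.x := fun P' => (s33rdC d su.x).pow_mem (huC P') _
  set h : F := ∏ P' ∈ Z.erase P, u P' ^ j with hh
  have hhC : h ∈ s33rdC d su.x := (s33rdC d su.x).prod_mem fun P' _ => hpowC P'
  have hh0 : h ≠ 0 := Finset.prod_ne_zero_iff.mpr fun P' _ => pow_ne_zero _ (hu0 P')
  have hxa := su.factor_mem_C a
  have hxa0 := su.factor_ne_zero a
  have hinv := su.factor_inv_mem_Ov a
  -- `w = h f / (x - a)^j ∈ C`
  have hwO : h * f * ((su.x - algebraMap K F (a : K))⁻¹) ^ j ∈ d.Ov :=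
    d.Ov.mul_mem (d.Ov.mul_mem hhC.1 hf.1) (d.Ov.pow_mem hinv j)
  have hwint : IsIntegral ↥(Algebra.adjoin K {su.x})
      (h * f * ((su.x - algebraMap K F (a : K))⁻¹) ^ j) := by
    refine ta_isIntegral_of_regular su.gen _ fun v hv => ?_
    rw [v.ord_mul (mul_ne_zero hh0 hf0) (pow_ne_zero _ (inv_ne_zero hxa0)), v.ord_mul hh0 hf0,
      t3a_ord_pow, v.ord_inv, hh, t3a_ord_prod v _ _ (fun P' _ => pow_ne_zero _ (hu0 P'))]
    have hterm : ∀ P' ∈ Z.erase P, 0 ≤ v.ord (u P' ^ j) := fun P' _ => by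
      rw [t3a_ord_pow]
      exact mul_nonneg (Int.natCast_nonneg _) (ta_ord_nonneg_of_isIntegral (huC P').2 v hv)
    have hfnn : 0 ≤ v.ord f := ta_ord_nonneg_of_isIntegral hf.2 v hv
    have hsumnn := Finset.sum_nonneg hterm
    by_cases hvZ : v ∈ Z
    · have hv1 : v.ord (su.x - algebraMap K F (a : K)) = 1 :=
        s33rd_fibre_simple su hgood ((hZmem v).mp hvZ)
      rw [hv1]
      by_cases hvP : v = P
      · subst hvP
        rcases (ordGE_iff v).mp hfj with h0 | h0
        · exact absurd h0 hf0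
        · linarith
      · have hmem : v ∈ Z.erase P := Finset.mem_erase.mpr ⟨hvP, hvZ⟩
        have h1 := Finset.single_le_sum hterm hmem
        have h2 : (j : ℤ) ≤ v.ord (u v ^ j) := by
          rw [t3a_ord_pow]
          have h3 : 1 ≤ v.ord (u v) := by
            rcases (ordGE_iff v).mp (hu1 v hmem) with h0 | h0
            · exact absurd h0 (hu0 v)
            · exact h0
          nlinarith [Int.natCast_nonneg j]
        linarith
    · have h1 : ¬ 0 < v.ord (su.x - algebraMap K F (a : K)) := fun h => hvZ ((hZmem v).mpr h)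
      have h2 : 0 ≤ (j : ℤ) * -(v.ord (su.x - algebraMap K F (a : K))) :=
        mul_nonneg (Int.natCast_nonneg _) (by omega)
      linarith
  have hwC : h * f * ((su.x - algebraMap K F (a : K))⁻¹) ^ j ∈ s33rdC d su.x := ⟨hwO, hwint⟩
  -- reduce
  have hmul : h * f = h * f * ((su.x - algebraMap K F (a : K))⁻¹) ^ j *
      (su.x - algebraMap K F (a : K)) ^ j := by
    rw [mul_assoc (h * f), ← mul_pow, inv_mul_cancel₀ hxa0, one_pow, mul_one]
  have hrb : su.rb s.1 hhC.1 * su.rb s.1 hf.1 =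
      su.rb s.1 hwC.1 * (su.xb s.1 - algebraMap k κ (d.resA a)) ^ j := by
    rw [← su.rb_mul s.1 hhC.1 hf.1, ← su.rb_factor s.1 a, ← su.rb_pow s.1 hxa.1 j,
      ← su.rb_mul s.1 hwC.1 (d.Ov.pow_mem hxa.1 j)]
    exact su.rb_congr s.1 (d.Ov.mul_mem hhC.1 hf.1) hmul
  have hfin := su.fin_of_mem_ptsOver hsT
  -- the reduction of `h` does not vanish at `s`
  have hrbh : su.rb s.1 hhC.1 = ∏ P' ∈ Z.erase P, su.rb s.1 (huC P').1 ^ j := by
    have h1 := su.rb_prod s.1 (Z.erase P) (fun P' => u P' ^ j) (fun P' => (hpowC P').1)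
    have h2 : su.rb s.1 hhC.1 = su.rb s.1 (d.Ov.prod_mem
      (fun P' (_ : P' ∈ Z.erase P) => (hpowC P').1)) := rfl
    rw [h2, h1]
    exact Finset.prod_congr rfl fun P' _ => su.rb_pow s.1 (huC P').1 j
  have hrbh0 : su.rb s.1 hhC.1 ≠ 0 := by
    rw [hrbh]
    exact Finset.prod_ne_zero_iff.mpr fun P' _ => pow_ne_zero _ (hu2 P')
  have hrbhord : s.2.ord (su.rb s.1 hhC.1) = 0 := by
    rw [hrbh, t3a_ord_prod s.2 _ _ (fun P' _ => pow_ne_zero _ (hu2 P'))]
    exact Finset.sum_eq_zero fun P' _ => by rw [t3a_ord_pow, hu3 P', mul_zero]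
  -- conclusion
  rcases eq_or_ne (su.rb s.1 hf.1) 0 with h0 | h0
  · rw [h0]
    exact ordGE_zero s.2 _
  rw [ordGE_iff]
  right
  have h1 : OrdGE s.2 (su.rb s.1 hwC.1 * (su.xb s.1 - algebraMap k κ (d.resA a)) ^ j) j := by
    have h2 : OrdGE s.2 (su.rb s.1 hwC.1) 0 := by
      rw [ordGE_iff]
      right
      exact ta_ord_nonneg_of_isIntegral (su.rb_isIntegral s.1 hwC) s.2 hfin
    have h3 : OrdGE s.2 ((su.xb s.1 - algebraMap k κ (d.resA a)) ^ j) j := by
      rw [ordGE_iff]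
      right
      rw [t3a_ord_pow, hgood.simple s.1 s.2 hsT, mul_one]
    exact (h2.mul s.2 h3).mono s.2 (by norm_num)
  rw [← hrb] at h1
  rcases (ordGE_iff s.2).mp h1 with h4 | h4
  · exact absurd h4 (mul_ne_zero hrbh0 h0)
  · rw [s.2.ord_mul hrbh0 h0, hrbhord, zero_add] at h4
    exact h4

end Fermat.Agent.S33
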