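/-
GAMMA-RED (helper7), part 8: **the places of a good fibre over an inertia-fixed constant are fixed
by inertia**.

`g` a semilinear automorphism of `F/K` which preserves `(A, 𝒪)`, acts trivially on the residue
field and on the reductions (`S33rdInert`), and fixes the chart `x`.  If `a ∈ A` lifts a good value
and `g a = a`, then `g • P = P` for every zero `P` of `x - a` (`s33rd_smul_eq`): `g • P` is again a
zero of `x - a` with the same reduction, and the reduction is injective on the fibre.
-/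
import Fermat.Agent.Lib.S33.Red.Ord
import Fermat.Agent.Lib.T3.Gal.Abs

set_option autoImplicit false
set_option linter.style.haveILetI false
set_option linter.unusedSectionVars false

namespace Fermat.Agent.S33

open AlgebraicCurve IntermediateField Fermat.Agent.Curve Fermat.Agent.Curve.PlaceAux
  Fermat.Agent.T1 Fermat.Agent.T2 Fermat.Agent.T3

variable {K F k Fb : Type*} [Field K] [Field F] [Algebra K F] [Field k] [CommRing Fb] [Algebra k Fb]

/-- `g` is "of inertia type" for the base `d` and fixes the coordinate `x` -/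
structure S33rdInert (d : T2Base K F k Fb) (x : F) (g : SemilinearAut K F) : Prop where
  mapA : ∀ a : K, a ∈ d.A → SemilinearAut.baseAut g a ∈ d.A
  mapA_symm : ∀ a : K, a ∈ d.A → (SemilinearAut.baseAut g).symm a ∈ d.A
  resA : ∀ (a : K) (ha : a ∈ d.A), d.resA ⟨SemilinearAut.baseAut g a, mapA a ha⟩ = d.resA ⟨a, ha⟩
  mapOv : ∀ f : F, f ∈ d.Ov → g • f ∈ d.Ov
  mapOv_symm : ∀ f : F, f ∈ d.Ov → g⁻¹ • f ∈ d.Ov
  res : ∀ (f : F) (hf : f ∈ d.Ov), d.res ⟨g • f, mapOv f hf⟩ = d.res ⟨f, hf⟩
  fix : g • x = x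

variable [IsAlgClosed K] [IsAlgClosed k]
variable {d : T2Base K F k Fb} {ι : Type*} {κ : Type*} [Field κ] [Algebra k κ]
  (su : S33rdSetup d ι κ)

theorem S33rdInert.fix_symm {g : SemilinearAut K F} (hc : S33rdInert d su.x g) :
    g⁻¹ • su.x = su.x := by
  rw [inv_smul_eq_iff, hc.fix]

theorem S33rdInert.inv_smul_mem_C {g : SemilinearAut K F} (hc : S33rdInert d su.x g) {f : F}
    (hf : f ∈ s33rdC d su.x) : g⁻¹ • f ∈ s33rdC d su.x :=
  ⟨hc.mapOv_symm f hf.1, t3b_isIntegral_smul g⁻¹ (hc.fix_symm su) hf.2⟩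

/-- the reduction of `g • P` is the reduction of `P` -/
theorem S33rdRed.smul {g : SemilinearAut K F} (hc : S33rdInert d su.x g) {P : Place K F}
    {s : ι × Place k κ} (hs : S33rdRed su P s) : S33rdRed su (g • P) s := by
  refine ⟨hs.1, fun f hfC c hfc => ?_⟩
  have hf' : g⁻¹ • f ∈ s33rdC d su.x := hc.inv_smul_mem_C su hfC
  set c' : ↥d.A := ⟨(SemilinearAut.baseAut g).symm (c : K), hc.mapA_symm _ c.2⟩ with hc'
  have h1 : OrdGE P (g⁻¹ • f - algebraMap K F (c' : K)) 1 := by
    rw [← t3b_ordGE_smul g P]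
    rw [smul_sub, smul_inv_smul, SemilinearAut.smul_algebraMap]
    show OrdGE (g • P) (f - algebraMap K F
      (SemilinearAut.baseAut g ((SemilinearAut.baseAut g).symm (c : K)))) 1
    rw [RingEquiv.apply_symm_apply]
    exact hfc
  have h2 := hs.2 (g⁻¹ • f) hf' c' h1
  have h3 : d.res ⟨g⁻¹ • f, hf'.1⟩ = d.res ⟨f, hfC.1⟩ := by
    rw [← hc.res (g⁻¹ • f) hf'.1]
    congr 1
    exact Subtype.ext (smul_inv_smul g f)
  have h4 : d.resA c' = d.resA c := by
    rw [← hc.resA (c' : K) c'.2]
    congr 1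
    exact Subtype.ext (RingEquiv.apply_symm_apply _ _)
  have h5 : su.rb s.1 hf'.1 = su.rb s.1 hfC.1 := by
    unfold S33rdSetup.rb
    rw [h3]
  rwa [h5, h4] at h2

variable [Fintype ι] {a : ↥d.A} (hgood : S33rdGood su (d.resA a))

include hgood in
/-- **the zeros of `x - a` are fixed by inertia** (`a` fixed by `g`) -/
theorem s33rd_smul_eq {g : SemilinearAut K F} (hc : S33rdInert d su.x g)
    (ha : SemilinearAut.baseAut g (a : K) = (a : K)) {P : Place K F}
    (hP : 0 < P.ord (su.x - algebraMap K F (a : K))) : g • P = P := by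
  obtain ⟨s, -, hred⟩ := s33rd_exists_red' su hgood hP
  have hgP : 0 < (g • P).ord (su.x - algebraMap K F (a : K)) := by
    have h1 := SemilinearAut.ord_smul g P (su.x - algebraMap K F (a : K))
    rw [smul_sub, hc.fix, SemilinearAut.smul_algebraMap, ha] at h1
    rw [h1]
    exact hP
  exact s33rd_red_inj su hgood hgP hP (hred.smul su hc) hred

end Fermat.Agent.S33
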