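/-
GAMMA-RED (helper7), part 13: the bad values of the chart are finite.

* `s33rd_branch_finite`  : for a separating generator `z` of `κ / k`, only finitely many `ab : k`
  are such that `z - ab` has a multiple zero (the zeros of the differential `dz`);
* `s33rdBadVal su`       : the values of `x̄` which are not good (`S33rdGood`), a finite set;
* `s33rdBad su i`        : the places of the component `i` which are poles of `x̄ᵢ` or lie over a
  bad value, a finite set; off it, the value of `x̄ᵢ` is good (`s33rd_good_of_not_bad`).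
-/
import Fermat.Agent.Lib.S33.Red.Count
import Fermat.Agent.Lib.CurveP.Hurwitz

set_option autoImplicit false
set_option linter.style.haveILetI false
set_option linter.unusedSectionVars false

namespace Fermat.Agent.S33

open AlgebraicCurve IntermediateField Fermat.Agent.Curve Fermat.Agent.Curve.PlaceAux
  Fermat.Agent.T1 Fermat.Agent.T2 Fermat.Agent.T3

section Branch

variable {k κ : Type*} [Field k] [Field κ] [Algebra k κ] [IsAlgClosed k] {z : κ}
  (hz : IsFunctionFieldGen k κ z) [Algebra.IsSeparable k⟮z⟯ κ]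

include hz in
/-- a multiple zero of `z - ab` is a zero of `dz` -/
theorem s33rd_ordDifferential_pos {Q : Place k κ} {ab : k} (h2 : 2 ≤ Q.ord (z - algebraMap k κ ab)) :
    0 < Q.ordDifferential (KaehlerDifferential.D k κ z) := by
  have hne : z - algebraMap k κ ab ≠ 0 := by
    intro h0
    exact hz.transcendental ((sub_eq_zero.mp h0) ▸ isAlgebraic_algebraMap ab)
  rcases CurveP.le_ord_differentialCoeff_D hz Q z ab (by omega) hne with h0 | ⟨h1, -⟩
  · exact absurd h0 (CurveP.differentialCoeff_D_gen_ne_zero hz Q)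
  · rw [Place.ordDifferential]
    omega

include hz in
/-- **only finitely many values of `z` are branch values** -/
theorem s33rd_branch_finite :
    {ab : k | ∃ Q : Place k κ, 0 < Q.ord (z - algebraMap k κ ab) ∧
      Q.ord (z - algebraMap k κ ab) ≠ 1}.Finite := by
  obtain ⟨v₀⟩ := CurveP.exists_place hz
  have hfin : {Q : Place k κ | 0 < Q.ordDifferential (KaehlerDifferential.D k κ z)}.Finite :=
    CurveP.finite_zeros_differential hz (CurveP.D_gen_ne_zero hz v₀)
  have hsub : {ab : k | ∃ Q : Place k κ, 0 < Q.ord (z - algebraMap k κ ab) ∧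
      Q.ord (z - algebraMap k κ ab) ≠ 1} ⊆
      ⋃ Q ∈ {Q : Place k κ | 0 < Q.ordDifferential (KaehlerDifferential.D k κ z)},
        {ab : k | 0 < Q.ord (z - algebraMap k κ ab)} := by
    rintro ab ⟨Q, h1, h2⟩
    rw [Set.mem_iUnion₂]
    exact ⟨Q, s33rd_ordDifferential_pos hz (ab := ab) (by omega), h1⟩
  refine (Set.Finite.biUnion hfin fun Q _ => ?_).subset hsub
  refine Set.Subsingleton.finite ?_
  intro a ha b hb
  exact CurveP.zero_unique Q ha hb

end Branch

variable {K F k Fb : Type*} [Field K] [Field F] [Algebra K F] [Field k] [CommRing Fb] [Algebra k Fb]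
variable [IsAlgClosed K] [IsAlgClosed k]
variable {d : T2Base K F k Fb} {ι : Type*} {κ : Type*} [Field κ] [Algebra k κ]
  (su : S33rdSetup d ι κ)

/-- the bad values of `x̄` -/
def s33rdBadVal : Set k := {ab | ¬ S33rdGood su ab}

theorem s33rd_badVal_finite [Finite ι] : (s33rdBadVal su).Finite := by
  classical
  have hsub : s33rdBadVal su ⊆
      ((fun s => d.resA (su.av s)) '' (su.nodes : Set (ι × Place k κ))) ∪
        ⋃ i : ι, {ab : k | ∃ Q : Place k κ, 0 < Q.ord (su.xb i - algebraMap k κ ab) ∧
          Q.ord (su.xb i - algebraMap k κ ab) ≠ 1} := by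
    intro ab hab
    by_contra hcon
    rw [Set.mem_union, not_or, Set.mem_iUnion, not_exists] at hcon
    apply hab
    refine ⟨fun s hs heq => hcon.1 ⟨s, hs, heq⟩, fun i Q hQ => ?_⟩
    by_contra hne
    exact hcon.2 i ⟨Q, hQ, hne⟩
  refine Set.Finite.subset (Set.Finite.union (Set.Finite.image _ (Finset.finite_toSet _))
    (Set.finite_iUnion fun i => ?_)) hsub
  haveI : Algebra.IsSeparable k⟮su.xb i⟯ κ := su.sepb i
  exact s33rd_branch_finite (z := su.xb i) (su.genb i)

theorem s33rd_good_of_not_badVal {ab : k} (hab : ab ∉ s33rdBadVal su) : S33rdGood su ab :=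
  not_not.mp hab

/-- the bad places of the component `i` -/
def s33rdBad (i : ι) : Set (Place k κ) :=
  {Q | Q.ord (su.xb i) < 0} ∪
    ⋃ ab ∈ s33rdBadVal su, {Q : Place k κ | 0 < Q.ord (su.xb i - algebraMap k κ ab)}

theorem s33rd_bad_finite [Finite ι] (i : ι) : (s33rdBad su i).Finite := by
  haveI := su.sepb i
  refine Set.Finite.union (CurveP.finite_poles_of (su.genb i) _) ?_
  exact Set.Finite.biUnion (s33rd_badVal_finite su) fun ab _ => CurveP.finite_zeros (su.genb i) ab

/-- off the bad set, the value of `x̄ᵢ` is a good value -/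
theorem s33rd_good_of_not_bad {i : ι} {Q : Place k κ} (hQ : Q ∉ s33rdBad su i) :
    ∃ ab : k, S33rdGood su ab ∧ (i, Q) ∈ su.ptsOver ab := by
  rw [s33rdBad, Set.mem_union, not_or] at hQ
  have hfin : 0 ≤ Q.ord (su.xb i) := not_lt.mp hQ.1
  obtain ⟨ab, hab⟩ := exists_const_ordGE_one (su.genb i) Q (mem_of_ord_nonneg Q hfin)
  have hpos : 0 < Q.ord (su.xb i - algebraMap k κ ab) := by
    rcases (ordGE_iff Q).mp hab with h0 | h0
    · exact absurd h0 (su.xb_sub_const_ne_zero i ab)
    · omega
  refine ⟨ab, s33rd_good_of_not_badVal su fun hbad => hQ.2 ?_, hpos⟩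
  rw [Set.mem_iUnion₂]
  exact ⟨ab, hbad, hpos⟩

/-- the nodes are bad places -/
theorem s33rd_node_mem_bad {s : ι × Place k κ} (hs : s ∈ su.nodes) : s.2 ∈ s33rdBad su s.1 := by
  right
  rw [Set.mem_iUnion₂]
  refine ⟨d.resA (su.av s), fun hgood => hgood.node s hs rfl, ?_⟩
  have := su.av_spec hs
  rcases (ordGE_iff s.2).mp this with h0 | h0
  · exact absurd h0 (su.xb_sub_const_ne_zero s.1 _)
  · show 0 < s.2.ord (su.xb s.1 - algebraMap k κ (d.resA (su.av s)))
    omega

theorem s33rd_node_mem_bad' {i : ι} {Q : Place k κ} (hs : (i, Q) ∈ su.nodes) :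
    Q ∈ s33rdBad su i := by
  have h1 := s33rd_node_mem_bad su hs
  simpa using h1

end Fermat.Agent.S33
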