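/-
GAMMA-RED (helper7), part 10: the degree of the chart on a two-component special fibre.

For `d : T2Base K F k (κ₁ × κ₂)` and `su : T2Setup d σ` with `x̄ = (x̄₁, x̄₂)`:
* `s33rd_n_eq`     : `su.n = [F : K(x)]`;
* `s33rd_n_eq_add` : `su.n = [κ₁ : k(x̄₁)] + [κ₂ : k(x̄₂)]`
  (sandwich `ker ev ∩ L̃(a) ⊆ L̄^sing(a, 0) ⊆ L̃(a) = L̄₁(a) × L̄₂(a)` and Riemann–Roch);
* `s33rd_deg`      : `[F : K(x)] = [κ₁ : k(x̄₁)] + [κ₂ : k(x̄₂)]`.
-/
import Fermat.Agent.Lib.S33.Red.Prod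
import Fermat.Agent.Lib.T1.Core.Twist

set_option autoImplicit false
set_option linter.style.haveILetI false
set_option linter.unusedSectionVars false

namespace Fermat.Agent.S33

open AlgebraicCurve IntermediateField Fermat.Agent.Curve Fermat.Agent.Curve.PlaceAux
  Fermat.Agent.T1 Fermat.Agent.T2 Fermat.Agent.T3

variable {K F k κ₁ κ₂ : Type*} [Field K] [Field F] [Algebra K F] [Field k] [Field κ₁] [Field κ₂]
  [Algebra k κ₁] [Algebra k κ₂] [IsAlgClosed K] [IsAlgClosed k]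
variable {d : T2Base K F k (κ₁ × κ₂)} {σ : Type*} [Fintype σ] (su : T2Setup d σ)

theorem s33rd_xib_fst : su.xib.1 = su.xb.1⁻¹ := by
  have h := congrArg Prod.fst su.xib_mul_xb
  rw [Prod.fst_mul, Prod.fst_one] at h
  exact eq_inv_of_mul_eq_one_left h

theorem s33rd_xib_snd : su.xib.2 = su.xb.2⁻¹ := by
  have h := congrArg Prod.snd su.xib_mul_xb
  rw [Prod.snd_mul, Prod.snd_one] at h
  exact eq_inv_of_mul_eq_one_left h

/-- `L̃(a) = L̄₁(a) × L̄₂(a)` -/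
theorem s33rd_mem_t2Lt_iff (a : ℕ) (t : κ₁ × κ₂) :
    t ∈ t2Lt (k := k) su.xb su.xib a ↔
      t.1 ∈ tbLbar (K := k) su.xb.1 a 0 ∧ t.2 ∈ tbLbar (K := k) su.xb.2 a 0 := by
  rw [mem_t2Lt, mem_tbLbar, mem_tbLbar, s33rd_isIntegral_prod_iff, s33rd_isIntegral_prod_iff,
    Prod.fst_mul, Prod.snd_mul, Prod.pow_fst, Prod.pow_snd, s33rd_xib_fst, s33rd_xib_snd,
    pow_zero, one_mul, pow_zero, one_mul]
  tauto

/-- the linear equivalence `L̃(a) ≃ L̄₁(a) × L̄₂(a)` -/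
noncomputable def s33rdLtEquiv (a : ℕ) :
    ↥(t2Lt (k := k) su.xb su.xib a) ≃ₗ[k]
      (↥(tbLbar (K := k) su.xb.1 a 0) × ↥(tbLbar (K := k) su.xb.2 a 0)) where
  toFun t := (⟨(t : κ₁ × κ₂).1, ((s33rd_mem_t2Lt_iff su a t).mp t.2).1⟩,
    ⟨(t : κ₁ × κ₂).2, ((s33rd_mem_t2Lt_iff su a t).mp t.2).2⟩)
  invFun p := ⟨((p.1 : κ₁), (p.2 : κ₂)), (s33rd_mem_t2Lt_iff su a _).mpr ⟨p.1.2, p.2.2⟩⟩
  map_add' _ _ := rfl
  map_smul' _ _ := rfl
  left_inv _ := rfl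
  right_inv _ := rfl

/-- `L̄^sing(a, 0) ⊆ L̃(a)` -/
theorem s33rd_Lsing_le_t2Lt (a : ℕ) : su.Lsing a 0 ≤ t2Lt (k := k) su.xb su.xib a := by
  intro t ht
  rw [T2Setup.mem_Lsing, pow_zero, one_mul] at ht
  exact ⟨su.S1_le_R ht.1, su.mem_S2_iff.mp ht.2⟩

/-- the evaluation on `L̃(a)` -/
noncomputable def s33rdEvLt (a : ℕ) : ↥(t2Lt (k := k) su.xb su.xib a) →ₗ[k] (σ → k) :=
  su.ev.toLinearMap ∘ₗ
    (Submodule.inclusion (show t2Lt (k := k) su.xb su.xib a ≤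
      Subalgebra.toSubmodule (t2R (k := k) su.xb) from fun _ ht => ht.1))

theorem s33rdEvLt_apply (a : ℕ) (t : ↥(t2Lt (k := k) su.xb su.xib a)) :
    s33rdEvLt su a t = su.ev ⟨(t : κ₁ × κ₂), t.2.1⟩ := rfl

/-- `ker ev ∩ L̃(a) ⊆ L̄^sing(a, 0)` -/
theorem s33rd_ker_le_Lsing (a : ℕ) (t : ↥(t2Lt (k := k) su.xb su.xib a))
    (ht : s33rdEvLt su a t = 0) : (t : κ₁ × κ₂) ∈ su.Lsing a 0 := by
  rw [T2Setup.mem_Lsing, pow_zero, one_mul]
  refine ⟨su.hJ ⟨(t : κ₁ × κ₂), t.2.1⟩ ht, su.mem_S2_iff.mpr t.2.2⟩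

/-- the sandwich for the dimensions -/
theorem s33rd_finrank_sandwich (a : ℕ) :
    Module.finrank k ↥(su.Lsing a 0) ≤ Module.finrank k ↥(t2Lt (k := k) su.xb su.xib a) ∧
      Module.finrank k ↥(t2Lt (k := k) su.xb su.xib a) ≤
        Module.finrank k ↥(su.Lsing a 0) + Fintype.card σ := by
  haveI : FiniteDimensional k ↥(t2Lt (k := k) su.xb su.xib a) := su.finLt a
  refine ⟨Submodule.finrank_mono (s33rd_Lsing_le_t2Lt su a), ?_⟩
  have h1 := LinearMap.finrank_range_add_finrank_ker (s33rdEvLt su a)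
  have h2 : Module.finrank k ↥(LinearMap.range (s33rdEvLt su a)) ≤ Fintype.card σ := by
    have := Submodule.finrank_le (LinearMap.range (s33rdEvLt su a))
    rwa [Module.finrank_pi] at this
  have h3 : Module.finrank k ↥(LinearMap.ker (s33rdEvLt su a)) ≤
      Module.finrank k ↥(su.Lsing a 0) := by
    let φ : ↥(LinearMap.ker (s33rdEvLt su a)) →ₗ[k] ↥(su.Lsing a 0) :=
      { toFun := fun t => ⟨((t : ↥(t2Lt (k := k) su.xb su.xib a)) : κ₁ × κ₂),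
          s33rd_ker_le_Lsing su a t.1 t.2⟩
        map_add' := fun _ _ => rfl
        map_smul' := fun _ _ => rfl }
    refine LinearMap.finrank_le_finrank_of_injective (f := φ) ?_
    intro t u h
    apply Subtype.ext
    apply Subtype.ext
    exact congrArg (fun p : ↥(su.Lsing a 0) => (p : κ₁ × κ₂)) h
  omega

variable (hgen : IsFunctionFieldGen K F su.x) [Algebra.IsSeparable K⟮su.x⟯ F]

include hgen in
/-- `su.n = [F : K(x)]` -/
theorem s33rd_n_eq : (su.n : ℤ) = Module.finrank K⟮su.x⟯ F := by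
  haveI := hgen.finite
  have hpos : 0 < Module.finrank K⟮su.x⟯ F := Module.finrank_pos
  set N : ℤ := ((Module.finrank K⟮su.x⟯ F : ℕ) : ℤ) with hN
  have hNpos : 0 < N := by rw [hN]; exact_mod_cast hpos
  set g : ℤ := ((CurveP.genusR K F : ℕ) : ℤ) with hg
  -- a large `a`
  obtain ⟨a, ha0, haR⟩ : ∃ a : ℕ, su.a0 ≤ a ∧ 2 * g - 2 < (a : ℤ) * N := by
    refine ⟨su.a0 + (2 * g - 2).toNat + 1, by omega, ?_⟩
    have h1 : 2 * g - 2 ≤ ((2 * g - 2).toNat : ℤ) := Int.self_le_toNat _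
    push_cast
    nlinarith [Int.natCast_nonneg su.a0]
  have e1 := su.dim0 a 0 (by omega)
  have e2 := su.dim0 (a + 1) 0 (by omega)
  have f1 := tw_finrank_tbLbar hgen a 0 (by rw [add_zero]; exact haR)
  have f2 := tw_finrank_tbLbar hgen (a + 1) 0 (by
    rw [add_zero]; push_cast; nlinarith)
  rw [f1] at e1
  rw [f2] at e2
  simp only [add_zero] at e1 e2
  push_cast at e1 e2
  have : N = su.n := by linarith
  exact this.symm

variable (hgen₁ : IsFunctionFieldGen k κ₁ su.xb.1) [Algebra.IsSeparable k⟮su.xb.1⟯ κ₁]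
  (hgen₂ : IsFunctionFieldGen k κ₂ su.xb.2) [Algebra.IsSeparable k⟮su.xb.2⟯ κ₂]

include hgen₁ hgen₂ in
/-- `su.n = [κ₁ : k(x̄₁)] + [κ₂ : k(x̄₂)]` -/
theorem s33rd_n_eq_add :
    (su.n : ℤ) = (Module.finrank k⟮su.xb.1⟯ κ₁ : ℤ) + Module.finrank k⟮su.xb.2⟯ κ₂ := by
  haveI := hgen₁.finite
  haveI := hgen₂.finite
  set n₁ : ℤ := ((Module.finrank k⟮su.xb.1⟯ κ₁ : ℕ) : ℤ) with hn₁
  set n₂ : ℤ := ((Module.finrank k⟮su.xb.2⟯ κ₂ : ℕ) : ℤ) with hn₂
  have hn₁pos : 0 < n₁ := by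
    rw [hn₁]; exact_mod_cast (Module.finrank_pos : 0 < Module.finrank k⟮su.xb.1⟯ κ₁)
  have hn₂pos : 0 < n₂ := by
    rw [hn₂]; exact_mod_cast (Module.finrank_pos : 0 < Module.finrank k⟮su.xb.2⟯ κ₂)
  set g₁ : ℤ := ((CurveP.genusR k κ₁ : ℕ) : ℤ) with hg₁
  set g₂ : ℤ := ((CurveP.genusR k κ₂ : ℕ) : ℤ) with hg₂
  -- the dimension of `L̃(a)` for large `a`
  have hdim : ∀ a : ℕ, 2 * g₁ - 2 < (a : ℤ) * n₁ → 2 * g₂ - 2 < (a : ℤ) * n₂ →
      (Module.finrank k ↥(t2Lt (k := k) su.xb su.xib a) : ℤ) =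
        (a : ℤ) * n₁ + (1 - g₁) + ((a : ℤ) * n₂ + (1 - g₂)) := by
    intro a h1 h2
    haveI := tw_finiteDimensional_tbLbar hgen₁ a 0
    haveI := tw_finiteDimensional_tbLbar hgen₂ a 0
    rw [(s33rdLtEquiv su a).finrank_eq, Module.finrank_prod]
    have f1 := tw_finrank_tbLbar hgen₁ a 0 (by rw [add_zero]; exact h1)
    have f2 := tw_finrank_tbLbar hgen₂ a 0 (by rw [add_zero]; exact h2)
    simp only [add_zero] at f1 f2
    push_cast
    rw [f1, f2]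
  -- the sandwich
  have hsand : ∀ a : ℕ, su.a0 ≤ a → su.e ≤ a + 1 → 2 * g₁ - 2 < (a : ℤ) * n₁ →
      2 * g₂ - 2 < (a : ℤ) * n₂ →
      (a : ℤ) * su.n + su.c ≤ (a : ℤ) * n₁ + (1 - g₁) + ((a : ℤ) * n₂ + (1 - g₂)) ∧
      (a : ℤ) * n₁ + (1 - g₁) + ((a : ℤ) * n₂ + (1 - g₂)) ≤
        (a : ℤ) * su.n + su.c + Fintype.card σ := by
    intro a ha0 hae h1 h2
    have e1 := su.finrank_Lsing (a := a) (b := 0) (by omega) (by omega)
    simp only [add_zero] at e1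
    have e2 := hdim a h1 h2
    obtain ⟨s1, s2⟩ := s33rd_finrank_sandwich su a
    have s1' : (Module.finrank k ↥(su.Lsing a 0) : ℤ) ≤
        Module.finrank k ↥(t2Lt (k := k) su.xb su.xib a) := by exact_mod_cast s1
    have s2' : (Module.finrank k ↥(t2Lt (k := k) su.xb su.xib a) : ℤ) ≤
        Module.finrank k ↥(su.Lsing a 0) + Fintype.card σ := by exact_mod_cast s2
    rw [e1, e2] at s1'
    rw [e1, e2] at s2'
    exact ⟨s1', s2'⟩
  -- a large `a`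
  set M : ℤ := |su.c| + |g₁| + |g₂| + Fintype.card σ + 3 with hM
  have hMpos : 0 < M := by
    have := abs_nonneg su.c
    have := abs_nonneg g₁
    have := abs_nonneg g₂
    have : (0 : ℤ) ≤ Fintype.card σ := Int.natCast_nonneg _
    omega
  set a : ℕ := su.a0 + su.e + (2 * M).toNat with ha
  have haM : 2 * M ≤ (a : ℤ) := by
    rw [ha]
    push_cast
    have := Int.self_le_toNat (2 * M)
    have : (0 : ℤ) ≤ su.a0 := Int.natCast_nonneg _
    have : (0 : ℤ) ≤ su.e := Int.natCast_nonneg _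
    omega
  have hg₁M : |g₁| ≤ M := by
    have := abs_nonneg su.c
    have := abs_nonneg g₂
    have : (0 : ℤ) ≤ Fintype.card σ := Int.natCast_nonneg _
    omega
  have hg₂M : |g₂| ≤ M := by
    have := abs_nonneg su.c
    have := abs_nonneg g₁
    have : (0 : ℤ) ≤ Fintype.card σ := Int.natCast_nonneg _
    omega
  have h1 : 2 * g₁ - 2 < (a : ℤ) * n₁ := by
    have := le_abs_self g₁
    nlinarith
  have h2 : 2 * g₂ - 2 < (a : ℤ) * n₂ := by
    have := le_abs_self g₂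
    nlinarith
  obtain ⟨s1, s2⟩ := hsand a (by omega) (by omega) h1 h2
  -- conclude
  by_contra hne
  have hc1 := le_abs_self su.c
  have hc2 := neg_abs_le su.c
  have hg1 := le_abs_self g₁
  have hg1' := neg_abs_le g₁
  have hg2 := le_abs_self g₂
  have hg2' := neg_abs_le g₂
  have hσ : (0 : ℤ) ≤ Fintype.card σ := Int.natCast_nonneg _
  rcases lt_or_gt_of_ne hne with hlt | hgt
  · -- `n < n₁ + n₂`
    have h3 : (su.n : ℤ) + 1 ≤ n₁ + n₂ := by omega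
    nlinarith
  · have h3 : n₁ + n₂ + 1 ≤ (su.n : ℤ) := by omega
    nlinarith

include hgen hgen₁ hgen₂ in
/-- **the degrees**: `[F : K(x)] = [κ₁ : k(x̄₁)] + [κ₂ : k(x̄₂)]` -/
theorem s33rd_deg :
    Module.finrank K⟮su.x⟯ F = Module.finrank k⟮su.xb.1⟯ κ₁ + Module.finrank k⟮su.xb.2⟯ κ₂ := by
  have h1 := s33rd_n_eq su hgen
  have h2 := s33rd_n_eq_add su hgen₁ hgen₂
  have : (Module.finrank K⟮su.x⟯ F : ℤ) =
      ((Module.finrank k⟮su.xb.1⟯ κ₁ + Module.finrank k⟮su.xb.2⟯ κ₂ : ℕ) : ℤ) := by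
    push_cast
    rw [← h1, h2]
  exact_mod_cast this

end Fermat.Agent.S33
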