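/-
GAMMA-RED (helper7), part 11: the instance of `S33rdSetup` for a two-component base.

`d : T2Base K F k (κ × κ)`, `su₂ : T2Setup d σ` (helper9's two-chart model of the T2 core), with the
chart `x̄ = (x̄₁, x̄₂)` a separating generator on both components (`S33rdHyp`):
* `s33rdNode su₂ h j`  : the node place of the `j`-th coordinate of `su₂.ev` (a component and a place
  of `κ / k` at which `x̄ᵢ` is finite), `s33rd_node_spec`;
* `s33rdInst su₂ h`    : the `S33rdSetup d (Fin 2) κ` (`intA` from `T2Fin`, `hJ` from `su₂.hJ`, `deg`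
  from `s33rd_deg`).
-/
import Fermat.Agent.Lib.S33.Red.Deg

set_option autoImplicit false
set_option linter.style.haveILetI false
set_option linter.unusedSectionVars false

namespace Fermat.Agent.S33

open AlgebraicCurve IntermediateField Fermat.Agent.Curve Fermat.Agent.Curve.PlaceAux
  Fermat.Agent.T1 Fermat.Agent.T2 Fermat.Agent.T3

variable {K F k κ : Type*} [Field K] [Field F] [Algebra K F] [Field k] [Field κ] [Algebra k κ]
  [IsAlgClosed K] [IsAlgClosed k]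
variable {d : T2Base K F k (κ × κ)} {σ : Type*} [Fintype σ]

/-- the two projections -/
def s33rdPr (k κ : Type*) [Field k] [Field κ] [Algebra k κ] : Fin 2 → (κ × κ) →ₐ[k] κ :=
  ![AlgHom.fst k κ κ, AlgHom.snd k κ κ]

@[simp] theorem s33rdPr_zero (t : κ × κ) : s33rdPr k κ 0 t = t.1 := rfl

@[simp] theorem s33rdPr_one (t : κ × κ) : s33rdPr k κ 1 t = t.2 := rfl

/-- the hypotheses on the chart of the two-component base -/
structure S33rdHyp (su₂ : T2Setup d σ) : Prop where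
  gen : IsFunctionFieldGen K F su₂.x
  sep : Algebra.IsSeparable K⟮su₂.x⟯ F
  gen₁ : IsFunctionFieldGen k κ su₂.xb.1
  sep₁ : Algebra.IsSeparable k⟮su₂.xb.1⟯ κ
  gen₂ : IsFunctionFieldGen k κ su₂.xb.2
  sep₂ : Algebra.IsSeparable k⟮su₂.xb.2⟯ κ
  hunit : ∀ (f : F) (hf : f ∈ d.Ov), IsUnit (d.res ⟨f, hf⟩) → f⁻¹ ∈ d.Ov

variable (su₂ : T2Setup d σ) (h : S33rdHyp su₂)

include h in
/-- each coordinate of `su₂.ev` is the evaluation of one component at a place -/
theorem s33rd_exists_node (j : σ) :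
    ∃ s : Fin 2 × Place k κ, 0 ≤ s.2.ord (s33rdPr k κ s.1 su₂.xb) ∧
      ∀ r : ↥(t2R (k := k) su₂.xb),
        OrdGE s.2 (s33rdPr k κ s.1 (r : κ × κ) - algebraMap k κ (su₂.ev r j)) 1 := by
  haveI := h.sep₁
  haveI := h.sep₂
  set φ : ↥(t2R (k := k) su₂.xb) →ₐ[k] k :=
    (Pi.evalAlgHom k (fun _ : σ => k) j).comp su₂.ev with hφ
  have hφr : ∀ r, φ r = su₂.ev r j := fun _ => rfl
  set e₁ : ↥(t2R (k := k) su₂.xb) :=
    ⟨((1 : κ), (0 : κ)), s33rd_isIntegral_inl isIntegral_one⟩ with he₁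
  set e₂ : ↥(t2R (k := k) su₂.xb) :=
    ⟨((0 : κ), (1 : κ)), s33rd_isIntegral_inr isIntegral_one⟩ with he₂
  have hsum : e₁ + e₂ = 1 := by
    apply Subtype.ext
    show ((1 : κ), (0 : κ)) + ((0 : κ), (1 : κ)) = 1
    rw [Prod.mk_add_mk, add_zero, zero_add]
    rfl
  have hidem : e₁ * e₁ = e₁ := by
    apply Subtype.ext
    show ((1 : κ), (0 : κ)) * ((1 : κ), (0 : κ)) = ((1 : κ), (0 : κ))
    rw [Prod.mk_mul_mk, mul_one, mul_zero]
  have h1 : φ e₁ * φ e₁ = φ e₁ := by rw [← map_mul, hidem]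
  have h2 : φ e₁ + φ e₂ = 1 := by rw [← map_add, hsum, map_one]
  have h3 : φ e₁ = 0 ∨ φ e₁ = 1 := by
    have : φ e₁ * (φ e₁ - 1) = 0 := by rw [mul_sub, h1, mul_one, sub_self]
    rcases mul_eq_zero.mp this with h0 | h0
    · exact Or.inl h0
    · exact Or.inr (sub_eq_zero.mp h0)
  rcases h3 with h0 | h0
  · have h4 : φ e₂ = 1 := by rw [h0, zero_add] at h2; exact h2
    obtain ⟨Q, hQ, hval⟩ := s33rd_node_snd h.gen₂ φ h4
    exact ⟨(1, Q), hQ, fun r => by rw [← hφr]; exact hval r⟩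
  · obtain ⟨Q, hQ, hval⟩ := s33rd_node_fst h.gen₁ φ h0
    exact ⟨(0, Q), hQ, fun r => by rw [← hφr]; exact hval r⟩

/-- the node place of the `j`-th coordinate of `su₂.ev` -/
noncomputable def s33rdNode (j : σ) : Fin 2 × Place k κ := (s33rd_exists_node su₂ h j).choose

theorem s33rd_node_fin (j : σ) :
    0 ≤ (s33rdNode su₂ h j).2.ord (s33rdPr k κ (s33rdNode su₂ h j).1 su₂.xb) :=
  (s33rd_exists_node su₂ h j).choose_spec.1

theorem s33rd_node_spec (j : σ) (r : ↥(t2R (k := k) su₂.xb)) :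
    OrdGE (s33rdNode su₂ h j).2
      (s33rdPr k κ (s33rdNode su₂ h j).1 (r : κ × κ) - algebraMap k κ (su₂.ev r j)) 1 :=
  (s33rd_exists_node su₂ h j).choose_spec.2 r

/-- **the instance of `S33rdSetup`** -/
noncomputable def s33rdInst : S33rdSetup d (Fin 2) κ where
  pr := s33rdPr k κ
  pr_inj := fun t ht => Prod.ext (ht 0) (ht 1)
  pr_surj := fun f => ⟨(f 0, f 1), Fin.forall_fin_two.mpr ⟨rfl, rfl⟩⟩
  x := su₂.x
  hx := su₂.hx
  hxi := su₂.hxi
  gen := h.gen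
  sep := h.sep
  genb := Fin.forall_fin_two.mpr ⟨h.gen₁, h.gen₂⟩
  sepb := Fin.forall_fin_two.mpr ⟨h.sep₁, h.sep₂⟩
  hunit := h.hunit
  intA := s33rd_intA_of_fin d su₂.hx su₂.fin1
  int1 := fun g hg hint => Fin.forall_fin_two.mpr
    ⟨t2c_isIntegral_fst (su₂.int1 g hg hint), t2c_isIntegral_snd (su₂.int1 g hg hint)⟩
  nodes := by
    classical
    exact Finset.univ.image (s33rdNode su₂ h)
  nodes_fin := by
    classical
    intro s hs
    rw [Finset.mem_image] at hs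
    obtain ⟨j, -, rfl⟩ := hs
    exact s33rd_node_fin su₂ h j
  hJ := by
    classical
    intro t ht hvan
    have htR : t ∈ t2R (k := k) su₂.xb :=
      s33rd_isIntegral_prod_iff.mpr ⟨ht 0, ht 1⟩
    refine su₂.hJ ⟨t, htR⟩ ?_
    funext j
    have h1 := s33rd_node_spec su₂ h j ⟨t, htR⟩
    have h2 := hvan (s33rdNode su₂ h j) (Finset.mem_image.mpr ⟨j, Finset.mem_univ _, rfl⟩)
    have h3 := h2.sub _ h1
    rw [sub_sub_cancel] at h3
    exact t3a_const_eq_zero_of_ordGE _ h3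
  deg := by
    haveI := h.sep
    haveI := h.sep₁
    haveI := h.sep₂
    rw [finsum_eq_sum_of_fintype, Fin.sum_univ_two]
    exact s33rd_deg su₂ h.gen h.gen₁ h.gen₂

@[simp] theorem s33rdInst_x : (s33rdInst su₂ h).x = su₂.x := rfl

@[simp] theorem s33rdInst_pr : (s33rdInst su₂ h).pr = s33rdPr k κ := rfl

theorem s33rdInst_xb_zero : (s33rdInst su₂ h).xb 0 = su₂.xb.1 := rfl

theorem s33rdInst_xb_one : (s33rdInst su₂ h).xb 1 = su₂.xb.2 := rfl

theorem s33rdInst_rb_zero {g : F} (hg : g ∈ d.Ov) :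
    (s33rdInst su₂ h).rb 0 hg = (d.res ⟨g, hg⟩).1 := rfl

theorem s33rdInst_rb_one {g : F} (hg : g ∈ d.Ov) :
    (s33rdInst su₂ h).rb 1 hg = (d.res ⟨g, hg⟩).2 := rfl

theorem s33rdInst_mem_nodes {s : Fin 2 × Place k κ} :
    s ∈ (s33rdInst su₂ h).nodes ↔ ∃ j, s33rdNode su₂ h j = s := by
  classical
  show s ∈ Finset.univ.image (s33rdNode su₂ h) ↔ _
  rw [Finset.mem_image]
  simp

end Fermat.Agent.S33
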