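/-
GAMMA-RED (helper7), part 12: the dictionary between the ring language of `T2Setup` and the
nodal curve of KM-NOD.

`d : T2Base K F k (κ × κ)`, `su₂ : T2Setup d σ`, `h : S33rdHyp su₂`.
* `s33rdNodes su₂ h i`  : the node places on the component `i`;
* `s33rdN su₂ h`        : the nodal datum `S33nDatum k κ κ ↥nodes₀ ↥nodes₁`, with the gluing algebra
  `Δ = {values at the node places of t | t ∈ S₁ = res B₁}`;
* `s33rd_mem_S1_iff`    : `t ∈ S₁ ↔ t₁, t₂ integral ∧ ev t ∈ Δ`;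
* `s33rd_Lsing_eq`      : `L̄^sing(a, 0) = L^nod(a Ī₁, a Ī₂)`, `Īᵢ = (x̄ᵢ)_∞`;
* `s33rd_hconn`         : Zariski connectedness in the form (U) of KM-NOD;
* `s33rd_pa`, `s33rd_degI` : `g = p_a`, `deg I = deg Ī₁ + deg Ī₂`.
-/
import Fermat.Agent.Lib.S33.Red.Inst
import Fermat.Agent.Lib.S33.Base.Pole
import Fermat.Agent.Lib.S33.Chart.Closed

set_option autoImplicit false
set_option linter.style.haveILetI false
set_option linter.unusedSectionVars false

namespace Fermat.Agent.S33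

open AlgebraicCurve IntermediateField Fermat.Agent.Curve Fermat.Agent.Curve.PlaceAux
  Fermat.Agent.T1 Fermat.Agent.T2 Fermat.Agent.T3 Fermat.Agent.S33N

open Fermat.Agent.CurveP.RRAux (poleDiv poleDiv_apply poleDiv_nonneg degree_poleDiv_gen)

variable {K F k κ : Type*} [Field K] [Field F] [Algebra K F] [Field k] [Field κ] [Algebra k κ]
  [IsAlgClosed K] [IsAlgClosed k]
variable {d : T2Base K F k (κ × κ)} {σ : Type*} [Fintype σ]
variable (su₂ : T2Setup d σ) (h : S33rdHyp su₂)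

/-- the node places on the component `i` -/
noncomputable def s33rdNodes (i : Fin 2) : Finset (Place k κ) := by
  classical
  exact ((s33rdInst su₂ h).nodes.filter (fun s => s.1 = i)).image Prod.snd

theorem mem_s33rdNodes {i : Fin 2} {Q : Place k κ} :
    Q ∈ s33rdNodes su₂ h i ↔ (i, Q) ∈ (s33rdInst su₂ h).nodes := by
  classical
  unfold s33rdNodes
  rw [Finset.mem_image]
  constructor
  · rintro ⟨s, hs, rfl⟩
    rw [Finset.mem_filter] at hs
    have : s = (i, s.2) := Prod.ext hs.2 rfl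
    rw [← this]
    exact hs.1
  · intro hQ
    exact ⟨(i, Q), Finset.mem_filter.mpr ⟨hQ, rfl⟩, rfl⟩

/-- the node places are finite for `x̄` -/
theorem s33rd_nodes_fin₀ {Q : Place k κ} (hQ : Q ∈ s33rdNodes su₂ h 0) : 0 ≤ Q.ord su₂.xb.1 :=
  (s33rdInst su₂ h).nodes_fin (0, Q) ((mem_s33rdNodes su₂ h).mp hQ)

theorem s33rd_nodes_fin₁ {Q : Place k κ} (hQ : Q ∈ s33rdNodes su₂ h 1) : 0 ≤ Q.ord su₂.xb.2 :=
  (s33rdInst su₂ h).nodes_fin (1, Q) ((mem_s33rdNodes su₂ h).mp hQ)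

/-- the values at the node places -/
noncomputable def s33rdEvN (t : κ × κ) : ↥(s33rdNodes su₂ h 0) ⊕ ↥(s33rdNodes su₂ h 1) → k :=
  Sum.elim (fun s => s33nVal s.1 t.1) (fun s => s33nVal s.1 t.2)

/-- the nodal datum without gluing -/
noncomputable def s33rdN0 : S33nDatum k κ κ ↥(s33rdNodes su₂ h 0) ↥(s33rdNodes su₂ h 1) where
  P₁ := Subtype.val
  P₂ := Subtype.val
  inj₁ := Subtype.val_injective
  inj₂ := Subtype.val_injective
  Δ := ⊤

theorem s33rdEvN_eq (t : κ × κ) : s33rdEvN su₂ h t = s33nEv (s33rdN0 su₂ h) t := rfl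

/-- functions with integral components are regular at the node places -/
theorem s33rd_reg_of_isIntegral {t : κ × κ}
    (h1 : IsIntegral ↥(Algebra.adjoin k {su₂.xb.1}) t.1)
    (h2 : IsIntegral ↥(Algebra.adjoin k {su₂.xb.2}) t.2) : S33nReg (s33rdN0 su₂ h) t := by
  constructor
  · intro s
    apply s33n_hasVal_of_mem h.gen₁
    exact mem_of_ord_nonneg _ (ta_ord_nonneg_of_isIntegral h1 _ (s33rd_nodes_fin₀ su₂ h s.2))
  · intro s
    apply s33n_hasVal_of_mem h.gen₂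
    exact mem_of_ord_nonneg _ (ta_ord_nonneg_of_isIntegral h2 _ (s33rd_nodes_fin₁ su₂ h s.2))

theorem s33rd_reg_of_mem_R {t : κ × κ} (ht : t ∈ t2R (k := k) su₂.xb) :
    S33nReg (s33rdN0 su₂ h) t :=
  s33rd_reg_of_isIntegral su₂ h (t2c_isIntegral_fst ht) (t2c_isIntegral_snd ht)

theorem s33rd_reg_of_mem_S1 {t : κ × κ} (ht : t ∈ su₂.S1) : S33nReg (s33rdN0 su₂ h) t :=
  s33rd_reg_of_mem_R su₂ h (su₂.S1_le_R ht)

/-- the gluing algebra: the values at the node places of the functions of `S₁ = res B₁` -/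
noncomputable def s33rdDelta :
    Subalgebra k (↥(s33rdNodes su₂ h 0) ⊕ ↥(s33rdNodes su₂ h 1) → k) where
  carrier := {f | ∃ t ∈ su₂.S1, s33rdEvN su₂ h t = f}
  mul_mem' := by
    rintro _ _ ⟨t, ht, rfl⟩ ⟨u, hu, rfl⟩
    refine ⟨t * u, su₂.S1.mul_mem ht hu, ?_⟩
    rw [s33rdEvN_eq, s33rdEvN_eq, s33rdEvN_eq]
    exact s33nEv_mul _ (s33rd_reg_of_mem_S1 su₂ h ht) (s33rd_reg_of_mem_S1 su₂ h hu)
  add_mem' := by
    rintro _ _ ⟨t, ht, rfl⟩ ⟨u, hu, rfl⟩
    refine ⟨t + u, su₂.S1.add_mem ht hu, ?_⟩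
    rw [s33rdEvN_eq, s33rdEvN_eq, s33rdEvN_eq]
    exact s33nEv_add _ (s33rd_reg_of_mem_S1 su₂ h ht) (s33rd_reg_of_mem_S1 su₂ h hu)
  algebraMap_mem' := by
    intro c
    refine ⟨algebraMap k (κ × κ) c, su₂.S1.algebraMap_mem c, ?_⟩
    funext s
    rcases s with s | s
    · exact s33nVal_algebraMap _ c
    · exact s33nVal_algebraMap _ c

theorem mem_s33rdDelta {f : ↥(s33rdNodes su₂ h 0) ⊕ ↥(s33rdNodes su₂ h 1) → k} :
    f ∈ s33rdDelta su₂ h ↔ ∃ t ∈ su₂.S1, s33rdEvN su₂ h t = f := Iff.rfl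

/-- **the nodal datum of the special fibre** -/
noncomputable def s33rdN : S33nDatum k κ κ ↥(s33rdNodes su₂ h 0) ↥(s33rdNodes su₂ h 1) where
  P₁ := Subtype.val
  P₂ := Subtype.val
  inj₁ := Subtype.val_injective
  inj₂ := Subtype.val_injective
  Δ := s33rdDelta su₂ h

theorem s33rdN_ev (t : κ × κ) : s33nEv (s33rdN su₂ h) t = s33rdEvN su₂ h t := rfl

theorem s33rdN_delta : (s33rdN su₂ h).Δ = s33rdDelta su₂ h := rfl

theorem s33rdN_reg {t : κ × κ} : S33nReg (s33rdN su₂ h) t ↔ S33nReg (s33rdN0 su₂ h) t := Iff.rfl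

/-- a divisor is off the nodes if it vanishes at the places where `x̄` is finite... -/
theorem s33rdN_off_iff {A₁ A₂ : Divisor k κ} :
    (s33rdN su₂ h).Off A₁ A₂ ↔
      (∀ Q ∈ s33rdNodes su₂ h 0, A₁ Q = 0) ∧ ∀ Q ∈ s33rdNodes su₂ h 1, A₂ Q = 0 := by
  constructor
  · rintro ⟨h1, h2⟩
    exact ⟨fun Q hQ => h1 ⟨Q, hQ⟩, fun Q hQ => h2 ⟨Q, hQ⟩⟩
  · rintro ⟨h1, h2⟩
    exact ⟨fun s => h1 s.1 s.2, fun s => h2 s.1 s.2⟩

/-- **`S₁` in the nodal language** -/
theorem s33rd_mem_S1_iff {t : κ × κ} :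
    t ∈ su₂.S1 ↔ IsIntegral ↥(Algebra.adjoin k {su₂.xb.1}) t.1 ∧
      IsIntegral ↥(Algebra.adjoin k {su₂.xb.2}) t.2 ∧
        s33nEv (s33rdN su₂ h) t ∈ (s33rdN su₂ h).Δ := by
  constructor
  · intro ht
    exact ⟨t2c_isIntegral_fst (su₂.S1_le_R ht), t2c_isIntegral_snd (su₂.S1_le_R ht), t, ht, rfl⟩
  · rintro ⟨h1, h2, t', ht', hev⟩
    have hreg := s33rd_reg_of_isIntegral su₂ h h1 h2
    have hreg' := s33rd_reg_of_mem_S1 su₂ h ht'
    have h1' := t2c_isIntegral_fst (su₂.S1_le_R ht')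
    have h2' := t2c_isIntegral_snd (su₂.S1_le_R ht')
    -- `u = t - t'` vanishes at the nodes
    have hu : t - t' ∈ su₂.S1 := by
      refine (s33rdInst su₂ h).hJ (t - t') ?_ ?_
      · refine Fin.forall_fin_two.mpr ⟨?_, ?_⟩
        · exact h1.sub h1'
        · exact h2.sub h2'
      · rintro ⟨i, Q⟩ hs
        have hev' : ∀ s, s33rdEvN su₂ h t' s = s33rdEvN su₂ h t s := fun s => congrFun hev s
        obtain rfl | rfl : i = 0 ∨ i = 1 := by
          fin_cases i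
          · exact Or.inl rfl
          · exact Or.inr rfl
        · have hQ : Q ∈ s33rdNodes su₂ h 0 := (mem_s33rdNodes su₂ h).mpr hs
          have e := hev' (Sum.inl ⟨Q, hQ⟩)
          have a1 : OrdGE Q (t.1 - algebraMap k κ (s33nVal Q t.1)) 1 :=
            s33nVal_spec (hreg.1 ⟨Q, hQ⟩)
          have a2 : OrdGE Q (t'.1 - algebraMap k κ (s33nVal Q t'.1)) 1 :=
            s33nVal_spec (hreg'.1 ⟨Q, hQ⟩)
          have e' : s33nVal Q t'.1 = s33nVal Q t.1 := e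
          show OrdGE Q ((t - t').1) 1
          have := a1.sub Q a2
          rw [e'] at this
          have hrw : t.1 - algebraMap k κ (s33nVal Q t.1) -
              (t'.1 - algebraMap k κ (s33nVal Q t.1)) = (t - t').1 := by
            rw [Prod.fst_sub]; ring
          rw [← hrw]
          exact this
        · have hQ : Q ∈ s33rdNodes su₂ h 1 := (mem_s33rdNodes su₂ h).mpr hs
          have e := hev' (Sum.inr ⟨Q, hQ⟩)
          have a1 : OrdGE Q (t.2 - algebraMap k κ (s33nVal Q t.2)) 1 :=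
            s33nVal_spec (hreg.2 ⟨Q, hQ⟩)
          have a2 : OrdGE Q (t'.2 - algebraMap k κ (s33nVal Q t'.2)) 1 :=
            s33nVal_spec (hreg'.2 ⟨Q, hQ⟩)
          have e' : s33nVal Q t'.2 = s33nVal Q t.2 := e
          show OrdGE Q ((t - t').2) 1
          have := a1.sub Q a2
          rw [e'] at this
          have hrw : t.2 - algebraMap k κ (s33nVal Q t.2) -
              (t'.2 - algebraMap k κ (s33nVal Q t.2)) = (t - t').2 := by
            rw [Prod.snd_sub]; ring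
          rw [← hrw]
          exact this
    have := su₂.S1.add_mem hu ht'
    rwa [sub_add_cancel] at this

/-- the polar divisors of the two components of `x̄` -/
noncomputable def s33rdI₁ : Divisor k κ :=
  haveI := h.sep₁
  poleDiv h.gen₁ su₂.xb.1

noncomputable def s33rdI₂ : Divisor k κ :=
  haveI := h.sep₂
  poleDiv h.gen₂ su₂.xb.2

/-- the polar divisor of the chart -/
noncomputable def s33rdI : Divisor K F :=
  haveI := h.sep
  poleDiv h.gen su₂.x

theorem s33rdN_off_I (a : ℕ) : (s33rdN su₂ h).Off (a • s33rdI₁ su₂ h) (a • s33rdI₂ su₂ h) := by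
  haveI := h.sep₁
  haveI := h.sep₂
  rw [s33rdN_off_iff]
  constructor
  · intro Q hQ
    rw [Finsupp.smul_apply, s33rdI₁, (s33bi_apply_eq_zero_iff h.gen₁ Q).mpr
      (s33rd_nodes_fin₀ su₂ h hQ), smul_zero]
  · intro Q hQ
    rw [Finsupp.smul_apply, s33rdI₂, (s33bi_apply_eq_zero_iff h.gen₂ Q).mpr
      (s33rd_nodes_fin₁ su₂ h hQ), smul_zero]

theorem s33rdN_off_I_one : (s33rdN su₂ h).Off (s33rdI₁ su₂ h) (s33rdI₂ su₂ h) := by
  have := s33rdN_off_I su₂ h 1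
  rwa [one_smul, one_smul] at this

/-- **the dictionary**: `L̄^sing(a, 0) = L^nod(a Ī₁, a Ī₂)` -/
theorem s33rd_Lsing_eq (a : ℕ) :
    su₂.Lsing a 0 = s33nL (s33rdN su₂ h) (a • s33rdI₁ su₂ h) (a • s33rdI₂ su₂ h) := by
  haveI := h.sep₁
  haveI := h.sep₂
  ext t
  rw [T2Setup.mem_Lsing, pow_zero, one_mul, su₂.mem_S2_iff, ← T2Setup.mem_S1, s33rd_mem_S1_iff su₂ h,
    mem_s33nL_of_off _ h.gen₁ h.gen₂ (s33rdN_off_I su₂ h a), s33rdI₁, s33rdI₂,
    s33bi_mem_L_iff h.gen₁, s33bi_mem_L_iff h.gen₂, s33rd_isIntegral_prod_iff, Prod.fst_mul,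
    Prod.snd_mul, Prod.pow_fst, Prod.pow_snd, s33rd_xib_fst, s33rd_xib_snd]
  tauto

/-- **Zariski connectedness** in the form (U) of KM-NOD -/
theorem s33rd_hconn
    (hidem : ∀ e : κ × κ, e ∈ su₂.Lsing 0 0 → e * e = e → e = 0 ∨ e = 1) (c₁ c₂ : k)
    (hc : (Sum.elim (fun _ => c₁) (fun _ => c₂) :
      ↥(s33rdNodes su₂ h 0) ⊕ ↥(s33rdNodes su₂ h 1) → k) ∈ (s33rdN su₂ h).Δ) : c₁ = c₂ := by
  by_contra hne
  have hsub : c₁ - c₂ ≠ 0 := sub_ne_zero.mpr hne
  set N := s33rdN su₂ h with hN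
  -- the indicator of the first component lies in `Δ`
  have hind : (Sum.elim (fun _ => (1 : k)) (fun _ => (0 : k)) :
      ↥(s33rdNodes su₂ h 0) ⊕ ↥(s33rdNodes su₂ h 1) → k) ∈ N.Δ := by
    have h1 := N.Δ.sub_mem hc (N.Δ.algebraMap_mem c₂)
    have h2 := N.Δ.smul_mem h1 (c₁ - c₂)⁻¹
    convert h2 using 1
    funext s
    rcases s with s | s
    · simp only [Sum.elim_inl, Pi.smul_apply, Pi.sub_apply, Pi.algebraMap_apply,
        Algebra.algebraMap_self, RingHom.id_apply, smul_eq_mul]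
      rw [inv_mul_cancel₀ hsub]
    · simp only [Sum.elim_inr, Pi.smul_apply, Pi.sub_apply, Pi.algebraMap_apply,
        Algebra.algebraMap_self, RingHom.id_apply, smul_eq_mul]
      rw [sub_self, mul_zero]
  have he : ((1 : κ), (0 : κ)) ∈ su₂.Lsing 0 0 := by
    rw [s33rd_Lsing_eq su₂ h 0, zero_smul, zero_smul,
      mem_s33nL_of_off _ h.gen₁ h.gen₂ (S33nDatum.off_zero _)]
    refine ⟨?_, Submodule.zero_mem _, ?_⟩
    · rw [mem_riemannRochSpace_iff]
      intro v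
      right
      rw [v.ord_one, Finsupp.zero_apply, neg_zero]
    · convert hind using 1
      funext s
      rcases s with s | s
      · exact s33nVal_one _
      · exact s33nVal_zero _
  rcases hidem _ he (by rw [Prod.mk_mul_mk, mul_one, mul_zero]) with h0 | h0
  · exact one_ne_zero (congrArg Prod.fst h0)
  · exact zero_ne_one (congrArg Prod.snd h0)

/-- the Hilbert function of the special fibre -/
theorem s33rd_finrank_nL {a : ℕ} (h0 : su₂.a0 ≤ a) (he : su₂.e ≤ a + 1) :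
    (Module.finrank k ↥(s33nL (s33rdN su₂ h) (a • s33rdI₁ su₂ h) (a • s33rdI₂ su₂ h)) : ℤ) =
      su₂.n * a + su₂.c := by
  rw [← s33rd_Lsing_eq su₂ h a, su₂.finrank_Lsing (a := a) (b := 0) (by omega) (by omega)]
  push_cast
  ring

/-- `su₂.n = deg Ī₁ + deg Ī₂` and `su₂.c = 1 - p_a` -/
theorem s33rd_numerics :
    (su₂.n : ℤ) = Divisor.degree (s33rdI₁ su₂ h) + Divisor.degree (s33rdI₂ su₂ h) ∧
      su₂.c = 1 - s33nPa (s33rdN su₂ h) := by
  haveI := h.sep₁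
  haveI := h.sep₂
  refine s33h_numerics h.gen₁ h.gen₂ (s33rdN su₂ h) (s33rdN_off_I_one su₂ h)
    (s33bi_degree_pos h.gen₁) (s33bi_degree_pos h.gen₂) su₂.n su₂.c (su₂.a0 + su₂.e) ?_
  intro a ha
  exact s33rd_finrank_nL su₂ h (by omega) (by omega)

include h in
/-- `su₂.c = 1 - g` -/
theorem s33rd_c_eq : su₂.c = 1 - (CurveP.genusR K F : ℤ) := by
  haveI := h.sep
  haveI := h.gen.finite
  have hn := s33rd_n_eq su₂ h.gen
  have hpos : 0 < Module.finrank K⟮su₂.x⟯ F := Module.finrank_pos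
  set N : ℤ := ((Module.finrank K⟮su₂.x⟯ F : ℕ) : ℤ) with hN
  have hNpos : 0 < N := by rw [hN]; exact_mod_cast hpos
  set g : ℤ := ((CurveP.genusR K F : ℕ) : ℤ) with hg
  obtain ⟨a, ha0, haR⟩ : ∃ a : ℕ, su₂.a0 ≤ a ∧ 2 * g - 2 < (a : ℤ) * N := by
    refine ⟨su₂.a0 + (2 * g - 2).toNat + 1, by omega, ?_⟩
    have h1 : 2 * g - 2 ≤ ((2 * g - 2).toNat : ℤ) := Int.self_le_toNat _
    push_cast
    nlinarith [Int.natCast_nonneg su₂.a0]
  have e1 := su₂.dim0 a 0 (by omega)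
  have f1 := tw_finrank_tbLbar h.gen a 0 (by rw [add_zero]; exact haR)
  rw [f1] at e1
  simp only [add_zero] at e1
  rw [hn] at e1
  linarith

/-- **`g = p_a`** -/
theorem s33rd_pa : (CurveP.genusR K F : ℤ) = s33nPa (s33rdN su₂ h) := by
  have h1 := (s33rd_numerics su₂ h).2
  have h2 := s33rd_c_eq su₂ h
  linarith

/-- **`deg I = deg Ī₁ + deg Ī₂`** -/
theorem s33rd_degI :
    Divisor.degree (s33rdI su₂ h) =
      Divisor.degree (s33rdI₁ su₂ h) + Divisor.degree (s33rdI₂ su₂ h) := by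
  haveI := h.sep
  rw [← (s33rd_numerics su₂ h).1, s33rd_n_eq su₂ h.gen, s33rdI, degree_poleDiv_gen h.gen]

end Fermat.Agent.S33
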