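/-
GAMMA-RED (helper7), part 14: **lifting the good points of the special fibre to inertia-fixed
places of the generic fibre** (X0).

`su : S33rdSetup d ι κ`, `G` a set of semilinear automorphisms of inertia type (`S33rdInert`), and
every residue has a `G`-fixed lift in `A` (`hfix`).  For a place `Q` of the component `i` off the
finite bad set `s33rdBad su i`:
* `s33rdLift su G hfix i Q` : a place `P` of `F / K`, zero of `x - a` for a `G`-fixed lift `a` of the
  good value `x̄ᵢ(Q)`, which reduces to `(i, Q)` and is fixed by `G` (`s33rd_lift_spec`);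
* `s33rd_lift_inj`          : the lift is injective on the good points.
-/
import Fermat.Agent.Lib.S33.Red.Bad
import Fermat.Agent.Lib.S33.Red.Fixed

set_option autoImplicit false
set_option linter.style.haveILetI false
set_option linter.unusedSectionVars false

namespace Fermat.Agent.S33

open AlgebraicCurve IntermediateField Fermat.Agent.Curve Fermat.Agent.Curve.PlaceAux
  Fermat.Agent.T1 Fermat.Agent.T2 Fermat.Agent.T3

variable {K F k Fb : Type*} [Field K] [Field F] [Algebra K F] [Field k] [CommRing Fb] [Algebra k Fb]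
variable [IsAlgClosed K] [IsAlgClosed k]
variable {d : T2Base K F k Fb} {ι : Type*} {κ : Type*} [Field κ] [Algebra k κ]
  (su : S33rdSetup d ι κ) [Fintype ι]
  (G : Set (SemilinearAut K F)) (hG : ∀ g ∈ G, S33rdInert d su.x g)
  (hfix : ∀ c : k, ∃ a : ↥d.A, d.resA a = c ∧ ∀ g ∈ G, SemilinearAut.baseAut g (a : K) = (a : K))

/-- the property of a lift of the point `(i, Q)` -/
def S33rdIsLift (i : ι) (Q : Place k κ) (P : Place K F) : Prop :=
  ∃ a : ↥d.A, S33rdGood su (d.resA a) ∧ 0 < P.ord (su.x - algebraMap K F (a : K)) ∧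
    S33rdRed su P (i, Q) ∧ ∀ g ∈ G, g • P = P

include hG hfix in
/-- **existence of inertia-fixed lifts of the good points** -/
theorem s33rd_exists_lift_place {i : ι} {Q : Place k κ} (hQ : Q ∉ s33rdBad su i) :
    ∃ P : Place K F, S33rdIsLift su G i Q P := by
  obtain ⟨ab, hgood, hpts⟩ := s33rd_good_of_not_bad su hQ
  obtain ⟨a, rfl, ha⟩ := hfix ab
  obtain ⟨P, hP, hred⟩ := s33rd_red_surj su hgood hpts
  exact ⟨P, a, hgood, hP, hred, fun g hg => s33rd_smul_eq su hgood (hG g hg) (ha g hg) hP⟩

open Classical in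
/-- the lift of the point `(i, Q)` (a junk place if `Q` is bad) -/
noncomputable def s33rdLift (i : ι) (Q : Place k κ) : Place K F :=
  if hQ : Q ∉ s33rdBad su i then (s33rd_exists_lift_place su G hG hfix hQ).choose
  else (haveI := su.sep; CurveP.exists_place su.gen).some

theorem s33rd_lift_spec {i : ι} {Q : Place k κ} (hQ : Q ∉ s33rdBad su i) :
    S33rdIsLift su G i Q (s33rdLift su G hG hfix i Q) := by
  unfold s33rdLift
  rw [dif_pos hQ]
  exact (s33rd_exists_lift_place su G hG hfix hQ).choose_spec

/-- a lift is a chart place -/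
theorem S33rdIsLift.chartPlace {i : ι} {Q : Place k κ} {P : Place K F}
    (hP : S33rdIsLift su G i Q P) : S33rdChartPlace d su.x P := by
  obtain ⟨a, -, hpos, -, -⟩ := hP
  exact s33rd_chartPlace_of_zero su hpos

/-- a lift is not a pole of `x` -/
theorem S33rdIsLift.ord_nonneg {i : ι} {Q : Place k κ} {P : Place K F}
    (hP : S33rdIsLift su G i Q P) : 0 ≤ P.ord su.x := by
  obtain ⟨a, -, hpos, -, -⟩ := hP
  have h1 : su.x ∈ P.toValuationSubring :=
    CurveP.RRAux.mem_of_ordGE_sub_const P (c := (a : K)) ((ordGE_iff P).mpr (Or.inr (by omega)))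
  exact ord_nonneg_of_mem P h1

/-- **two points with the same lift are equal** -/
theorem S33rdIsLift.unique {i i' : ι} {Q Q' : Place k κ} {P : Place K F}
    (hP : S33rdIsLift su G i Q P) (hP' : S33rdIsLift su G i' Q' P) : (i, Q) = (i', Q') := by
  obtain ⟨a', hgood', hpos', hred', -⟩ := hP'
  exact s33rd_red_unique su hgood' (hP.chartPlace su G) hP.choose_spec.2.2.1 hred'
    (hred'.mem_ptsOver su hpos')

theorem s33rd_lift_inj {i i' : ι} {Q Q' : Place k κ} (hQ : Q ∉ s33rdBad su i)
    (hQ' : Q' ∉ s33rdBad su i')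
    (heq : s33rdLift su G hG hfix i Q = s33rdLift su G hG hfix i' Q') : (i, Q) = (i', Q') := by
  have h1 := s33rd_lift_spec su G hG hfix hQ
  have h2 := s33rd_lift_spec su G hG hfix hQ'
  rw [← heq] at h2
  exact h1.unique su G h2

/-- **(ORD) for a lift** -/
theorem S33rdIsLift.ord_le {i : ι} {Q : Place k κ} {P : Place K F}
    (hP : S33rdIsLift su G i Q P) {f : F} (hf : f ∈ s33rdC d su.x) (j : ℕ)
    (hj : OrdGE P f j) : OrdGE Q (su.rb i hf.1) j := by
  obtain ⟨a, hgood, hpos, hred, -⟩ := hP
  exact s33rd_ord_le su hgood hpos hred hf j hj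

end Fermat.Agent.S33
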