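/-
GAMMA-RED (helper7), part 15: **(X0) + (X1)**: lifting the generic divisor of the special fibre and
the inclusions of the dictionary.

`d : T2Base K F k (κ × κ)`, `su₂ : T2Setup d σ`, `h : S33rdHyp su₂`, `N = s33rdN su₂ h`,
`I = (x)_∞`, `Īᵢ = (x̄ᵢ)_∞`; `G` a set of semilinear automorphisms of inertia type with `G`-fixed
lifts of the residues.  For effective multiplicity-free divisors `E₁`, `E₂` on the two components,
off the finite bad sets `s33rdBad su 0`, `s33rdBad su 1`: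
* `s33rdE0`           : the lift `E0 = Σ lift(Q)`, effective, `G`-invariant, of degree
  `deg E₁ + deg E₂`;
* `s33rd_incl`        : `res (L(n I - j E0) ∩ 𝒪) ⊆ L^nod(n Ī₁ - j E₁, n Ī₂ - j E₂)` for all `n j : ℕ`;
* `s33rd_incl_pole`   : `res (L(j E0) ∩ 𝒪) ⊆ L^nod(j E₁, j E₂)` for all `j : ℕ`;
* `s33rd_exists_lift` : everything in one statement.
-/
import Fermat.Agent.Lib.S33.Red.Lift
import Fermat.Agent.Lib.S33.Red.Dict
import Fermat.Agent.Lib.S33.Chart.Dict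
import Fermat.Agent.Lib.S33.Nod.Colon
import Fermat.Agent.Lib.T3.Red.Cons2

set_option autoImplicit false
set_option linter.style.haveILetI false
set_option linter.unusedSectionVars false

namespace Fermat.Agent.S33

open AlgebraicCurve IntermediateField Fermat.Agent.Curve Fermat.Agent.Curve.PlaceAux
  Fermat.Agent.T1 Fermat.Agent.T2 Fermat.Agent.T3 Fermat.Agent.S33N

open Fermat.Agent.CurveP.RRAux (poleDiv poleDiv_apply poleDiv_nonneg degree_poleDiv_gen)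

variable {K F k κ : Type*} [Field K] [Field F] [Algebra K F] [Field k] [Field κ] [Algebra k κ]
  [IsAlgClosed K] [IsAlgClosed k]
variable {d : T2Base K F k (κ × κ)} {σ : Type*} [Fintype σ]
variable (su₂ : T2Setup d σ) (h : S33rdHyp su₂)
  (G : Set (SemilinearAut K F)) (hG : ∀ g ∈ G, S33rdInert d su₂.x g)
  (hfix : ∀ c : k, ∃ a : ↥d.A, d.resA a = c ∧ ∀ g ∈ G, SemilinearAut.baseAut g (a : K) = (a : K))

/-- the lift of a pair of divisors of the two components -/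
noncomputable def s33rdE0 (E₁ E₂ : Divisor k κ) : Divisor K F :=
  Finsupp.mapDomain (s33rdLift (s33rdInst su₂ h) G hG hfix 0) E₁ +
    Finsupp.mapDomain (s33rdLift (s33rdInst su₂ h) G hG hfix 1) E₂

section E0

variable {E₁ E₂ : Divisor k κ}

theorem s33rdE0_nonneg (hE₁ : 0 ≤ E₁) (hE₂ : 0 ≤ E₂) : 0 ≤ s33rdE0 su₂ h G hG hfix E₁ E₂ :=
  add_nonneg (t3a_mapDomain_nonneg _ hE₁) (t3a_mapDomain_nonneg _ hE₂)

theorem s33rdE0_degree :
    Divisor.degree (s33rdE0 su₂ h G hG hfix E₁ E₂) = Divisor.degree E₁ + Divisor.degree E₂ := by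
  rw [s33rdE0, map_add, t3a_degree_mapDomain h.gen₁ h.gen, t3a_degree_mapDomain h.gen₂ h.gen]

/-- the lift is `G`-invariant -/
theorem s33rdE0_smul (hS₁ : ∀ v ∈ s33rdBad (s33rdInst su₂ h) 0, E₁ v = 0)
    (hS₂ : ∀ v ∈ s33rdBad (s33rdInst su₂ h) 1, E₂ v = 0) {g : SemilinearAut K F} (hg : g ∈ G) :
    g • s33rdE0 su₂ h G hG hfix E₁ E₂ = s33rdE0 su₂ h G hG hfix E₁ E₂ := by
  have key : ∀ (i : Fin 2) (E : Divisor k κ), (∀ v ∈ s33rdBad (s33rdInst su₂ h) i, E v = 0) →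
      g • (Finsupp.mapDomain (s33rdLift (s33rdInst su₂ h) G hG hfix i) E : Divisor K F) =
        Finsupp.mapDomain (s33rdLift (s33rdInst su₂ h) G hG hfix i) E := by
    intro i E hE
    rw [SemilinearAut.divisor_smul_def, ← Finsupp.mapDomain_comp]
    refine Finsupp.mapDomain_congr fun Q hQ => ?_
    have hQ' : Q ∉ s33rdBad (s33rdInst su₂ h) i := fun hbad =>
      (Finsupp.mem_support_iff.mp hQ) (hE Q hbad)
    obtain ⟨a, -, -, -, hfixP⟩ := s33rd_lift_spec (s33rdInst su₂ h) G hG hfix hQ'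
    exact hfixP g hg
  rw [s33rdE0, smul_add, key 0 E₁ hS₁, key 1 E₂ hS₂]

/-- the lift has multiplicity `≥ 1` at the lift of a point of `E₁` -/
theorem s33rdE0_apply_lift₀ (hE₁ : 0 ≤ E₁) (hE₂ : 0 ≤ E₂) (Q : Place k κ) :
    E₁ Q ≤ s33rdE0 su₂ h G hG hfix E₁ E₂ (s33rdLift (s33rdInst su₂ h) G hG hfix 0 Q) := by
  classical
  rw [s33rdE0, Finsupp.add_apply]
  have h2 := t3a_mapDomain_nonneg (s33rdLift (s33rdInst su₂ h) G hG hfix 1) hE₂
    (s33rdLift (s33rdInst su₂ h) G hG hfix 0 Q)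
  rw [Finsupp.zero_apply] at h2
  have h1 : E₁ Q ≤ (Finsupp.mapDomain (s33rdLift (s33rdInst su₂ h) G hG hfix 0) E₁ : Divisor K F)
      (s33rdLift (s33rdInst su₂ h) G hG hfix 0 Q) := by
    rw [t3a_mapDomain_apply]
    by_cases hQ : Q ∈ E₁.support
    · refine le_trans ?_ (Finset.single_le_sum (f := fun P =>
        if s33rdLift (s33rdInst su₂ h) G hG hfix 0 P = s33rdLift (s33rdInst su₂ h) G hG hfix 0 Q
          then E₁ P else 0) (fun P _ => ?_) hQ)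
      · simp
      · split_ifs
        · exact hE₁ P
        · exact le_rfl
    · rw [Finsupp.notMem_support_iff.mp hQ]
      refine Finset.sum_nonneg fun P _ => ?_
      split_ifs
      · exact hE₁ P
      · exact le_rfl
  omega

theorem s33rdE0_apply_lift₁ (hE₁ : 0 ≤ E₁) (hE₂ : 0 ≤ E₂) (Q : Place k κ) :
    E₂ Q ≤ s33rdE0 su₂ h G hG hfix E₁ E₂ (s33rdLift (s33rdInst su₂ h) G hG hfix 1 Q) := by
  classical
  rw [s33rdE0, Finsupp.add_apply]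
  have h2 := t3a_mapDomain_nonneg (s33rdLift (s33rdInst su₂ h) G hG hfix 0) hE₁
    (s33rdLift (s33rdInst su₂ h) G hG hfix 1 Q)
  rw [Finsupp.zero_apply] at h2
  have h1 : E₂ Q ≤ (Finsupp.mapDomain (s33rdLift (s33rdInst su₂ h) G hG hfix 1) E₂ : Divisor K F)
      (s33rdLift (s33rdInst su₂ h) G hG hfix 1 Q) := by
    rw [t3a_mapDomain_apply]
    by_cases hQ : Q ∈ E₂.support
    · refine le_trans ?_ (Finset.single_le_sum (f := fun P =>
        if s33rdLift (s33rdInst su₂ h) G hG hfix 1 P = s33rdLift (s33rdInst su₂ h) G hG hfix 1 Q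
          then E₂ P else 0) (fun P _ => ?_) hQ)
      · simp
      · split_ifs
        · exact hE₂ P
        · exact le_rfl
    · rw [Finsupp.notMem_support_iff.mp hQ]
      refine Finset.sum_nonneg fun P _ => ?_
      split_ifs
      · exact hE₂ P
      · exact le_rfl
  omega

/-- the points of the lift are lifts -/
theorem s33rdE0_support (hS₁ : ∀ v ∈ s33rdBad (s33rdInst su₂ h) 0, E₁ v = 0)
    (hS₂ : ∀ v ∈ s33rdBad (s33rdInst su₂ h) 1, E₂ v = 0) {P : Place K F}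
    (hP : s33rdE0 su₂ h G hG hfix E₁ E₂ P ≠ 0) :
    ∃ (i : Fin 2) (Q : Place k κ), S33rdIsLift (s33rdInst su₂ h) G i Q P := by
  classical
  rw [s33rdE0, Finsupp.add_apply] at hP
  have key : ∀ (i : Fin 2) (E : Divisor k κ), (∀ v ∈ s33rdBad (s33rdInst su₂ h) i, E v = 0) →
      (Finsupp.mapDomain (s33rdLift (s33rdInst su₂ h) G hG hfix i) E : Divisor K F) P ≠ 0 →
      ∃ Q : Place k κ, S33rdIsLift (s33rdInst su₂ h) G i Q P := by
    intro i E hE hne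
    rw [t3a_mapDomain_apply] at hne
    obtain ⟨Q, hQ, hQne⟩ := Finset.exists_ne_zero_of_sum_ne_zero hne
    have hQeq : s33rdLift (s33rdInst su₂ h) G hG hfix i Q = P := by
      by_contra hcon
      rw [if_neg hcon] at hQne
      exact hQne rfl
    have hQ' : Q ∉ s33rdBad (s33rdInst su₂ h) i := fun hbad =>
      (Finsupp.mem_support_iff.mp hQ) (hE Q hbad)
    exact ⟨Q, hQeq ▸ s33rd_lift_spec (s33rdInst su₂ h) G hG hfix hQ'⟩
  by_cases h1 : (Finsupp.mapDomain (s33rdLift (s33rdInst su₂ h) G hG hfix 0) E₁ : Divisor K F) P = 0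
  · rw [h1, zero_add] at hP
    obtain ⟨Q, hQ⟩ := key 1 E₂ hS₂ hP
    exact ⟨1, Q, hQ⟩
  · obtain ⟨Q, hQ⟩ := key 0 E₁ hS₁ h1
    exact ⟨0, Q, hQ⟩

/-- the lift is off the poles of `x` -/
theorem s33rdE0_off (hS₁ : ∀ v ∈ s33rdBad (s33rdInst su₂ h) 0, E₁ v = 0)
    (hS₂ : ∀ v ∈ s33rdBad (s33rdInst su₂ h) 1, E₂ v = 0) (P : Place K F)
    (hP : P.ord su₂.x < 0) : s33rdE0 su₂ h G hG hfix E₁ E₂ P = 0 := by
  by_contra hne
  obtain ⟨i, Q, hQ⟩ := s33rdE0_support su₂ h G hG hfix hS₁ hS₂ hne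
  have := hQ.ord_nonneg (s33rdInst su₂ h) G
  rw [s33rdInst_x] at this
  omega

/-- the divisors off the bad sets are off the nodes -/
theorem s33rd_off_of_bad (hS₁ : ∀ v ∈ s33rdBad (s33rdInst su₂ h) 0, E₁ v = 0)
    (hS₂ : ∀ v ∈ s33rdBad (s33rdInst su₂ h) 1, E₂ v = 0) : (s33rdN su₂ h).Off E₁ E₂ := by
  rw [s33rdN_off_iff]
  constructor
  · intro Q hQ
    exact hS₁ Q (s33rd_node_mem_bad' (s33rdInst su₂ h) ((mem_s33rdNodes su₂ h).mp hQ))
  · intro Q hQ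
    exact hS₂ Q (s33rd_node_mem_bad' (s33rdInst su₂ h) ((mem_s33rdNodes su₂ h).mp hQ))

end E0

section Incl

variable {E₁ E₂ : Divisor k κ} (hE₁ : 0 ≤ E₁) (hE₂ : 0 ≤ E₂) (hm₁ : ∀ v, E₁ v ≤ 1)
  (hm₂ : ∀ v, E₂ v ≤ 1)
  (hS₁ : ∀ v ∈ s33rdBad (s33rdInst su₂ h) 0, E₁ v = 0)
  (hS₂ : ∀ v ∈ s33rdBad (s33rdInst su₂ h) 1, E₂ v = 0)

/-- an effective multiplicity-free divisor takes the values `0`, `1` -/
theorem s33rd_smul_apply_pos {E : Divisor k κ} (hE : 0 ≤ E) (hm : ∀ v, E v ≤ 1) {j : ℕ}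
    {Q : Place k κ} (hQ : 0 < (j • E) Q) : E Q = 1 ∧ (j • E) Q = (j : ℤ) := by
  have h0 := hE Q
  rw [Finsupp.zero_apply] at h0
  have h1 := hm Q
  rw [Finsupp.smul_apply, nsmul_eq_mul] at hQ ⊢
  have : E Q = 1 := by
    rcases eq_or_lt_of_le h0 with h2 | h2
    · rw [← h2, mul_zero] at hQ
      exact absurd hQ (lt_irrefl _)
    · omega
  rw [this, mul_one]
  exact ⟨rfl, rfl⟩

include hE₁ hE₂ hm₁ hm₂ hS₁ hS₂ in
/-- **(X1)**: `res (L(n I - j E0) ∩ 𝒪) ⊆ L^nod(n Ī₁ - j E₁, n Ī₂ - j E₂)` -/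
theorem s33rd_incl (n j : ℕ) :
    d.resBall (riemannRochSpace (n • s33rdI su₂ h - j • s33rdE0 su₂ h G hG hfix E₁ E₂)) ≤
      s33nL (s33rdN su₂ h) (n • s33rdI₁ su₂ h - j • E₁) (n • s33rdI₂ su₂ h - j • E₂) := by
  haveI := h.sep
  haveI := h.sep₁
  haveI := h.sep₂
  rintro _ ⟨f, ⟨hfL, hfO⟩, rfl⟩
  set E0 := s33rdE0 su₂ h G hG hfix E₁ E₂ with hE0def
  have hE0 : 0 ≤ E0 := s33rdE0_nonneg su₂ h G hG hfix hE₁ hE₂
  have hoff : ∀ v : Place K F, v.ord su₂.x < 0 → (j • E0) v = 0 := fun v hv => by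
    rw [Finsupp.smul_apply, hE0def, s33rdE0_off su₂ h G hG hfix hS₁ hS₂ v hv, smul_zero]
  unfold s33rdI at hfL
  obtain ⟨hf1, hf2⟩ := (s33bi_mem_L_sub_iff h.gen n (j • E0) (nsmul_nonneg hE0 j) hoff f).mp hfL
  have hfC : f ∈ s33rdC d su₂.x := by
    refine ⟨hfO, ?_⟩
    have := hf1.1
    rwa [pow_zero, one_mul] at this
  have ht : d.res ⟨f, hfO⟩ ∈ su₂.Lsing n 0 := su₂.resBall_le_Lsing n 0 ⟨f, ⟨hf1, hfO⟩, rfl⟩
  rw [s33rd_Lsing_eq su₂ h n] at ht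
  obtain ⟨t1, t2, treg, tev⟩ := ht
  refine ⟨?_, ?_, treg, tev⟩
  · -- the first component
    unfold s33rdI₁ at t1 ⊢
    have hoff₁ : ∀ Q : Place k κ, Q.ord su₂.xb.1 < 0 → (j • E₁) Q = 0 := fun Q hQ => by
      rw [Finsupp.smul_apply, hS₁ Q (Or.inl hQ), smul_zero]
    rw [s33bi_mem_L_sub_iff h.gen₁ n (j • E₁) (nsmul_nonneg hE₁ j) hoff₁]
    refine ⟨by rw [← s33bi_L_nsmul h.gen₁ n]; exact t1, fun Q hQ => ?_⟩
    obtain ⟨hEQ, hjQ⟩ := s33rd_smul_apply_pos hE₁ hm₁ hQ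
    have hQbad : Q ∉ s33rdBad (s33rdInst su₂ h) 0 := fun hbad => by
      rw [hS₁ Q hbad] at hEQ
      exact zero_ne_one hEQ
    have hlift := s33rd_lift_spec (s33rdInst su₂ h) G hG hfix hQbad
    have hE0P := s33rdE0_apply_lift₀ su₂ h G hG hfix hE₁ hE₂ Q
    rw [hEQ, ← hE0def] at hE0P
    have hj : (1 : ℤ) ≤ j := by
      rw [hjQ] at hQ
      omega
    have h3 : (j : ℤ) ≤ (j • E0) (s33rdLift (s33rdInst su₂ h) G hG hfix 0 Q) := by
      rw [Finsupp.smul_apply, nsmul_eq_mul]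
      nlinarith
    have h4 := (hf2 _ (by omega)).mono _ h3
    have h5 := hlift.ord_le (s33rdInst su₂ h) G (f := f) hfC j h4
    rw [hjQ]
    exact h5
  · -- the second component
    unfold s33rdI₂ at t2 ⊢
    have hoff₂ : ∀ Q : Place k κ, Q.ord su₂.xb.2 < 0 → (j • E₂) Q = 0 := fun Q hQ => by
      rw [Finsupp.smul_apply, hS₂ Q (Or.inl hQ), smul_zero]
    rw [s33bi_mem_L_sub_iff h.gen₂ n (j • E₂) (nsmul_nonneg hE₂ j) hoff₂]
    refine ⟨by rw [← s33bi_L_nsmul h.gen₂ n]; exact t2, fun Q hQ => ?_⟩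
    obtain ⟨hEQ, hjQ⟩ := s33rd_smul_apply_pos hE₂ hm₂ hQ
    have hQbad : Q ∉ s33rdBad (s33rdInst su₂ h) 1 := fun hbad => by
      rw [hS₂ Q hbad] at hEQ
      exact zero_ne_one hEQ
    have hlift := s33rd_lift_spec (s33rdInst su₂ h) G hG hfix hQbad
    have hE0P := s33rdE0_apply_lift₁ su₂ h G hG hfix hE₁ hE₂ Q
    rw [hEQ, ← hE0def] at hE0P
    have hj : (1 : ℤ) ≤ j := by
      rw [hjQ] at hQ
      omega
    have h3 : (j : ℤ) ≤ (j • E0) (s33rdLift (s33rdInst su₂ h) G hG hfix 1 Q) := by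
      rw [Finsupp.smul_apply, nsmul_eq_mul]
      nlinarith
    have h4 := (hf2 _ (by omega)).mono _ h3
    have h5 := hlift.ord_le (s33rdInst su₂ h) G (f := f) hfC j h4
    rw [hjQ]
    exact h5

include hE₁ hE₂ hm₁ hm₂ hS₁ hS₂ in
/-- **(X1), poles**: `res (L(j E0) ∩ 𝒪) ⊆ L^nod(j E₁, j E₂)` -/
theorem s33rd_incl_pole (j : ℕ) :
    d.resBall (riemannRochSpace (j • s33rdE0 su₂ h G hG hfix E₁ E₂)) ≤
      s33nL (s33rdN su₂ h) (j • E₁) (j • E₂) := by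
  haveI := h.sep
  haveI := h.sep₁
  haveI := h.sep₂
  set N := s33rdN su₂ h with hN
  set E0 := s33rdE0 su₂ h G hG hfix E₁ E₂ with hE0def
  -- numerics
  have hD₁ : 0 < Divisor.degree (s33rdI₁ su₂ h) := s33bi_degree_pos h.gen₁
  have hD₂ : 0 < Divisor.degree (s33rdI₂ su₂ h) := s33bi_degree_pos h.gen₂
  have he₁ : 0 ≤ Divisor.degree E₁ := CurveP.RRAux.degree_nonneg_of_nonneg hE₁
  have he₂ : 0 ≤ Divisor.degree E₂ := CurveP.RRAux.degree_nonneg_of_nonneg hE₂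
  have hdegE : Divisor.degree E0 = Divisor.degree E₁ + Divisor.degree E₂ :=
    s33rdE0_degree su₂ h G hG hfix
  have hdegI := s33rd_degI su₂ h
  have hpa := s33rd_pa su₂ h
  set g₁ : ℤ := ((CurveP.genusR k κ : ℕ) : ℤ) with hg₁
  set c₁ : ℤ := ((Fintype.card ↥(s33rdNodes su₂ h 0) : ℕ) : ℤ) with hc₁
  set c₂ : ℤ := ((Fintype.card ↥(s33rdNodes su₂ h 1) : ℕ) : ℤ) with hc₂
  set g : ℤ := ((CurveP.genusR K F : ℕ) : ℤ) with hg
  have hg₁0 : 0 ≤ g₁ := Int.natCast_nonneg _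
  have hc₁0 : 0 ≤ c₁ := Int.natCast_nonneg _
  have hc₂0 : 0 ≤ c₂ := Int.natCast_nonneg _
  have hg0 : 0 ≤ g := Int.natCast_nonneg _
  have hj0 : (0 : ℤ) ≤ j := Int.natCast_nonneg _
  set M : ℤ := 2 * g₁ + c₁ + (2 * g₁ + c₂) + 2 * g +
    j * (Divisor.degree E₁ + Divisor.degree E₂) with hM
  have hM0 : 0 ≤ M := by
    have : 0 ≤ (j : ℤ) * (Divisor.degree E₁ + Divisor.degree E₂) :=
      mul_nonneg hj0 (by omega)
    omega
  set n : ℕ := M.toNat with hn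
  have hnM : (n : ℤ) = M := Int.toNat_of_nonneg hM0
  have hjE : 0 ≤ (j : ℤ) * (Divisor.degree E₁ + Divisor.degree E₂) := mul_nonneg hj0 (by omega)
  have hjE₁ : 0 ≤ (j : ℤ) * Divisor.degree E₁ := mul_nonneg hj0 he₁
  have hjE₂ : 0 ≤ (j : ℤ) * Divisor.degree E₂ := mul_nonneg hj0 he₂
  -- the divisors
  have hoffI : N.Off (n • s33rdI₁ su₂ h) (n • s33rdI₂ su₂ h) := s33rdN_off_I su₂ h n
  have hoffE : N.Off E₁ E₂ := s33rd_off_of_bad su₂ h hS₁ hS₂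
  have hoffjE : N.Off (j • E₁) (j • E₂) :=
    ⟨fun s => by rw [Finsupp.smul_apply, hoffE.1 s, smul_zero],
      fun s => by rw [Finsupp.smul_apply, hoffE.2 s, smul_zero]⟩
  have hoffA : N.Off (n • s33rdI₁ su₂ h - j • E₁) (n • s33rdI₂ su₂ h - j • E₂) :=
    hoffI.sub N hoffjE
  have hdA₁ : Divisor.degree (n • s33rdI₁ su₂ h - j • E₁) =
      n * Divisor.degree (s33rdI₁ su₂ h) - j * Divisor.degree E₁ := by
    rw [map_sub, map_nsmul, map_nsmul, nsmul_eq_mul, nsmul_eq_mul]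
  have hdA₂ : Divisor.degree (n • s33rdI₂ su₂ h - j • E₂) =
      n * Divisor.degree (s33rdI₂ su₂ h) - j * Divisor.degree E₂ := by
    rw [map_sub, map_nsmul, map_nsmul, nsmul_eq_mul, nsmul_eq_mul]
  have hdA : Divisor.degree (n • s33rdI su₂ h - j • E0) =
      Divisor.degree (n • s33rdI₁ su₂ h - j • E₁) + Divisor.degree (n • s33rdI₂ su₂ h - j • E₂) := by
    rw [hdA₁, hdA₂, map_sub, map_nsmul, map_nsmul, nsmul_eq_mul, nsmul_eq_mul, hdegI, hdegE]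
    ring
  have hn0 : (0 : ℤ) ≤ n := Int.natCast_nonneg _
  have hn₁ : (n : ℤ) ≤ n * Divisor.degree (s33rdI₁ su₂ h) :=
    le_mul_of_one_le_right hn0 (by omega)
  have hn₂ : (n : ℤ) ≤ n * Divisor.degree (s33rdI₂ su₂ h) :=
    le_mul_of_one_le_right hn0 (by omega)
  have hexp : (j : ℤ) * (Divisor.degree E₁ + Divisor.degree E₂) =
      j * Divisor.degree E₁ + j * Divisor.degree E₂ := mul_add _ _ _
  have hA₁ : 2 * g₁ + c₁ ≤ Divisor.degree (n • s33rdI₁ su₂ h - j • E₁) := by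
    rw [hdA₁]
    linarith
  have hA₂ : 2 * g₁ + c₂ ≤ Divisor.degree (n • s33rdI₂ su₂ h - j • E₂) := by
    rw [hdA₂]
    linarith
  have h2g : 2 * g - 1 ≤ Divisor.degree (n • s33rdI su₂ h - j • E0) := by
    rw [hdA, hdA₁, hdA₂]
    linarith
  -- equality of the dictionary for `n I - j E0`
  have heq : d.resBall (riemannRochSpace (n • s33rdI su₂ h - j • E0)) =
      s33nL N (n • s33rdI₁ su₂ h - j • E₁) (n • s33rdI₂ su₂ h - j • E₂) :=
    s33h_dict_eq h.gen₁ h.gen₂ N h.gen d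
      (s33rd_incl su₂ h G hG hfix hE₁ hE₂ hm₁ hm₂ hS₁ hS₂ n j) hoffA hdA hpa
      (by omega) (by omega) h2g
  -- the colon
  rintro _ ⟨f, ⟨hfL, hfO⟩, rfl⟩
  have key : ∀ u ∈ s33nL N (n • s33rdI₁ su₂ h - j • E₁) (n • s33rdI₂ su₂ h - j • E₂),
      d.res ⟨f, hfO⟩ * u ∈ s33nL N (n • s33rdI₁ su₂ h) (n • s33rdI₂ su₂ h) := by
    intro u hu
    rw [← heq] at hu
    obtain ⟨g', ⟨hgL, hgO⟩, rfl⟩ := hu
    have hmul : f * g' ∈ riemannRochSpace (n • s33rdI su₂ h) := by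
      have := CurveP.RRAux.mul_mem_riemannRochSpace hfL hgL
      rwa [add_sub_cancel] at this
    rw [s33rdI, s33bi_L_nsmul h.gen n] at hmul
    have hres : d.res ⟨f * g', d.Ov.mul_mem hfO hgO⟩ ∈ su₂.Lsing n 0 :=
      su₂.resBall_le_Lsing n 0 ⟨f * g', ⟨hmul, d.Ov.mul_mem hfO hgO⟩, rfl⟩
    rw [s33rd_Lsing_eq su₂ h n, d.res_mul' hfO hgO] at hres
    exact hres
  have hcol := (s33n_colon h.gen₁ h.gen₂ N hoffA hoffI (by omega) (by omega)
    (d.res ⟨f, hfO⟩)).mp key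
  rwa [sub_sub_cancel, sub_sub_cancel] at hcol

end Incl

include hG hfix in
/-- **(X0) + (X1) in one statement**: off two finite sets of places of the components, every pair of
effective multiplicity-free divisors lifts to an effective `G`-invariant divisor of the generic
fibre of the same degree, with the inclusions of the dictionary. -/
theorem s33rd_exists_lift :
    ∃ S₁ S₂ : Set (Place k κ), S₁.Finite ∧ S₂.Finite ∧
      ∀ E₁ E₂ : Divisor k κ, 0 ≤ E₁ → 0 ≤ E₂ → (∀ v, E₁ v ≤ 1) → (∀ v, E₂ v ≤ 1) →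
        (∀ v ∈ S₁, E₁ v = 0) → (∀ v ∈ S₂, E₂ v = 0) →
        ∃ E0 : Divisor K F, 0 ≤ E0 ∧
          Divisor.degree E0 = Divisor.degree E₁ + Divisor.degree E₂ ∧
          (∀ g ∈ G, g • E0 = E0) ∧ (s33rdN su₂ h).Off E₁ E₂ ∧
          (∀ n j : ℕ, d.resBall (riemannRochSpace (n • s33rdI su₂ h - j • E0)) ≤
            s33nL (s33rdN su₂ h) (n • s33rdI₁ su₂ h - j • E₁) (n • s33rdI₂ su₂ h - j • E₂)) ∧
          ∀ j : ℕ, d.resBall (riemannRochSpace (j • E0)) ≤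
            s33nL (s33rdN su₂ h) (j • E₁) (j • E₂) := by
  refine ⟨s33rdBad (s33rdInst su₂ h) 0, s33rdBad (s33rdInst su₂ h) 1,
    s33rd_bad_finite _ 0, s33rd_bad_finite _ 1, ?_⟩
  intro E₁ E₂ hE₁ hE₂ hm₁ hm₂ hS₁ hS₂
  exact ⟨s33rdE0 su₂ h G hG hfix E₁ E₂, s33rdE0_nonneg su₂ h G hG hfix hE₁ hE₂,
    s33rdE0_degree su₂ h G hG hfix,
    fun g hg => s33rdE0_smul su₂ h G hG hfix hS₁ hS₂ hg,
    s33rd_off_of_bad su₂ h hS₁ hS₂,
    fun n j => s33rd_incl su₂ h G hG hfix hE₁ hE₂ hm₁ hm₂ hS₁ hS₂ n j,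
    fun j => s33rd_incl_pole su₂ h G hG hfix hE₁ hE₂ hm₁ hm₂ hS₁ hS₂ j⟩

end Fermat.Agent.S33
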